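/-
Programme DS (S48), chapter X1 (helper13): THE CONCRETE LEVEL `Γ₁(M)`.

This file defines, purely formally (Mathlib + Prelude + the two interface files
`DS/G/Level.lean` and `DS/G/ES/RED/Iface.lean`):

* the INTEGRAL formal generators of the function field of `X₁(M)/±`:
  - `jD d = j(q^d)`, `d ∣ M` (the generators of `X₀(M)`, verbatim the set `(X0gens M).gens`);
  - `gAB M a b = (E₄E₆/Δ)(q^M) · (X_a - X_b)`, `a b : ZMod M`, `a ≠ 0`, `b ≠ 0`, where
      `X_a = ∑_{n ≥ 1} (∑_{d ∣ n} d · c_a(n / d)) q^n`,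
      `c_a(m) = [m ≡ a] + [m ≡ -a] - 2 [m ≡ 0]  (mod M)`,
    is the `q`-expansion of `℘((aτ' + 0)/M ; τ') / (2πi)² - 1/12` at `τ' = Mτ`
    (weight `2` for `Γ₁(M)`; the constants `1/12` cancel in the difference, so that the
    difference is integral; `E₄E₆/Δ` has weight `-2`);
* the generator datum `X1gens M : GenData` (`gens := gensZ M`), so that `(X1gens M).FC k` is the
  function field of `X₁(M)/±` over every field `k`, functorially in `k`;
* the group `Gamma1pm M = ±Γ₁(M)`;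
* the level `L1 M : LevelData` with `F₀ = (X1gens M).FQ`, `gensQ = (X1gens M).gensC ℚ`
  (both DEFINITIONALLY), `Gam = ±Γ₁(M)`, `w = M`;
* comparison with the level `Γ₀(M)`: `(L0 M).F₀ ≤ (L1 M).F₀`, `(L1 M).Gam ≤ (L0 M).Gam`;
* the generators over an arbitrary commutative ring `R` (`wqC`, `xAC`, `gABC`, `jDC`), their explicit
  shape and their compatibility with `coeffMap`.
-/
import Mathlib
import Fermat.Agent.DS.G.Level
import Fermat.Agent.DS.G.ES.RED.Iface

set_option autoImplicit false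

noncomputable section

open HahnSeries ModularCurve IntermediateField
open scoped MatrixGroups

namespace Fermat.Agent.DS.X1.Level1

open Fermat.Agent.DS.G.Level Fermat.Agent.DS.G.ES.RED.Iface

/-! ### `E₆` and `E₄E₆/Δ` -/

/-- The formal Eisenstein series `E₆ = 1 - 504 ∑ σ₅(n) qⁿ`. -/
def eisenstein6 : PowerSeries ℤ :=
  PowerSeries.mk fun n => if n = 0 then 1 else -504 * ∑ d ∈ n.divisors, (d : ℤ) ^ 5

theorem coeff_eisenstein6 (n : ℕ) :
    PowerSeries.coeff n eisenstein6 =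
      if n = 0 then 1 else -504 * ∑ d ∈ n.divisors, (d : ℤ) ^ 5 := by
  rw [eisenstein6, PowerSeries.coeff_mk]

@[simp]
theorem constantCoeff_eisenstein6 : PowerSeries.constantCoeff eisenstein6 = 1 := by
  rw [← PowerSeries.coeff_zero_eq_constantCoeff]
  simp [eisenstein6]

/-- The power series part of `E₄E₆/Δ = q⁻¹ · wNum`. -/
def wNum : PowerSeries ℤ := eisenstein4 * eisenstein6 * dedekindEtaUnitInv

@[simp]
theorem constantCoeff_wNum : PowerSeries.constantCoeff wNum = 1 := by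
  rw [wNum, map_mul, map_mul, constantCoeff_eisenstein4, constantCoeff_eisenstein6,
    constantCoeff_dedekindEtaUnitInv, one_mul, one_mul]

/-- `E₄E₆/Δ` over a commutative ring `R` (same shape as `jqModC R`). -/
def wqC (R : Type*) [CommRing R] : LaurentSeries R :=
  HahnSeries.single (-1 : ℤ) 1 * HahnSeries.ofPowerSeries ℤ R (wNum.map (Int.castRingHom R))

/-- `E₄E₆/Δ` with integer coefficients. -/
abbrev wq : LaurentSeries ℤ := wqC ℤ

theorem coeffMap_wqC {R S : Type*} [CommRing R] [CommRing S] (f : R →+* S) :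
    coeffMap f (wqC R) = wqC S := by
  rw [wqC, map_mul, coeffMap_single, map_one, coeffMap_ofPowerSeries,
    ← RingHom.comp_apply (PowerSeries.map f) (PowerSeries.map (Int.castRingHom R)),
    ← PowerSeries.map_comp, RingHom.ext_int (f.comp (Int.castRingHom R)) (Int.castRingHom S)]
  rfl

theorem wqC_ne_zero (R : Type*) [CommRing R] [Nontrivial R] : wqC R ≠ 0 := by
  intro h
  have h1 : (wqC R).coeff (-1) = 1 := by
    have h0 : (HahnSeries.ofPowerSeries ℤ R (wNum.map (Int.castRingHom R))).coeff ((0 : ℕ) : ℤ)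
        = 1 := by
      rw [HahnSeries.ofPowerSeries_apply_coeff, PowerSeries.coeff_map,
        PowerSeries.coeff_zero_eq_constantCoeff, constantCoeff_wNum]
      simp
    have h2 := HahnSeries.coeff_single_mul_add (r := (1 : R))
      (x := HahnSeries.ofPowerSeries ℤ R (wNum.map (Int.castRingHom R))) (a := (0 : ℤ))
      (b := (-1 : ℤ))
    rw [zero_add, one_mul] at h2
    rw [wqC, h2]
    simpa using h0
  rw [h] at h1
  simp at h1

/-- `(E₄E₆/Δ)(q^M)` over `R`. -/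
def wMC (R : Type*) [CommRing R] (M : ℕ) [NeZero M] : LaurentSeries R := qExpand R M (wqC R)

theorem coeffMap_wMC {R S : Type*} [CommRing R] [CommRing S] (f : R →+* S) (M : ℕ) [NeZero M] :
    coeffMap f (wMC R M) = wMC S M := by
  rw [wMC, coeffMap_qExpand, coeffMap_wqC, wMC]

theorem wMC_ne_zero (R : Type*) [CommRing R] [Nontrivial R] (M : ℕ) [NeZero M] :
    wMC R M ≠ 0 := by
  intro h
  apply wqC_ne_zero R
  apply qExpand_injective (R := R) M
  rw [map_zero]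
  exact h

/-! ### the weight two series `X_a` -/

section XA

variable (M : ℕ)

/-- `c_a(m) = [m ≡ a] + [m ≡ -a] - 2 [m ≡ 0] (mod M)`. -/
def cA (a : ZMod M) (m : ℕ) : ℤ :=
  (if (m : ZMod M) = a then 1 else 0) + (if (m : ZMod M) = -a then 1 else 0)
    - 2 * (if (m : ZMod M) = 0 then 1 else 0)

theorem cA_neg (a : ZMod M) (m : ℕ) : cA M (-a) m = cA M a m := by
  unfold cA
  rw [neg_neg]
  ring

theorem cA_zero (m : ℕ) : cA M 0 m = 0 := by
  unfold cA
  rw [neg_zero]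
  ring

/-- `cA` only depends on `m` modulo `M`. -/
theorem cA_congr (a : ZMod M) {m m' : ℕ} (h : (m : ZMod M) = (m' : ZMod M)) :
    cA M a m = cA M a m' := by
  unfold cA
  rw [h]

/-- `X_a = ∑_{n ≥ 1} (∑_{d ∣ n} d · c_a(n / d)) q^n`: the `q`-expansion of
`℘(aτ ; Mτ) / (2πi)² - 1/12` (with respect to the lattice `ℤ Mτ + ℤ`), i.e.
`∑_{k ≥ 1} k q^{ak} + ∑_{n ≥ 1} ∑_{d ∣ n} d (q^{Mn + ad} + q^{Mn - ad} - 2 q^{Mn})` for `0 < a < M`. -/
def xA (a : ZMod M) : PowerSeries ℤ :=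
  PowerSeries.mk fun n => ∑ d ∈ n.divisors, (d : ℤ) * cA M a (n / d)

theorem coeff_xA (a : ZMod M) (n : ℕ) :
    PowerSeries.coeff n (xA M a) = ∑ d ∈ n.divisors, (d : ℤ) * cA M a (n / d) := by
  rw [xA, PowerSeries.coeff_mk]

@[simp]
theorem constantCoeff_xA (a : ZMod M) : PowerSeries.constantCoeff (xA M a) = 0 := by
  rw [← PowerSeries.coeff_zero_eq_constantCoeff, PowerSeries.coeff_zero_eq_constantCoeff_apply,
    ← PowerSeries.coeff_zero_eq_constantCoeff_apply, coeff_xA]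
  simp

theorem xA_neg (a : ZMod M) : xA M (-a) = xA M a := by
  ext n
  rw [coeff_xA, coeff_xA]
  exact Finset.sum_congr rfl fun d _ => by rw [cA_neg]

theorem xA_zero : xA M 0 = 0 := by
  ext n
  rw [coeff_xA, map_zero]
  exact Finset.sum_eq_zero fun d _ => by rw [cA_zero, mul_zero]

/-- `X_a` over a commutative ring `R`. -/
def xAC (R : Type*) [CommRing R] (a : ZMod M) : PowerSeries R :=
  (xA M a).map (Int.castRingHom R)

theorem map_xAC {R S : Type*} [CommRing R] [CommRing S] (f : R →+* S) (a : ZMod M) :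
    (xAC M R a).map f = xAC M S a := by
  rw [xAC, ← RingHom.comp_apply (PowerSeries.map f) (PowerSeries.map (Int.castRingHom R)),
    ← PowerSeries.map_comp, RingHom.ext_int (f.comp (Int.castRingHom R)) (Int.castRingHom S)]
  rfl

theorem coeff_xAC (R : Type*) [CommRing R] (a : ZMod M) (n : ℕ) :
    PowerSeries.coeff n (xAC M R a) =
      ∑ d ∈ n.divisors, (d : R) * ((cA M a (n / d) : ℤ) : R) := by
  rw [xAC, PowerSeries.coeff_map, coeff_xA]
  simp

end XA

/-! ### the generators -/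

section Gens

/-- `j(q^d)` over `R`. -/
def jDC (R : Type*) [CommRing R] (d : ℕ) [NeZero d] : LaurentSeries R := qExpand R d (jqModC R)

theorem coeffMap_jDC {R S : Type*} [CommRing R] [CommRing S] (f : R →+* S) (d : ℕ) [NeZero d] :
    coeffMap f (jDC R d) = jDC S d := by
  rw [jDC, coeffMap_qExpand, coeffMap_jqModC, jDC]

/-- `j(q^d)` with integer coefficients. -/
abbrev jD (d : ℕ) [NeZero d] : LaurentSeries ℤ := jDC ℤ d

theorem jDC_one (R : Type*) [CommRing R] : jDC R 1 = jqModC R := qExpand_one_apply _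

variable (M : ℕ) [NeZero M]

/-- `G_{a,b} = (E₄E₆/Δ)(q^M) · (X_a - X_b)` over `R`: a modular function (weight `0`) for
`Γ₁(M)`, holomorphic on the upper half plane, with integral `q`-expansion. -/
def gABC (R : Type*) [CommRing R] (a b : ZMod M) : LaurentSeries R :=
  wMC R M * HahnSeries.ofPowerSeries ℤ R (xAC M R a - xAC M R b)

theorem coeffMap_gABC {R S : Type*} [CommRing R] [CommRing S] (f : R →+* S) (a b : ZMod M) :
    coeffMap f (gABC M R a b) = gABC M S a b := by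
  rw [gABC, map_mul, coeffMap_wMC, coeffMap_ofPowerSeries, map_sub, map_xAC, map_xAC, gABC]

/-- `G_{a,b}` with integer coefficients. -/
abbrev gAB (a b : ZMod M) : LaurentSeries ℤ := gABC M ℤ a b

theorem gAB_eq (a b : ZMod M) :
    gAB M a b = qExpand ℤ M wq * HahnSeries.ofPowerSeries ℤ ℤ (xA M a - xA M b) := by
  have h : ∀ a : ZMod M, xAC M ℤ a = xA M a := fun a => by
    rw [xAC]
    ext n
    rw [PowerSeries.coeff_map]
    simp
  rw [gAB, gABC, wMC, h, h]

theorem gABC_self (R : Type*) [CommRing R] (a : ZMod M) : gABC M R a a = 0 := by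
  rw [gABC, sub_self, map_zero, mul_zero]

theorem gABC_swap (R : Type*) [CommRing R] (a b : ZMod M) : gABC M R b a = -gABC M R a b := by
  rw [gABC, gABC, ← mul_neg, ← map_neg, neg_sub]

theorem gABC_add (R : Type*) [CommRing R] (a b c : ZMod M) :
    gABC M R a b + gABC M R b c = gABC M R a c := by
  rw [gABC, gABC, gABC, ← mul_add, ← map_add, sub_add_sub_cancel]

theorem gABC_neg_left (R : Type*) [CommRing R] (a b : ZMod M) :
    gABC M R (-a) b = gABC M R a b := by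
  simp only [gABC, xAC, xA_neg]

theorem gABC_neg_right (R : Type*) [CommRing R] (a b : ZMod M) :
    gABC M R a (-b) = gABC M R a b := by
  simp only [gABC, xAC, xA_neg]

/-- **The integral generators of the function field of `X₁(M)/±`**: the `j(q^d)`, `d ∣ M`
(exactly `(X0gens M).gens`) and the `G_{a,b}`, `a, b ≠ 0`. -/
def gensZ : Set (LaurentSeries ℤ) :=
  (X0gens M).gens ∪ {x | ∃ a b : ZMod M, a ≠ 0 ∧ b ≠ 0 ∧ x = gAB M a b}

theorem jD_mem_gensZ {d : ℕ} [hd : NeZero d] (h : d ∣ M) : jD d ∈ gensZ M :=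
  Or.inl ⟨d, hd, h, rfl⟩

theorem gAB_mem_gensZ {a b : ZMod M} (ha : a ≠ 0) (hb : b ≠ 0) : gAB M a b ∈ gensZ M :=
  Or.inr ⟨a, b, ha, hb, rfl⟩

theorem X0gens_subset_gensZ : (X0gens M).gens ⊆ gensZ M := Set.subset_union_left

/-- **The generator datum of `X₁(M)/±`.** -/
def X1gens : GenData where
  gens := gensZ M
  jq_mem := Or.inl (X0gens M).jq_mem

@[simp] theorem X1gens_gens : (X1gens M).gens = gensZ M := rfl

theorem X0gens_gens_subset : (X0gens M).gens ⊆ (X1gens M).gens := X0gens_subset_gensZ M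

/-- The function field of `X₀(M)` is contained in the one of `X₁(M)/±`, over every field. -/
theorem FC_X0_le (k : Type*) [Field k] : (X0gens M).FC k ≤ (X1gens M).FC k :=
  GenData.FC_mono (X0gens_gens_subset M) k

theorem modularFunctionFieldFullC_le (k : Type*) [Field k] :
    modularFunctionFieldFullC k M ≤ (X1gens M).FC k := by
  rw [← X0gens_FC]
  exact FC_X0_le M k

/-- The generators over `R`, explicitly. -/
theorem X1gens_gensC (R : Type*) [CommRing R] :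
    (X1gens M).gensC R =
      {x | ∃ (d : ℕ) (_ : NeZero d), d ∣ M ∧ x = jDC R d} ∪
        {x | ∃ a b : ZMod M, a ≠ 0 ∧ b ≠ 0 ∧ x = gABC M R a b} := by
  ext y
  constructor
  · rintro ⟨g, (⟨d, hne, hd, rfl⟩ | ⟨a, b, ha, hb, rfl⟩), rfl⟩
    · exact Or.inl ⟨d, hne, hd, coeffMap_jDC _ d⟩
    · exact Or.inr ⟨a, b, ha, hb, coeffMap_gABC M _ a b⟩
  · rintro (⟨d, hne, hd, rfl⟩ | ⟨a, b, ha, hb, rfl⟩)
    · exact ⟨jD d, jD_mem_gensZ M hd, coeffMap_jDC _ d⟩
    · exact ⟨gAB M a b, gAB_mem_gensZ M ha hb, coeffMap_gABC M _ a b⟩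

theorem jDC_mem_gensC (R : Type*) [CommRing R] {d : ℕ} [hd : NeZero d] (h : d ∣ M) :
    jDC R d ∈ (X1gens M).gensC R := by
  rw [X1gens_gensC]
  exact Or.inl ⟨d, hd, h, rfl⟩

theorem gABC_mem_gensC (R : Type*) [CommRing R] {a b : ZMod M} (ha : a ≠ 0) (hb : b ≠ 0) :
    gABC M R a b ∈ (X1gens M).gensC R := by
  rw [X1gens_gensC]
  exact Or.inr ⟨a, b, ha, hb, rfl⟩

theorem jDC_mem_FC (k : Type*) [Field k] {d : ℕ} [NeZero d] (h : d ∣ M) :
    jDC k d ∈ (X1gens M).FC k :=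
  subset_adjoin k _ (jDC_mem_gensC M k h)

/-- Every `G_{a,b}` with `a, b ≠ 0` lies in the function field. -/
theorem gABC_mem_FC (k : Type*) [Field k] {a b : ZMod M} (ha : a ≠ 0) (hb : b ≠ 0) :
    gABC M k a b ∈ (X1gens M).FC k :=
  subset_adjoin k _ (gABC_mem_gensC M k ha hb)

end Gens

/-! ### the group `±Γ₁(M)` -/

section Group

variable (M : ℕ)

/-- `±Γ₁(M)`: the matrices `γ` with `γ ∈ Γ₁(M)` or `-γ ∈ Γ₁(M)`. -/
def Gamma1pm : Subgroup SL(2, ℤ) where
  carrier := {γ | γ ∈ CongruenceSubgroup.Gamma1 M ∨ -γ ∈ CongruenceSubgroup.Gamma1 M}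
  one_mem' := Or.inl (one_mem _)
  mul_mem' := by
    rintro x y (hx | hx) (hy | hy)
    · exact Or.inl (mul_mem hx hy)
    · refine Or.inr ?_
      have : -(x * y) = x * -y := by rw [mul_neg]
      rw [this]
      exact mul_mem hx hy
    · refine Or.inr ?_
      have : -(x * y) = -x * y := by rw [neg_mul]
      rw [this]
      exact mul_mem hx hy
    · refine Or.inl ?_
      have : x * y = -x * -y := by rw [neg_mul_neg]
      rw [this]
      exact mul_mem hx hy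
  inv_mem' := by
    rintro x (hx | hx)
    · exact Or.inl (inv_mem hx)
    · refine Or.inr ?_
      have : -x⁻¹ = (-x)⁻¹ := by
        symm
        apply inv_eq_of_mul_eq_one_right
        rw [neg_mul_neg, mul_inv_cancel]
      rw [this]
      exact inv_mem hx

theorem mem_Gamma1pm {γ : SL(2, ℤ)} :
    γ ∈ Gamma1pm M ↔
      γ ∈ CongruenceSubgroup.Gamma1 M ∨ -γ ∈ CongruenceSubgroup.Gamma1 M := Iff.rfl

theorem Gamma1_le_Gamma1pm : CongruenceSubgroup.Gamma1 M ≤ Gamma1pm M := fun _ h => Or.inl h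

theorem neg_one_mem_Gamma1pm : (-1 : SL(2, ℤ)) ∈ Gamma1pm M :=
  Or.inr (by rw [neg_neg]; exact one_mem _)

theorem neg_mem_Gamma1pm {γ : SL(2, ℤ)} (h : γ ∈ Gamma1pm M) : -γ ∈ Gamma1pm M := by
  rcases h with h | h
  · exact Or.inr (by rwa [neg_neg])
  · exact Or.inl h

/-- Entrywise description of `±Γ₁(M)`. -/
theorem mem_Gamma1pm_iff {γ : SL(2, ℤ)} :
    γ ∈ Gamma1pm M ↔
      ((γ 1 0 : ℤ) : ZMod M) = 0 ∧
        ((((γ 0 0 : ℤ) : ZMod M) = 1 ∧ ((γ 1 1 : ℤ) : ZMod M) = 1) ∨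
          (((γ 0 0 : ℤ) : ZMod M) = -1 ∧ ((γ 1 1 : ℤ) : ZMod M) = -1)) := by
  rw [mem_Gamma1pm, CongruenceSubgroup.Gamma1_mem, CongruenceSubgroup.Gamma1_mem]
  have e00 : ((-γ : SL(2, ℤ)) 0 0 : ℤ) = -(γ 0 0 : ℤ) := by
    simp [Matrix.SpecialLinearGroup.coe_neg]
  have e11 : ((-γ : SL(2, ℤ)) 1 1 : ℤ) = -(γ 1 1 : ℤ) := by
    simp [Matrix.SpecialLinearGroup.coe_neg]
  have e10 : ((-γ : SL(2, ℤ)) 1 0 : ℤ) = -(γ 1 0 : ℤ) := by
    simp [Matrix.SpecialLinearGroup.coe_neg]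
  rw [e00, e11, e10]
  push_cast
  constructor
  · rintro (⟨h1, h2, h3⟩ | ⟨h1, h2, h3⟩)
    · exact ⟨h3, Or.inl ⟨h1, h2⟩⟩
    · refine ⟨neg_eq_zero.mp h3, Or.inr ⟨?_, ?_⟩⟩
      · rw [← h1, neg_neg]
      · rw [← h2, neg_neg]
  · rintro ⟨h3, (⟨h1, h2⟩ | ⟨h1, h2⟩)⟩
    · exact Or.inl ⟨h1, h2, h3⟩
    · refine Or.inr ⟨?_, ?_, ?_⟩
      · rw [h1, neg_neg]
      · rw [h2, neg_neg]
      · rw [h3, neg_zero]

theorem Gamma1pm_le_Gamma0 : Gamma1pm M ≤ CongruenceSubgroup.Gamma0 M := by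
  intro γ hγ
  rw [mem_Gamma1pm_iff] at hγ
  rw [CongruenceSubgroup.Gamma0_mem]
  exact hγ.1

theorem Gamma_le_Gamma1pm : CongruenceSubgroup.Gamma M ≤ Gamma1pm M := by
  intro γ hγ
  rw [CongruenceSubgroup.Gamma_mem] at hγ
  refine Or.inl ?_
  rw [CongruenceSubgroup.Gamma1_mem]
  exact ⟨hγ.1, hγ.2.2.2, hγ.2.2.1⟩

end Group

/-! ### the level `Γ₁(M)` -/

section L1

variable (M : ℕ) [NeZero M]

theorem jq_mem_gensC : ModularCurve.jq ∈ (X1gens M).gensC ℚ :=
  (X1gens M).jqModC_mem_gensC ℚ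

/-- **The level `±Γ₁(M)`**: `F₀ = ℚ(j(q^d), G_{a,b})`, `Gam = ±Γ₁(M)`, `w = M`. -/
def L1 : LevelData where
  F₀ := (X1gens M).FQ
  gensQ := (X1gens M).gensC ℚ
  adjoin_eq := rfl
  jq_mem := jq_mem_gensC M
  Gam := Gamma1pm M
  neg_one_mem := neg_one_mem_Gamma1pm M
  w := M
  gamma_le := Gamma_le_Gamma1pm M

@[simp] theorem L1_F₀ : (L1 M).F₀ = (X1gens M).FQ := rfl
@[simp] theorem L1_gensQ : (L1 M).gensQ = (X1gens M).gensC ℚ := rfl
@[simp] theorem L1_Gam : (L1 M).Gam = Gamma1pm M := rfl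
@[simp] theorem L1_w : (L1 M).w = M := rfl

/-- The function field of `X₀(M)` is contained in the function field of `X₁(M)/±`. -/
theorem L0_F₀_le_L1_F₀ : (L0 M).F₀ ≤ (L1 M).F₀ := by
  rw [L0_F₀, L1_F₀, ← X0gens_FQ]
  exact FC_X0_le M ℚ

/-- `±Γ₁(M) ≤ Γ₀(M)`. -/
theorem L1_Gam_le_L0_Gam : (L1 M).Gam ≤ (L0 M).Gam := Gamma1pm_le_Gamma0 M

/-- The generators of `L0 M` are generators of `L1 M`. -/
theorem L0_gensQ_subset_L1_gensQ : (L0 M).gensQ ⊆ (L1 M).gensQ := by
  rintro x ⟨d, hne, hd, rfl⟩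
  have h := jDC_mem_gensC M ℚ hd
  exact h

/-- The function field over a field `Lc ⊇ ℚ` of the level `L1 M` is `(X1gens M).FC Lc`. -/
theorem laurentBaseChange_L1 (Lc : Type*) [Field Lc] [Algebra ℚ Lc] :
    laurentBaseChange Lc (L1 M).F₀ = (X1gens M).FC Lc :=
  (X1gens M).laurentBaseChange_FQ_eq Lc

/-- The generator `j(q^d)`, `d ∣ M`, as an element of the index type `(L1 M).gensQ`. -/
def jGenD {d : ℕ} [NeZero d] (h : d ∣ M) : (L1 M).gensQ := ⟨jDC ℚ d, jDC_mem_gensC M ℚ h⟩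

/-- The generator `G_{a,b}`, `a, b ≠ 0`, as an element of the index type `(L1 M).gensQ`. -/
def gGenAB {a b : ZMod M} (ha : a ≠ 0) (hb : b ≠ 0) : (L1 M).gensQ :=
  ⟨gABC M ℚ a b, gABC_mem_gensC M ℚ ha hb⟩

@[simp] theorem coe_jGenD {d : ℕ} [NeZero d] (h : d ∣ M) :
    ((jGenD M h : (L1 M).gensQ) : LaurentSeries ℚ) = jDC ℚ d := rfl

@[simp] theorem coe_gGenAB {a b : ZMod M} (ha : a ≠ 0) (hb : b ≠ 0) :
    ((gGenAB M ha hb : (L1 M).gensQ) : LaurentSeries ℚ) = gABC M ℚ a b := rfl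

/-- Case analysis on the generators of `L1 M`. -/
theorem gensQ_cases {p : (L1 M).gensQ → Prop}
    (hj : ∀ (d : ℕ) [NeZero d] (h : d ∣ M), p (jGenD M h))
    (hg : ∀ (a b : ZMod M) (ha : a ≠ 0) (hb : b ≠ 0), p (gGenAB M ha hb))
    (g : (L1 M).gensQ) : p g := by
  obtain ⟨x, hx⟩ := g
  have hx' : x ∈ (X1gens M).gensC ℚ := hx
  rw [X1gens_gensC] at hx'
  rcases hx' with ⟨d, hne, hd, rfl⟩ | ⟨a, b, ha, hb, rfl⟩
  · exact hj d hd
  · exact hg a b ha hb

theorem jGen_eq : (L1 M).jGen = jGenD M (one_dvd M) := by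
  apply Subtype.ext
  show ModularCurve.jq = jDC ℚ 1
  rw [jDC_one]
  rfl

/-- The coefficient embedding of the generators. -/
theorem coeffEmb_jDC (Lc : Type*) [Field Lc] [Algebra ℚ Lc] (d : ℕ) [NeZero d] :
    coeffEmb Lc (jDC ℚ d) = jDC Lc d :=
  coeffMap_jDC (algebraMap ℚ Lc) d

theorem coeffEmb_gABC (Lc : Type*) [Field Lc] [Algebra ℚ Lc] (a b : ZMod M) :
    coeffEmb Lc (gABC M ℚ a b) = gABC M Lc a b :=
  coeffMap_gABC M (algebraMap ℚ Lc) a b

end L1

end Fermat.Agent.DS.X1.Level1
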