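/-
DS / GEO, chapters X1 + G-KUM (helper95): **Kummer theory on `ℍ` for `±Γ₁(M)`, UNCONDITIONAL.**

The analytic model of the level `L1 M` (`Gam = Gamma1pm M = ±Γ₁(M)`, `w = M`, generators `j(q^d)`,
`d ∣ M`, and `G_{a,b}`) over `ℂ`:

  `modelC M : CModel (FFc (L1 M) ℂ)`  :=  `OfGens.ofGens (L1 M) (analyticGens1 M ℂ id ζ_M rfl)`

(`AnalyticGens13.analyticGens1`: helper13 + helper27, `Realize`: helper16, `FracR`/`OfGens`: helper95),
and the specialisation of the exports of the chapter G-KUM (`DS/G/ES/KUM/Final.lean`) to it: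

* `kummer1 M n : Pic⁰(F)[n] →+ Additive (Gamma1pm M →* ℂˣ)`, `kummerEquiv1 M n`, `finite_torsion1`;
* `kummerSystem1 M p : TateChar11.KummerSystem p (Gamma1pm M) (Pic0 ℂ (FFc (L1 M) ℂ))`;
* the function-field package of `F = FFc (L1 M) ℂ = ℂ · F₀(L1 M)`: `isGen_j1`, `card_eq_finrank1`
  (`[F : ℂ(j)] = [SL₂(ℤ) : ±Γ₁(M)]`), `hasPrincipalDivisors1`.
-/
import Fermat.Agent.DS.G.ES.KUM.OfGens
import Fermat.Agent.DS.G.ES.KUM.Final
import Fermat.Agent.DS.X1.AnalyticGens13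

set_option autoImplicit false
set_option linter.unusedSectionVars false

open UpperHalfPlane AlgebraicCurve
open scoped MatrixGroups IntermediateField

noncomputable section

namespace Fermat.Agent.DS.X1.KumGamma1

open Fermat.Agent.X0 Fermat.Agent.DS.G.Level Fermat.Agent.DS.X1.Level1
  Fermat.Agent.DS.X1.AnalyticGens13
  Fermat.Agent.DS.G.ES.KUM Fermat.Agent.DS.G.ES.KUM.Iface Fermat.Agent.DS.G.ES.KUM.CReal5
  Fermat.Agent.DS.G.ES.KUM.KumInst18

variable (M : ℕ) [NeZero M]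

/-- the analytic generators of `±Γ₁(M)` over `ℂ`. -/
def gensC : AnalyticGens (L1 M) ℂ (RingHom.id ℂ) :=
  analyticGens1 M ℂ (RingHom.id ℂ) (Fermat.Agent.X0.QExpAffine.zetaC M) rfl

/-- The function field of `X₁(M)` over `ℂ`: `ℂ · ℚ(j(q^d), G_{a,b}) ⊆ ℂ((q))`. -/
abbrev FC1 : Type := FFc (L1 M) ℂ

/-- **The analytic model of `±Γ₁(M)`.** -/
def modelC : CModel (FC1 M) := OfGens.ofGens (L1 M) (gensC M)

@[simp] theorem modelC_Gam : (modelC M).Gam = Gamma1pm M := rfl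

@[simp] theorem modelC_w : (modelC M).w = M := rfl

theorem jC_modelC : jC (modelC M) = jFc (L1 M) ℂ := rfl

/-! ### the function field package -/

/-- `j` is a transcendental generator of `FC1 M / ℂ`. -/
theorem isGen_j1 : FF.IsGen ℂ (jFc (L1 M) ℂ) := Degree.isGen_jC (modelC M)

/-- `[FC1 M : ℂ(j)] = [SL₂(ℤ) : ±Γ₁(M)]`. -/
theorem card_eq_finrank1 :
    Nat.card (SL(2, ℤ) ⧸ Gamma1pm M) = Module.finrank ℂ⟮jFc (L1 M) ℂ⟯ (FC1 M) :=
  Degree.card_eq_finrank_jC (modelC M)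

theorem hasPrincipalDivisors1 : HasPrincipalDivisors ℂ (FC1 M) :=
  Degree.hasPrincipalDivisors (modelC M)

/-! ### Kummer theory -/

/-- **The Kummer map** of `X₁(M)` over `ℂ`. -/
def kummer1 (n : ℕ) [NeZero n] :
    ↥(Pic0.torsion ℂ (FC1 M) n) →+ Additive (↥(Gamma1pm M) →* ℂˣ) :=
  Final.kummer (modelC M) n

/-- the target of the Kummer isomorphism: characters of `±Γ₁(M)` of exponent `n` which are trivial
on the elements of trace `|tr| ≤ 2`. -/
abbrev KumChar1 (n : ℕ) : Subgroup (↥(Gamma1pm M) →* ℂˣ) := KumChar (modelC M) n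

theorem mem_kumChar1_iff {n : ℕ} {χ : ↥(Gamma1pm M) →* ℂˣ} :
    χ ∈ KumChar1 M n ↔ (∀ γ, χ γ ^ n = 1) ∧
      ∀ γ : ↥(Gamma1pm M),
        |((γ : SL(2, ℤ)) : Matrix (Fin 2) (Fin 2) ℤ).trace| ≤ 2 → χ γ = 1 := Iff.rfl

/-- **The Kummer isomorphism of `X₁(M)` over `ℂ`**, unconditional. -/
def kummerEquiv1 (n : ℕ) [NeZero n] :
    ↥(Pic0.torsion ℂ (FC1 M) n) ≃+ Additive ↥(KumChar1 M n) :=
  Final.kummerEquiv (modelC M) n

theorem kummerEquiv1_apply (n : ℕ) [NeZero n] (x : ↥(Pic0.torsion ℂ (FC1 M) n)) :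
    ((Additive.toMul (kummerEquiv1 M n x) : ↥(KumChar1 M n)) : ↥(Gamma1pm M) →* ℂˣ) =
      Additive.toMul (kummer1 M n x) := rfl

/-- **`Pic⁰(FC1 M)[n]` is finite.** -/
theorem finite_torsion1 (n : ℕ) [NeZero n] : Finite ↥(Pic0.torsion ℂ (FC1 M) n) :=
  Final.finite_torsion (modelC M) n

/-- **The Kummer system of `X₁(M)` over `ℂ`** (contract of the Tate module chapter). -/
def kummerSystem1 (p : ℕ) [Fact p.Prime] :
    Fermat.Agent.ES.J.TateChar11.KummerSystem p (Gamma1pm M) (Pic0 ℂ (FC1 M)) :=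
  Final.kummerSystem (modelC M) p

end Fermat.Agent.DS.X1.KumGamma1
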