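/-
Programme DS (S48), chapter X1 (concrete level `Γ₁(M)`), analytic generators (helper27).
The analytic functions behind the formal generators `gABC M ℚ a b` of `DS/X1/Level1.lean`:
`x_a(τ) = ℘(aτ; Mτ)/(2πi)^2` (weight two for `Γ₁(M)`), `w_M(τ) = (E₄E₆/Δ)(Mτ)` (weight `-2` for
`Γ₀(M)`), `g_{a,b} = w_M · (x_a - x_b)`; the rational `q`-expansion of `x_a`, the diamond law
`g_{a,b} ∘ γ = g_{a γ₀₀, b γ₀₀}` for `γ ∈ Γ₀(M)` and the `±Γ₁(M)`-invariance.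
-/
import Fermat.Agent.DS.Eis1.WPFricke

set_option autoImplicit false

noncomputable section

namespace Fermat.Agent.DS.X1.GabFun

open Fermat.Agent.X0
open UpperHalfPlane hiding I
open Complex Filter Topology MatrixGroups Matrix CongruenceSubgroup
open Fermat.Agent.DS.Eis1.CotG Fermat.Agent.DS.Eis1.Phi Fermat.Agent.DS.Eis1.Zeta
  Fermat.Agent.DS.Eis1.WPInv Fermat.Agent.DS.Eis1.WP
  Fermat.Agent.DS.Eis1.Torsion Fermat.Agent.DS.Eis1.WPTors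
  Fermat.Agent.DS.Eis1.WPExp Fermat.Agent.DS.Eis1.WPE6 Fermat.Agent.DS.Eis1.WPFricke

variable (M : ℕ) [NeZero M]
set_option linter.unusedSectionVars false

/-- `x_a(τ) = ℘(aτ; Mτ)/(2πi)^2`. -/
def xFun (a : ℤ) : ℍ → ℂ := fun τ => PbN M ![a, 0] (scaleH M τ)

/-- `w_M(τ) = (E₄E₆/Δ)(Mτ)`. -/
def wMFun : ℍ → ℂ := fun τ => wm2 (scaleH M τ)

/-- `g_{a,b} = w_M · (x_a - x_b)`: the analytic function with `q`-expansion `gABC M ℂ a b`. -/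
def gABfun (a b : ℤ) : ℍ → ℂ := fun τ => wMFun M τ * (xFun M a τ - xFun M b τ)

lemma not_dvd_pair {a : ℤ} (ha : ¬ (M : ℤ) ∣ a) :
    ¬ ((M : ℤ) ∣ (![a, 0] : Fin 2 → ℤ) 0 ∧ (M : ℤ) ∣ (![a, 0] : Fin 2 → ℤ) 1) := by
  rintro ⟨h0, -⟩
  exact ha h0

/-- The rational `q`-expansion of `x_a` (integer powers of `q = e^{2πiτ}`). -/
theorem hasSum_xFun {a : ℤ} (ha : ¬ (M : ℤ) ∣ a) (τ : ℍ) :
    HasSum (fun N : ℕ => ((wpRat M a N : ℚ) : ℂ) * qq τ ^ N) (xFun M a τ) :=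
  hasSum_Pb_rat (NeZero.ne M) ha (τ := τ) (τ' := scaleH M τ) (coe_scaleH M τ)

lemma qh_one_eq_qq (τ : ℍ) : qh 1 τ = qq τ := by
  rw [qh_eq_tM, tM, qq]
  congr 1
  simp

/-- The same in the `IsQExp` vocabulary. -/
theorem isQExp_xFun {a : ℤ} (ha : ¬ (M : ℤ) ∣ a) :
    IsQExp 1 (xFun M a) 0 ((PowerSeries.mk (wpRat M a)).map (algebraMap ℚ ℂ)) := by
  intro τ
  rw [pow_zero, mul_one, qh_one_eq_qq]
  have h := hasSum_xFun M ha τ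
  simpa using h

theorem xFun_congr {a a' : ℤ} (ha : ¬ (M : ℤ) ∣ a) (h : (M : ℤ) ∣ a' - a) :
    xFun M a' = xFun M a := by
  funext τ
  unfold xFun PbN
  rw [Pb_congr (NeZero.ne M) (not_dvd_pair M ha) (b' := ![a', 0]) h (by simp)]

theorem xFun_neg (a : ℤ) : xFun M (-a) = xFun M a := by
  funext τ
  unfold xFun PbN
  have : (![-a, 0] : Fin 2 → ℤ) = -![a, 0] := by
    funext i
    fin_cases i <;> simp
  rw [this, Pb_neg]

lemma denom_conjMat (γ : SL(2, ℤ)) (hd : (M : ℤ) ∣ γ 1 0) (τ : ℍ) :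
    denom (Analytic.conjMat γ M hd) (scaleH M τ) = denom γ τ := by
  have h1 : ((γ 1 0 / (M : ℤ) : ℤ) : ℂ) * (M : ℂ) = ((γ 1 0 : ℤ) : ℂ) := by
    have := Int.ediv_mul_cancel hd
    exact_mod_cast congrArg (fun t : ℤ => (t : ℂ)) this
  rw [ModularGroup.denom_apply, ModularGroup.denom_apply]
  simp only [Analytic.conjMat, coe_scaleH, Matrix.SpecialLinearGroup.coe_mk, Matrix.of_apply,
    Matrix.cons_val', Matrix.cons_val_zero, Matrix.cons_val_one, Matrix.cons_val_fin_one]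
  rw [← mul_assoc, h1]

theorem wMFun_smul {γ : SL(2, ℤ)} (hd : (M : ℤ) ∣ γ 1 0) (τ : ℍ) :
    wMFun M (γ • τ) = ((denom γ τ) ^ 2)⁻¹ * wMFun M τ := by
  unfold wMFun
  rw [Analytic.scaleH_smul γ M hd, wm2_smul, denom_conjMat]

/-- `γ₀₀` is prime to `M` for `γ ∈ Γ₀(M)`. -/
lemma not_dvd_mul_of_dvd {γ : SL(2, ℤ)} (hd : (M : ℤ) ∣ γ 1 0) {a : ℤ} (ha : ¬ (M : ℤ) ∣ a) :
    ¬ (M : ℤ) ∣ a * γ 0 0 := by
  intro h
  apply ha
  have hdet : (γ 0 0 : ℤ) * γ 1 1 - γ 0 1 * γ 1 0 = 1 := by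
    have := Matrix.SpecialLinearGroup.det_coe γ
    rw [Matrix.det_fin_two] at this
    exact this
  have : a = a * γ 0 0 * γ 1 1 - a * γ 0 1 * γ 1 0 := by
    linear_combination -a * hdet
  rw [this]
  exact dvd_sub (Dvd.dvd.mul_right h _) (Dvd.dvd.mul_left hd _)

/-- **Weight two transformation of `x_a`** under `Γ₀(M)`. -/
theorem xFun_smul {γ : SL(2, ℤ)} (hd : (M : ℤ) ∣ γ 1 0) {a : ℤ} (ha : ¬ (M : ℤ) ∣ a) (τ : ℍ) :
    xFun M a (γ • τ) = (denom γ τ) ^ 2 * xFun M (a * γ 0 0) τ := by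
  unfold xFun
  rw [Analytic.scaleH_smul γ M hd, PbN_smul, denom_conjMat]
  congr 1
  have hv : (![a, 0] : Fin 2 → ℤ) ᵥ* ((Analytic.conjMat γ M hd : SL(2, ℤ)) :
      Matrix (Fin 2) (Fin 2) ℤ) = ![a * γ 0 0, a * (γ 0 1 * M)] := by
    funext i
    fin_cases i <;> simp [Analytic.conjMat, Matrix.vecMul, dotProduct, Fin.sum_univ_two]
  rw [hv]
  unfold PbN
  rw [Pb_congr (NeZero.ne M) (not_dvd_pair M (not_dvd_mul_of_dvd M hd ha))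
    (b' := ![a * γ 0 0, a * (γ 0 1 * M)]) (by simp) ?_]
  simp only [Matrix.cons_val_one, Matrix.cons_val_fin_one, sub_zero]
  exact ⟨a * γ 0 1, by ring⟩

/-- **The diamond law**: `g_{a,b} ∘ γ = g_{aγ₀₀, bγ₀₀}` for `γ ∈ Γ₀(M)`. -/
theorem gABfun_smul {γ : SL(2, ℤ)} (hd : (M : ℤ) ∣ γ 1 0) {a b : ℤ} (ha : ¬ (M : ℤ) ∣ a)
    (hb : ¬ (M : ℤ) ∣ b) (τ : ℍ) :
    gABfun M a b (γ • τ) = gABfun M (a * γ 0 0) (b * γ 0 0) τ := by
  have hden : (denom γ τ : ℂ) ≠ 0 := denom_ne_zero γ τ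
  unfold gABfun
  rw [wMFun_smul M hd, xFun_smul M hd ha, xFun_smul M hd hb]
  field_simp

theorem compSL_gABfun {γ : SL(2, ℤ)} (hγ : γ ∈ Gamma0 M) {a b : ℤ} (ha : ¬ (M : ℤ) ∣ a)
    (hb : ¬ (M : ℤ) ∣ b) :
    compSL (gABfun M a b) γ = gABfun M (a * γ 0 0) (b * γ 0 0) := by
  have hd : (M : ℤ) ∣ γ 1 0 := by
    rw [Gamma0_mem] at hγ
    exact (ZMod.intCast_zmod_eq_zero_iff_dvd _ _).mp hγ
  funext τ
  exact gABfun_smul M hd ha hb τ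

theorem gABfun_congr {a a' b b' : ℤ} (ha : ¬ (M : ℤ) ∣ a) (hb : ¬ (M : ℤ) ∣ b)
    (h : (M : ℤ) ∣ a' - a) (h' : (M : ℤ) ∣ b' - b) : gABfun M a' b' = gABfun M a b := by
  funext τ
  unfold gABfun
  rw [xFun_congr M ha h, xFun_congr M hb h']

theorem gABfun_neg_neg (a b : ℤ) : gABfun M (-a) (-b) = gABfun M a b := by
  funext τ
  unfold gABfun
  rw [xFun_neg, xFun_neg]

/-- **`±Γ₁(M)`-invariance** of `g_{a,b}`: for `γ ∈ Γ₀(M)` with `γ₀₀ ≡ ±1 mod M`. -/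
theorem compSL_gABfun_of_pm {γ : SL(2, ℤ)} (hγ : γ ∈ Gamma0 M)
    (h00 : (M : ℤ) ∣ γ 0 0 - 1 ∨ (M : ℤ) ∣ γ 0 0 + 1) {a b : ℤ} (ha : ¬ (M : ℤ) ∣ a)
    (hb : ¬ (M : ℤ) ∣ b) : compSL (gABfun M a b) γ = gABfun M a b := by
  rw [compSL_gABfun M hγ ha hb]
  rcases h00 with h | h
  · refine gABfun_congr M ha hb ?_ ?_
    · have : a * γ 0 0 - a = a * (γ 0 0 - 1) := by ring
      rw [this]
      exact Dvd.dvd.mul_left h _
    · have : b * γ 0 0 - b = b * (γ 0 0 - 1) := by ring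
      rw [this]
      exact Dvd.dvd.mul_left h _
  · rw [← gABfun_neg_neg M a b]
    have ha' : ¬ (M : ℤ) ∣ -a := fun h' => ha ((dvd_neg).mp h')
    have hb' : ¬ (M : ℤ) ∣ -b := fun h' => hb ((dvd_neg).mp h')
    refine gABfun_congr M ha' hb' ?_ ?_
    · have : a * γ 0 0 - -a = a * (γ 0 0 + 1) := by ring
      rw [this]
      exact Dvd.dvd.mul_left h _
    · have : b * γ 0 0 - -b = b * (γ 0 0 + 1) := by ring
      rw [this]
      exact Dvd.dvd.mul_left h _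

theorem xFun_mem_HolH {a : ℤ} (ha : ¬ (M : ℤ) ∣ a) : xFun M a ∈ HolH :=
  mem_HolH_of_isQExp (isQExp_xFun M ha)

end Fermat.Agent.DS.X1.GabFun
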