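/-
Programme DS (S48), chapter X1 (concrete level `Γ₁(M)`), analytic generators (helper27).
Expansions at ALL cusps of the analytic generators `g_{a,b}` of `DS/X1/GabFun.lean`:
for every `γ ∈ SL(2,ℤ)` the function `g_{a,b} ∘ γ` has a `q_M`-expansion with coefficients in
`ι(Lc)`, for any field `Lc` with `ι : Lc →+* ℂ` containing `ζ` with `ι ζ = e^{2πi/M}`.
Method: Hermite form `Mγ = γ' [[A,B],[0,D]]`, the isogeny relation `PbN_isog_sub`, and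
`g_{a,b}(γτ) = (D²/M²) · (E₄E₆/Δ)((Aτ+B)/D) · Σ_k [P_{(a,-k)γ}(τ) - P_{(b,-k)γ}(τ)]/(2πi)²`.
-/
import Fermat.Agent.DS.X1.GabFun
import Fermat.Agent.DS.Eis1.WPIsog
import Fermat.Agent.X0.QExpAffine
import Fermat.Agent.X0.HermiteJ
import Fermat.Agent.X0.JqExpansion

set_option autoImplicit false
set_option linter.unusedSectionVars false

noncomputable section

namespace Fermat.Agent.DS.X1.GabCusp

open Fermat.Agent.X0 Fermat.Agent.X0.Hermite Fermat.Agent.X0.QExpAffine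
open UpperHalfPlane hiding I
open Complex Filter Topology MatrixGroups Matrix CongruenceSubgroup
open Fermat.Agent.DS.Eis1.CotG Fermat.Agent.DS.Eis1.Phi Fermat.Agent.DS.Eis1.Zeta
  Fermat.Agent.DS.Eis1.ZetaPhi Fermat.Agent.DS.Eis1.WPInv Fermat.Agent.DS.Eis1.WP
  Fermat.Agent.DS.Eis1.Torsion Fermat.Agent.DS.Eis1.WPTors
  Fermat.Agent.DS.Eis1.WPExp Fermat.Agent.DS.Eis1.WPE6 Fermat.Agent.DS.Eis1.WPFricke
  Fermat.Agent.DS.Eis1.WPIsog Fermat.Agent.DS.X1.GabFun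
open scoped ArithmeticFunction.sigma

/-! ### `q_h`-expansions with coefficients in `ι(Lc)` -/

section QExpIn

variable {Lc : Type*} [Field Lc] (ι : Lc →+* ℂ)

/-- `f` has a `q_h`-expansion with coefficients in `ι(Lc)`. -/
def QExpIn (h : ℕ) (f : ℍ → ℂ) : Prop :=
  ∃ (m : ℕ) (P : PowerSeries Lc), IsQExp h f m (P.map ι)

variable {ι} {h : ℕ} [NeZero h] {f g : ℍ → ℂ}

theorem QExpIn.add (hf : QExpIn ι h f) (hg : QExpIn ι h g) : QExpIn ι h (f + g) := by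
  obtain ⟨m, P, hP⟩ := hf
  obtain ⟨m', Q, hQ⟩ := hg
  refine ⟨m + m', PowerSeries.X ^ m' * P + PowerSeries.X ^ m * Q, ?_⟩
  have := hP.add hQ
  simpa [map_add, map_mul, map_pow, PowerSeries.map_X] using this

theorem QExpIn.mul (hf : QExpIn ι h f) (hg : QExpIn ι h g) : QExpIn ι h (f * g) := by
  obtain ⟨m, P, hP⟩ := hf
  obtain ⟨m', Q, hQ⟩ := hg
  refine ⟨m + m', P * Q, ?_⟩
  have := hP.mul hQ
  simpa [map_mul] using this

theorem QExpIn.smul (hf : QExpIn ι h f) (c : Lc) : QExpIn ι h (ι c • f) := by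
  obtain ⟨m, P, hP⟩ := hf
  refine ⟨m, PowerSeries.C c * P, ?_⟩
  have := hP.smul (ι c)
  have e : (PowerSeries.C c * P).map ι = ι c • P.map ι := by
    ext n
    simp [PowerSeries.coeff_map, PowerSeries.coeff_C_mul]
  rw [e]
  exact this

theorem QExpIn.neg (hf : QExpIn ι h f) : QExpIn ι h (-f) := by
  obtain ⟨m, P, hP⟩ := hf
  refine ⟨m, -P, ?_⟩
  have := hP.neg
  simpa [map_neg] using this

theorem QExpIn.sub (hf : QExpIn ι h f) (hg : QExpIn ι h g) : QExpIn ι h (f - g) := by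
  rw [sub_eq_add_neg]
  exact hf.add hg.neg

theorem QExpIn.zero : QExpIn ι h (0 : ℍ → ℂ) :=
  ⟨0, 0, by simpa using isQExp_zero h 0⟩

theorem QExpIn.sum {α : Type*} (s : Finset α) {F : α → ℍ → ℂ} (hF : ∀ i ∈ s, QExpIn ι h (F i)) :
    QExpIn ι h (∑ i ∈ s, F i) := by
  classical
  induction s using Finset.induction_on with
  | empty => simpa using QExpIn.zero
  | insert i s hi ih =>
    rw [Finset.sum_insert hi]
    exact (hF i (Finset.mem_insert_self i s)).add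
      (ih fun j hj => hF j (Finset.mem_insert_of_mem hj))

end QExpIn

/-! ### the torsion values have `q_M`-coefficients in `ι(Lc)` -/

section Coeff

variable {Lc : Type*} [Field Lc] (ι : Lc →+* ℂ) (M : ℕ) [NeZero M]

lemma xi_eq_zetaC_zpow (n : ℤ) : xi M n = zetaC M ^ n := by
  rw [xi, eN, zetaC, ← Complex.exp_int_mul]
  congr 1
  ring

/-- The coefficients of `P_b/(2πi)^2` in a field `Lc` containing `ζ` (`ι ζ = e^{2πi/M}`). -/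
def wpCoeffL (ζ : Lc) (b : Fin 2 → ℤ) (N : ℕ) : Lc :=
  (if N = 0 then (1 / 12 : Lc) +
      (if (M : ℤ) ∣ b 0 then ζ ^ (b 1) / (1 - ζ ^ (b 1)) ^ 2 else 0) else 0) +
  (∑ x ∈ N.divisorsAntidiagonal, (x.2 : Lc) *
    ((if (M : ℤ) ∣ (x.1 : ℤ) - b 0 then (ζ ^ (b 1)) ^ x.2 else 0) +
     (if (M : ℤ) ∣ (x.1 : ℤ) + b 0 then (ζ ^ (b 1))⁻¹ ^ x.2 else 0))) -
  (if M ∣ N then 2 * ((σ 1 (N / M) : ℕ) : Lc) else 0)

lemma map_wpCoeffL {ζ : Lc} (hζ : ι ζ = zetaC M) (b : Fin 2 → ℤ) (N : ℕ) :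
    ι (wpCoeffL M ζ b N) = wpCoeff M b N := by
  have hx : ι (ζ ^ (b 1)) = xi M (b 1) := by
    rw [map_zpow₀, hζ, xi_eq_zetaC_zpow]
  unfold wpCoeffL wpCoeff hq
  simp only [map_sub, map_add, map_sum, map_mul, map_natCast, map_pow, map_inv₀, apply_ite ι,
    map_zero, map_div₀, map_one, map_ofNat, hx]

theorem qExpIn_PbN {ζ : Lc} (hζ : ι ζ = zetaC M) {b : Fin 2 → ℤ}
    (hb : ¬ ((M : ℤ) ∣ b 0 ∧ (M : ℤ) ∣ b 1)) : QExpIn ι M (PbN M b) := by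
  refine ⟨0, PowerSeries.mk (wpCoeffL M ζ b), ?_⟩
  have h := isQExp_PbN M hb
  have e : (PowerSeries.mk (wpCoeffL M ζ b)).map ι = wpSeries M b := by
    ext n
    rw [PowerSeries.coeff_map, PowerSeries.coeff_mk, wpSeries, PowerSeries.coeff_mk,
      map_wpCoeffL ι M hζ]
  rw [e]
  exact h

end Coeff

/-! ### the weight `-2` factor along the Hermite substitution -/

section Aff

variable {Lc : Type*} [Field Lc] (ι : Lc →+* ℂ) (M : ℕ) [NeZero M]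

lemma zetaC_pow_div {D : ℕ} (hD : 0 < D) (hDM : D ∣ M) : zetaC M ^ (M / D) = zetaC D := by
  obtain ⟨c, rfl⟩ := hDM
  have hc : c ≠ 0 := by
    rintro rfl
    exact (NeZero.ne (D * 0)) (by simp)
  have hcC : (c : ℂ) ≠ 0 := by exact_mod_cast hc
  have hDC : (D : ℂ) ≠ 0 := by exact_mod_cast hD.ne'
  rw [Nat.mul_div_cancel_left c hD, zetaC, zetaC, ← Complex.exp_nat_mul]
  congr 1
  push_cast
  field_simp

theorem qExpIn_wm2_aff {ζ : Lc} (hζ : ι ζ = zetaC M) {A D : ℕ} (B : ℤ) (hA : 0 < A) (hD : 0 < D)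
    (hDM : D ∣ M) : QExpIn ι M (fun z => wm2 (affH A D B hA hD z)) := by
  have h := isQExp_affine (N := M) isQExp_wm2 B hA hD hDM
  refine ⟨1 * (A * (M / D)),
    affQ (wm2Z.map (Int.castRingHom Lc)) 1 (A * (M / D)) B (ζ ^ (M / D)), ?_⟩
  rw [affQ_map, map_pow, hζ, zetaC_pow_div M hD hDM]
  have e : (wm2Z.map (Int.castRingHom Lc)).map ι = wm2Z.map (Int.castRingHom ℂ) := by
    ext n
    simp [PowerSeries.coeff_map]
  rw [e]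
  exact h

end Aff

/-! ### Hermite form -/

section HermiteForm

variable (M : ℕ) [NeZero M]

/-- `M · (γ • z) = γ' • ((A z + B)/D)` from the integer Hermite relations. -/
lemma scaleH_smul_hermite {γ γ' : SL(2, ℤ)} {A D : ℕ} {B : ℤ} (hA : 0 < A) (hD : 0 < D)
    (h1 : (M : ℤ) * γ 0 0 = γ' 0 0 * A) (h2 : (M : ℤ) * γ 0 1 = γ' 0 0 * B + γ' 0 1 * D)
    (h3 : γ 1 0 = γ' 1 0 * A) (h4 : γ 1 1 = γ' 1 0 * B + γ' 1 1 * D) (z : ℍ) :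
    scaleH M (γ • z) = γ' • affH A D B hA hD z := by
  apply UpperHalfPlane.ext
  rw [coe_scaleH, coe_smul', coe_smul', coe_affH]
  have hden := Hermite.denom_ne_zero' γ z
  have hden' := Hermite.denom_ne_zero' γ' (affH A D B hA hD z)
  rw [coe_affH] at hden'
  have heC : (D : ℂ) ≠ 0 := by exact_mod_cast hD.ne'
  have e1 : ((M : ℤ) : ℂ) * ((γ 0 0 : ℤ) : ℂ) = ((γ' 0 0 : ℤ) : ℂ) * ((A : ℤ) : ℂ) := by
    exact_mod_cast congrArg (Int.cast : ℤ → ℂ) h1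
  have e2 : ((M : ℤ) : ℂ) * ((γ 0 1 : ℤ) : ℂ) =
      ((γ' 0 0 : ℤ) : ℂ) * (B : ℂ) + ((γ' 0 1 : ℤ) : ℂ) * ((D : ℤ) : ℂ) := by
    exact_mod_cast congrArg (Int.cast : ℤ → ℂ) h2
  have e3 : ((γ 1 0 : ℤ) : ℂ) = ((γ' 1 0 : ℤ) : ℂ) * ((A : ℤ) : ℂ) := by
    exact_mod_cast congrArg (Int.cast : ℤ → ℂ) h3
  have e4 : ((γ 1 1 : ℤ) : ℂ) =
      ((γ' 1 0 : ℤ) : ℂ) * (B : ℂ) + ((γ' 1 1 : ℤ) : ℂ) * ((D : ℤ) : ℂ) := by
    exact_mod_cast congrArg (Int.cast : ℤ → ℂ) h4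
  simp only [Int.cast_natCast] at e1 e2 e3 e4
  have hnum : ((γ' 0 0 : ℤ) : ℂ) * (((A : ℂ) * z + B) / D) + ((γ' 0 1 : ℤ) : ℂ) =
      ((M : ℂ) * (((γ 0 0 : ℤ) : ℂ) * z + ((γ 0 1 : ℤ) : ℂ))) / D := by
    field_simp
    linear_combination (-(z : ℂ)) * e1 - e2
  have hdenom : ((γ' 1 0 : ℤ) : ℂ) * (((A : ℂ) * z + B) / D) + ((γ' 1 1 : ℤ) : ℂ) =
      (((γ 1 0 : ℤ) : ℂ) * z + ((γ 1 1 : ℤ) : ℂ)) / D := by
    field_simp
    linear_combination (-(z : ℂ)) * e3 - e4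
  rw [hnum, hdenom]
  field_simp

/-- `c z + d = D · (c' w + d')`, `w = (A z + B)/D`. -/
lemma denom_hermite {γ γ' : SL(2, ℤ)} {A D : ℕ} {B : ℤ} (hA : 0 < A) (hD : 0 < D)
    (h3 : γ 1 0 = γ' 1 0 * A) (h4 : γ 1 1 = γ' 1 0 * B + γ' 1 1 * D) (z : ℍ) :
    denom γ z = (D : ℂ) * denom γ' (affH A D B hA hD z) := by
  have heC : (D : ℂ) ≠ 0 := by exact_mod_cast hD.ne'
  have e3 : ((γ 1 0 : ℤ) : ℂ) = ((γ' 1 0 : ℤ) : ℂ) * ((A : ℤ) : ℂ) := by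
    exact_mod_cast congrArg (Int.cast : ℤ → ℂ) h3
  have e4 : ((γ 1 1 : ℤ) : ℂ) =
      ((γ' 1 0 : ℤ) : ℂ) * (B : ℂ) + ((γ' 1 1 : ℤ) : ℂ) * ((D : ℤ) : ℂ) := by
    exact_mod_cast congrArg (Int.cast : ℤ → ℂ) h4
  simp only [Int.cast_natCast] at e3 e4
  rw [ModularGroup.denom_apply, ModularGroup.denom_apply, coe_affH]
  field_simp
  linear_combination (z : ℂ) * e3 + e4

end HermiteForm

/-! ### the main formula and the cusp expansions -/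

section Main

variable (M : ℕ) [NeZero M]

/-- `vγ ≡ 0 mod M` forces `v ≡ 0 mod M`. -/
lemma not_dvd_vecMul (γ : SL(2, ℤ)) {v : Fin 2 → ℤ}
    (hv : ¬ ((M : ℤ) ∣ v 0 ∧ (M : ℤ) ∣ v 1)) :
    ¬ ((M : ℤ) ∣ (v ᵥ* (γ : Matrix (Fin 2) (Fin 2) ℤ)) 0 ∧
       (M : ℤ) ∣ (v ᵥ* (γ : Matrix (Fin 2) (Fin 2) ℤ)) 1) := by
  rintro ⟨h0, h1⟩
  apply hv
  set w : Fin 2 → ℤ := v ᵥ* (γ : Matrix (Fin 2) (Fin 2) ℤ) with hw
  have hinv : w ᵥ* ((γ⁻¹ : SL(2, ℤ)) : Matrix (Fin 2) (Fin 2) ℤ) = v :=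
    (vecMulEquiv γ).left_inv v
  have key : ∀ i : Fin 2, (M : ℤ) ∣ v i := by
    intro i
    rw [← hinv]
    simp only [Matrix.vecMul, dotProduct, Fin.sum_univ_two]
    exact dvd_add (Dvd.dvd.mul_right h0 _) (Dvd.dvd.mul_right h1 _)
  exact ⟨key 0, key 1⟩

lemma not_dvd_pair' {a : ℤ} (ha : ¬ (M : ℤ) ∣ a) (c : ℤ) :
    ¬ ((M : ℤ) ∣ (![a, c] : Fin 2 → ℤ) 0 ∧ (M : ℤ) ∣ (![a, c] : Fin 2 → ℤ) 1) := by
  rintro ⟨h0, -⟩
  exact ha h0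

/-- **The conjugates of `g_{a,b}`**: with the Hermite form `Mγ = γ' [[A,B],[0,D]]`,
`g_{a,b}(γτ) = (D²/M²) (E₄E₆/Δ)((Aτ+B)/D) Σ_k [P_{(a,-k)γ}(τ) - P_{(b,-k)γ}(τ)]/(2πi)²`. -/
theorem gABfun_smul_hermite {γ γ' : SL(2, ℤ)} {A D : ℕ} {B : ℤ} (hA : 0 < A) (hD : 0 < D)
    (h1 : (M : ℤ) * γ 0 0 = γ' 0 0 * A) (h2 : (M : ℤ) * γ 0 1 = γ' 0 0 * B + γ' 0 1 * D)
    (h3 : γ 1 0 = γ' 1 0 * A) (h4 : γ 1 1 = γ' 1 0 * B + γ' 1 1 * D) (a b : ℤ) (τ : ℍ) :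
    gABfun M a b (γ • τ) = ((D : ℂ) ^ 2 / (M : ℂ) ^ 2) * (wm2 (affH A D B hA hD τ) *
      ∑ k : Fin M, (PbN M (![a, -((k : ℕ) : ℤ)] ᵥ* (γ : Matrix (Fin 2) (Fin 2) ℤ)) τ -
        PbN M (![b, -((k : ℕ) : ℤ)] ᵥ* (γ : Matrix (Fin 2) (Fin 2) ℤ)) τ)) := by
  have hM : (M : ℂ) ≠ 0 := by exact_mod_cast NeZero.ne M
  have hDC : (D : ℂ) ≠ 0 := by exact_mod_cast hD.ne'
  set w : ℍ := affH A D B hA hD τ with hw
  have hden' : (denom γ' w : ℂ) ≠ 0 := denom_ne_zero γ' w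
  unfold gABfun wMFun xFun
  rw [PbN_isog_sub, scaleH_smul_hermite M hA hD h1 h2 h3 h4 τ, ← hw, wm2_smul]
  have hsum : (∑ k : Fin M, (PbN M ![a, -((k : ℕ) : ℤ)] (γ • τ) -
      PbN M ![b, -((k : ℕ) : ℤ)] (γ • τ))) = (denom γ τ) ^ 2 *
      ∑ k : Fin M, (PbN M (![a, -((k : ℕ) : ℤ)] ᵥ* (γ : Matrix (Fin 2) (Fin 2) ℤ)) τ -
        PbN M (![b, -((k : ℕ) : ℤ)] ᵥ* (γ : Matrix (Fin 2) (Fin 2) ℤ)) τ) := by
    rw [Finset.mul_sum]
    refine Finset.sum_congr rfl fun k _ => ?_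
    rw [PbN_smul, PbN_smul]
    ring
  rw [hsum, denom_hermite hA hD h3 h4 τ, ← hw]
  field_simp

/-- **Expansions of `g_{a,b}` at all cusps**, with coefficients in `ι(Lc)`. -/
theorem exists_isQExp_compSL_gABfun {Lc : Type*} [Field Lc] (ι : Lc →+* ℂ) {ζ : Lc}
    (hζ : ι ζ = zetaC M) {a b : ℤ} (ha : ¬ (M : ℤ) ∣ a) (hb : ¬ (M : ℤ) ∣ b) (γ : SL(2, ℤ)) :
    ∃ (m : ℕ) (P : PowerSeries Lc), IsQExp M (compSL (gABfun M a b) γ) m (P.map ι) := by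
  have hMpos : 0 < M := Nat.pos_of_ne_zero (NeZero.ne M)
  obtain ⟨γ', A, D, B, hAD, hA, hD, -, -, h1, h2, h3, h4⟩ := exists_hermite γ hMpos
  have hDM : D ∣ M := Dvd.intro_left A hAD
  have hfun : compSL (gABfun M a b) γ = ι ((D : Lc) ^ 2 / (M : Lc) ^ 2) •
      ((fun z => wm2 (affH A D B hA hD z)) *
        ∑ k : Fin M, (PbN M (![a, -((k : ℕ) : ℤ)] ᵥ* (γ : Matrix (Fin 2) (Fin 2) ℤ)) -
          PbN M (![b, -((k : ℕ) : ℤ)] ᵥ* (γ : Matrix (Fin 2) (Fin 2) ℤ)))) := by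
    funext τ
    show gABfun M a b (γ • τ) = _
    rw [gABfun_smul_hermite M hA hD h1 h2 h3 h4 a b τ]
    simp only [Pi.smul_apply, Pi.mul_apply, Finset.sum_apply, Pi.sub_apply, smul_eq_mul,
      map_div₀, map_pow, map_natCast]
  rw [hfun]
  refine QExpIn.smul (QExpIn.mul (qExpIn_wm2_aff ι M hζ B hA hD hDM) (QExpIn.sum _ ?_)) _
  intro k _
  exact (qExpIn_PbN ι M hζ (not_dvd_vecMul M γ (not_dvd_pair' M ha _))).sub
    (qExpIn_PbN ι M hζ (not_dvd_vecMul M γ (not_dvd_pair' M hb _)))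

end Main

/-! ### the generators `j(dτ)`, `d ∣ M`, over a general coefficient field -/

section JGen

variable (M : ℕ) [NeZero M]

/-- Expansions of `j(d ·)`, `d ∣ M`, at all cusps, with coefficients in `ι(Lc)`
(the generic-coefficient version of `X0.CuspGen.exists_isQExp_compSL_jdFun'`). -/
theorem exists_isQExp_compSL_jdFun_in {Lc : Type*} [Field Lc] (ι : Lc →+* ℂ) {ζ : Lc}
    (hζ : ι ζ = zetaC M) (d : ℕ) [NeZero d] (hd : d ∣ M) (γ : SL(2, ℤ)) :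
    ∃ (m : ℕ) (P : PowerSeries Lc), IsQExp M (compSL (jdFun d) γ) m (P.map ι) := by
  obtain ⟨a, e, b, ha, he, hae, -, -, -, hfun⟩ := exists_compSL_jdFun γ d
  have heM : e ∣ M := (Dvd.intro_left a hae).trans hd
  have h := isQExp_affine (N := M) isQExp_jFun_Q b ha he heM
  refine ⟨1 * (a * (M / e)),
    affQ (ModularCurve.jNum.map (Int.castRingHom Lc)) 1 (a * (M / e)) b (ζ ^ (M / e)), ?_⟩
  rw [hfun, affQ_map, map_pow, hζ, zetaC_pow_div M he heM]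
  have e1 : (ModularCurve.jNum.map (Int.castRingHom Lc)).map ι =
      ModularCurve.jNumQ.map (algebraMap ℚ ℂ) := by
    ext n
    simp [PowerSeries.coeff_map, ModularCurve.jNumQ]
  rw [e1]
  exact h

end JGen

end Fermat.Agent.DS.X1.GabCusp
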