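/-
Programme DS (S48), chapter X1 (helper13), brick H1: **the formal generators of `L1 M` are the
convergent `q`-expansions of helper27's analytic functions** (`DS/X1/GabFun.lean`).

* `hasQExp_of_isQExp` : an `IsQExp 1 f m P` datum (`X0/AnDefs`) gives `Analytic.HasQExp (lau m P) f`;
* `hasQExp_wm2`  : `HasQExp (wqC ℂ) wm2`   (`E₄E₆/Δ`);
* `hasQExp_wMFun`: `HasQExp (wMC ℂ M) (wMFun M)`   (`(E₄E₆/Δ)(Mτ)`);
* `wpRat_sub_wpRat` : the rational coefficients `wpRat M a' N - wpRat M b' N` of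
  `℘(a'τ;Mτ)/(2πi)² - ℘(b'τ;Mτ)/(2πi)²` are the coefficients of `xA M a - xA M b`
  (`a' b' : ℤ` lifts of `a b : ZMod M`);
* `hasQExp_xFun_sub` : `HasQExp (ofPowerSeries (xAC M ℂ a - xAC M ℂ b)) (xFun M a' - xFun M b')`;
* `hasQExp_gABC` : **`HasQExp (gABC M ℂ a b) (gABfun M a' b')`**, and `hasQExp_gAB` in the shape of
  `AnalyticGens.hasQExp` (`coeffEmb ℂ (gABC M ℚ a b)`, lifts `a.val`, `b.val`);
* `hasQExp_jDC` : `HasQExp (jDC ℂ d) (jdFun d)`.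
-/
import Mathlib
import Fermat.Agent.DS.X1.Level1
import Fermat.Agent.DS.X1.GabFun

set_option autoImplicit false
set_option linter.unusedSectionVars false

noncomputable section

open HahnSeries ModularCurve UpperHalfPlane
open scoped MatrixGroups

namespace Fermat.Agent.DS.X1.HasQExp13

open Fermat.Agent.X0 Fermat.Agent.X0.Analytic Fermat.Agent.X0.JQExp
open Fermat.Agent.DS.X1.Level1 Fermat.Agent.DS.X1.GabFun
open Fermat.Agent.DS.Eis1.WPE6 Fermat.Agent.DS.Eis1.WPExp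

/-! ### from `IsQExp` to `HasQExp` -/

theorem qh_one_eq_qH (z : ℍ) : qh 1 z = qH z := by
  unfold qh qH
  rw [Nat.cast_one]

/-- An expansion datum `IsQExp 1 f m P` gives `HasQExp (q^{-m} P) f`. -/
theorem hasQExp_of_isQExp {f : ℍ → ℂ} {m : ℕ} {P : PowerSeries ℂ} (h : IsQExp 1 f m P) :
    HasQExp (lau m P) f := by
  have hsum : ∀ q : ℂ, ‖q‖ < 1 →
      HasSum (fun n => PowerSeries.coeff n P * q ^ n)
        ((fun q : ℂ => ∑' n : ℕ, PowerSeries.coeff n P * q ^ n) q) :=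
    fun q hq => (h.summable hq).hasSum
  have hball := hasFPowerSeriesOnBall_of_hasSum hsum
  refine ⟨m, fun q : ℂ => ∑' n : ℕ, PowerSeries.coeff n P * q ^ n, ?_, ?_, fun z => ?_⟩
  · have hd := hball.differentiableOn
    rwa [← ENNReal.coe_one, Metric.eball_coe, NNReal.coe_one] at hd
  · have h1 := tps_eq_of_hasSum hsum
    rw [h1]
    congr 1
    ext n
    rw [PowerSeries.coeff_mk]
  · have h1 := (h z).tsum_eq
    rw [qh_one_eq_qH] at h1
    exact h1.symm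

/-! ### `E₄E₆/Δ` -/

theorem wm2Z_eq_wNum : wm2Z = wNum := rfl

theorem wqC_eq_lau : wqC ℂ = lau 1 (wNum.map (Int.castRingHom ℂ)) := by
  rw [wqC, lau]
  norm_num

/-- `E₄E₆/Δ` has the `q`-expansion `wqC ℂ`. -/
theorem hasQExp_wm2 : HasQExp (wqC ℂ) wm2 := by
  rw [wqC_eq_lau, ← wm2Z_eq_wNum]
  exact hasQExp_of_isQExp isQExp_wm2

variable (M : ℕ) [NeZero M]

/-- `(E₄E₆/Δ)(Mτ)` has the `q`-expansion `wMC ℂ M`. -/
theorem hasQExp_wMFun : HasQExp (wMC ℂ M) (wMFun M) :=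
  hasQExp_wm2.qExpand M

/-- `j(dτ)` has the `q`-expansion `jDC ℂ d`. -/
theorem hasQExp_jDC (d : ℕ) [NeZero d] : HasQExp (jDC ℂ d) (jdFun d) :=
  hasQExp_jqModC.qExpand d

/-! ### the coefficients of `X_a - X_b` -/

/-- `d_a(m) = [m ≡ a] + [m ≡ -a] (mod M)`. -/
def dA (a : ZMod M) (m : ℕ) : ℤ :=
  (if (m : ZMod M) = a then 1 else 0) + (if (m : ZMod M) = -a then 1 else 0)

omit [NeZero M] in
theorem cA_sub_cA (a b : ZMod M) (m : ℕ) : cA M a m - cA M b m = dA M a m - dA M b m := by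
  unfold cA dA
  ring

omit [NeZero M] in
/-- The coefficients of `X_a - X_b`: `∑_{d ∣ n} d ([n/d ≡ ±a] - [n/d ≡ ±b])`. -/
theorem coeff_xA_sub (a b : ZMod M) (n : ℕ) :
    PowerSeries.coeff n (xA M a - xA M b) =
      ∑ d ∈ n.divisors, (d : ℤ) * (dA M a (n / d) - dA M b (n / d)) := by
  rw [map_sub, coeff_xA, coeff_xA, ← Finset.sum_sub_distrib]
  refine Finset.sum_congr rfl fun d _ => ?_
  rw [← mul_sub, cA_sub_cA]

omit [NeZero M] in
/-- helper27's indicator `[M ∣ m - a'] + [M ∣ m + a']` is `dA M a m` for a lift `a'` of `a`. -/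
theorem dvd_indicator_eq_dA {a' : ℤ} {a : ZMod M} (h : ((a' : ℤ) : ZMod M) = a) (m : ℕ) :
    ((if (M : ℤ) ∣ (m : ℤ) - a' then 1 else 0) + (if (M : ℤ) ∣ (m : ℤ) + a' then 1 else 0) : ℚ) =
      ((dA M a m : ℤ) : ℚ) := by
  have h1 : (M : ℤ) ∣ (m : ℤ) - a' ↔ (m : ZMod M) = a := by
    rw [← ZMod.intCast_eq_intCast_iff_dvd_sub, h, Int.cast_natCast, eq_comm]
  have h2 : (M : ℤ) ∣ (m : ℤ) + a' ↔ (m : ZMod M) = -a := by
    have : (m : ℤ) + a' = (m : ℤ) - (-a') := by ring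
    rw [this, ← ZMod.intCast_eq_intCast_iff_dvd_sub, Int.cast_neg, h, Int.cast_natCast, eq_comm]
  unfold dA
  simp only [h1, h2]
  push_cast
  split_ifs <;> simp

omit [NeZero M] in
/-- **Coefficient comparison**: `wpRat M a' N - wpRat M b' N = coeff N (X_a - X_b)`. -/
theorem wpRat_sub_wpRat {a' b' : ℤ} {a b : ZMod M} (ha : ((a' : ℤ) : ZMod M) = a)
    (hb : ((b' : ℤ) : ZMod M) = b) (N : ℕ) :
    wpRat M a' N - wpRat M b' N = ((PowerSeries.coeff N (xA M a - xA M b) : ℤ) : ℚ) := by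
  rw [coeff_xA_sub]
  unfold wpRat
  rw [show ∀ A Sa Sb T : ℚ, (A + Sa - T) - (A + Sb - T) = Sa - Sb from fun _ _ _ _ => by ring,
    ← Finset.sum_sub_distrib]
  push_cast
  rw [← Nat.sum_divisorsAntidiagonal' (f := fun m d => ((d : ℕ) : ℚ) *
    (((dA M a m : ℤ) : ℚ) - ((dA M b m : ℤ) : ℚ)))]
  refine Finset.sum_congr rfl fun x _ => ?_
  rw [dvd_indicator_eq_dA M ha, dvd_indicator_eq_dA M hb]
  ring

/-! ### `X_a - X_b` -/

omit [NeZero M] in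
theorem coeff_xAC_sub (a b : ZMod M) (n : ℕ) :
    PowerSeries.coeff n (xAC M ℂ a - xAC M ℂ b) =
      ((PowerSeries.coeff n (xA M a - xA M b) : ℤ) : ℂ) := by
  rw [xAC, xAC, ← map_sub, PowerSeries.coeff_map]
  rfl

theorem isQExp_xFun_sub {a' b' : ℤ} {a b : ZMod M} (ha : ((a' : ℤ) : ZMod M) = a)
    (hb : ((b' : ℤ) : ZMod M) = b) (ha0 : a ≠ 0) (hb0 : b ≠ 0) :
    IsQExp 1 (fun τ => xFun M a' τ - xFun M b' τ) 0 (xAC M ℂ a - xAC M ℂ b) := by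
  have hna : ¬ (M : ℤ) ∣ a' := by
    intro h
    apply ha0
    rw [← ha]
    exact (ZMod.intCast_zmod_eq_zero_iff_dvd a' M).mpr h
  have hnb : ¬ (M : ℤ) ∣ b' := by
    intro h
    apply hb0
    rw [← hb]
    exact (ZMod.intCast_zmod_eq_zero_iff_dvd b' M).mpr h
  intro z
  rw [pow_zero, mul_one, qh_one_eq_qq]
  have h := (hasSum_xFun M hna z).sub (hasSum_xFun M hnb z)
  refine h.congr_fun fun n => ?_
  rw [coeff_xAC_sub, ← Rat.cast_intCast (α := ℂ), ← wpRat_sub_wpRat M ha hb n]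
  push_cast
  ring

/-- `℘(a'τ;Mτ)/(2πi)² - ℘(b'τ;Mτ)/(2πi)²` has the `q`-expansion `X_a - X_b`. -/
theorem hasQExp_xFun_sub {a' b' : ℤ} {a b : ZMod M} (ha : ((a' : ℤ) : ZMod M) = a)
    (hb : ((b' : ℤ) : ZMod M) = b) (ha0 : a ≠ 0) (hb0 : b ≠ 0) :
    HasQExp (HahnSeries.ofPowerSeries ℤ ℂ (xAC M ℂ a - xAC M ℂ b))
      (fun τ => xFun M a' τ - xFun M b' τ) := by
  have h := hasQExp_of_isQExp (isQExp_xFun_sub M ha hb ha0 hb0)
  rwa [lau_eq_laurentOf, laurentOf_zero_left] at h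

/-! ### the generators `G_{a,b}` -/

/-- **(H1)** `g_{a',b'} = (E₄E₆/Δ)(Mτ) (℘(a'τ;Mτ) - ℘(b'τ;Mτ))/(2πi)²` has the `q`-expansion
`gABC M ℂ a b`, for integer lifts `a'`, `b'` of `a, b ≠ 0`. -/
theorem hasQExp_gABC {a' b' : ℤ} {a b : ZMod M} (ha : ((a' : ℤ) : ZMod M) = a)
    (hb : ((b' : ℤ) : ZMod M) = b) (ha0 : a ≠ 0) (hb0 : b ≠ 0) :
    HasQExp (gABC M ℂ a b) (gABfun M a' b') :=
  (hasQExp_wMFun M).mul (hasQExp_xFun_sub M ha hb ha0 hb0)

theorem intCast_val (a : ZMod M) : (((a.val : ℕ) : ℤ) : ZMod M) = a := by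
  rw [Int.cast_natCast, ZMod.natCast_zmod_val]

/-- **(H1)** in the shape of `AnalyticGens.hasQExp` for the generator `gGenAB M ha hb` of `L1 M`. -/
theorem hasQExp_gAB {a b : ZMod M} (ha0 : a ≠ 0) (hb0 : b ≠ 0) :
    HasQExp (coeffEmb ℂ (gABC M ℚ a b)) (gABfun M (a.val : ℤ) (b.val : ℤ)) := by
  rw [coeffEmb_gABC]
  exact hasQExp_gABC M (intCast_val M a) (intCast_val M b) ha0 hb0

/-- `j(dτ)` in the shape of `AnalyticGens.hasQExp` for the generator `jGenD M h` of `L1 M`. -/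
theorem hasQExp_jD (d : ℕ) [NeZero d] : HasQExp (coeffEmb ℂ (jDC ℚ d)) (jdFun d) := by
  rw [coeffEmb_jDC]
  exact hasQExp_jDC d

end Fermat.Agent.DS.X1.HasQExp13
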