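/-
Programme DS (S48), chapter X1 (helper13): **the analytic package `AnalyticGens (L1 M) Lc ι` of the
concrete level `Γ₁(M)`** (`DS/G/Level.lean`, `DS/X1/Level1.lean`), assembled from

* (H1) `DS/X1/HasQExp13.lean` (helper13): the formal generators are the `q`-expansions of
  `jdFun d` and of helper27's `gABfun M a b`;
* helper27's `DS/X1/GabFun.lean` (diamond law, `±Γ₁(M)`-invariance) and (H3) `DS/X1/GabCusp.lean`
  (`q_M`-expansions at all cusps with coefficients in `ι(Lc)`);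
* (H2) DISTINCT, proved here: if all generators have the same translates under `γ` and `γ'`, then
  `γ' γ⁻¹ ∈ ±Γ₁(M)`.  The generator `j(Mτ)` gives `δ := γ' γ⁻¹ ∈ Γ₀(M)` (Hermite form + leading term,
  `X0/CuspDistinct`); then the single generator `g_{1, δ₁₁}` gives, by the diamond law and the
  uniqueness of `q`-expansions, `X_u - X_1 = X_1 - X_{u⁻¹}` (`u = δ₀₀ mod M`), and the coefficient
  of `q¹` forces `u = ±1`.

Main results: `gFun`, `gFun_jGenD`, `gFun_gGenAB`, `mem_Gamma0_of_compSL_jdFun_eq`,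
`mem_Gamma1pm_of_compSL_eq`, `distinct1`, and
`analyticGens1 M Lc ι ζ hζ : AnalyticGens (L1 M) Lc ι` for every coefficient field `Lc` with
`ι : Lc →+* ℂ` and `ζ : Lc`, `ι ζ = exp(2πi/M)`.
-/
import Mathlib
import Fermat.Agent.DS.X1.HasQExp13
import Fermat.Agent.DS.X1.GabCusp
import Fermat.Agent.X0.CuspDistinct

set_option autoImplicit false
set_option linter.unusedSectionVars false

noncomputable section

open HahnSeries ModularCurve UpperHalfPlane
open scoped MatrixGroups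

namespace Fermat.Agent.DS.X1.AnalyticGens13

open Fermat.Agent.X0 Fermat.Agent.X0.Analytic Fermat.Agent.X0.CuspDistinct
open Fermat.Agent.DS.G.Level
open Fermat.Agent.DS.X1.Level1 Fermat.Agent.DS.X1.GabFun Fermat.Agent.DS.X1.GabCusp
  Fermat.Agent.DS.X1.HasQExp13

variable (M : ℕ) [NeZero M]

/-! ### the analytic generators -/

theorem exists_hasQExp (g : (L1 M).gensQ) :
    ∃ f : ℍ → ℂ, HasQExp (coeffEmb ℂ (g : LaurentSeries ℚ)) f := by
  refine gensQ_cases M (p := fun g => ∃ f : ℍ → ℂ, HasQExp (coeffEmb ℂ (g : LaurentSeries ℚ)) f)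
    ?_ ?_ g
  · intro d _ h
    exact ⟨jdFun d, hasQExp_jD d⟩
  · intro a b ha hb
    exact ⟨gABfun M (a.val : ℤ) (b.val : ℤ), hasQExp_gAB M ha hb⟩

/-- The analytic function attached to a generator of `L1 M`. -/
def gFun (g : (L1 M).gensQ) : ℍ → ℂ := Classical.choose (exists_hasQExp M g)

theorem hasQExp_gFun (g : (L1 M).gensQ) :
    HasQExp (coeffEmb ℂ (g : LaurentSeries ℚ)) (gFun M g) :=
  Classical.choose_spec (exists_hasQExp M g)

theorem gFun_jGenD {d : ℕ} [NeZero d] (h : d ∣ M) : gFun M (jGenD M h) = jdFun d :=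
  (hasQExp_gFun M (jGenD M h)).unique_right (hasQExp_jD d)

theorem gFun_gGenAB {a b : ZMod M} (ha : a ≠ 0) (hb : b ≠ 0) :
    gFun M (gGenAB M ha hb) = gABfun M (a.val : ℤ) (b.val : ℤ) :=
  (hasQExp_gFun M (gGenAB M ha hb)).unique_right (hasQExp_gAB M ha hb)

theorem scaleH_one' (z : ℍ) : scaleH 1 z = z := by
  apply UpperHalfPlane.ext
  rw [coe_scaleH]
  push_cast
  ring

theorem jdFun_one' : jdFun 1 = jFun := by
  funext z
  rw [jdFun, scaleH_one']

theorem gFun_jGen : gFun M (L1 M).jGen = jFun := by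
  rw [jGen_eq, gFun_jGenD, jdFun_one']

/-! ### invariance under `±Γ₁(M)` -/

theorem not_dvd_val {a : ZMod M} (ha : a ≠ 0) : ¬ (M : ℤ) ∣ ((a.val : ℕ) : ℤ) := by
  intro h
  apply ha
  rw [← intCast_val M a]
  exact (ZMod.intCast_zmod_eq_zero_iff_dvd _ M).mpr h

theorem dvd_of_mem_Gamma0 {γ : SL(2, ℤ)} (hγ : γ ∈ CongruenceSubgroup.Gamma0 M) :
    (M : ℤ) ∣ γ 1 0 := by
  rw [CongruenceSubgroup.Gamma0_mem] at hγ
  exact (ZMod.intCast_zmod_eq_zero_iff_dvd _ _).mp hγ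

theorem compSL_jdFun_of_mem_Gamma0 {d : ℕ} [NeZero d] (hd : d ∣ M) {γ : SL(2, ℤ)}
    (hγ : γ ∈ CongruenceSubgroup.Gamma0 M) : compSL (jdFun d) γ = jdFun d := by
  funext z
  exact jdFun_smul_of_dvd γ d ((Int.natCast_dvd_natCast.mpr hd).trans (dvd_of_mem_Gamma0 M hγ)) z

theorem pm_of_mem_Gamma1pm {γ : SL(2, ℤ)} (hγ : γ ∈ Gamma1pm M) :
    (M : ℤ) ∣ γ 0 0 - 1 ∨ (M : ℤ) ∣ γ 0 0 + 1 := by
  rw [mem_Gamma1pm_iff] at hγ
  rcases hγ.2 with ⟨h, -⟩ | ⟨h, -⟩
  · left
    rw [← ZMod.intCast_zmod_eq_zero_iff_dvd]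
    push_cast
    rw [h, sub_self]
  · right
    rw [← ZMod.intCast_zmod_eq_zero_iff_dvd]
    push_cast
    rw [h, neg_add_cancel]

theorem invariant1 (g : (L1 M).gensQ) (γ : SL(2, ℤ)) (hγ : γ ∈ Gamma1pm M) :
    compSL (gFun M g) γ = gFun M g := by
  have hγ0 : γ ∈ CongruenceSubgroup.Gamma0 M := Gamma1pm_le_Gamma0 M hγ
  refine gensQ_cases M (p := fun g => compSL (gFun M g) γ = gFun M g) ?_ ?_ g
  · intro d _ h
    rw [gFun_jGenD]
    exact compSL_jdFun_of_mem_Gamma0 M h hγ0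
  · intro a b ha hb
    rw [gFun_gGenAB]
    exact compSL_gABfun_of_pm M hγ0 (pm_of_mem_Gamma1pm M hγ) (not_dvd_val M ha)
      (not_dvd_val M hb)

/-! ### expansions at all cusps -/

theorem cusp1 {Lc : Type} [Field Lc] (ι : Lc →+* ℂ) {ζ : Lc}
    (hζ : ι ζ = Fermat.Agent.X0.QExpAffine.zetaC M) (g : (L1 M).gensQ) (γ : SL(2, ℤ)) :
    ∃ (m : ℕ) (P : PowerSeries Lc), IsQExp M (compSL (gFun M g) γ) m (P.map ι) := by
  refine gensQ_cases M
    (p := fun g => ∃ (m : ℕ) (P : PowerSeries Lc), IsQExp M (compSL (gFun M g) γ) m (P.map ι))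
    ?_ ?_ g
  · intro d _ h
    rw [gFun_jGenD]
    exact exists_isQExp_compSL_jdFun_in M ι hζ d h γ
  · intro a b ha hb
    rw [gFun_gGenAB]
    exact exists_isQExp_compSL_gABfun M ι hζ (not_dvd_val M ha) (not_dvd_val M hb) γ

/-! ### (H2) DISTINCT -/

/-- **`Γ₀(M)` from `j(Mτ)`**: if `j(M · γτ) = j(M · γ'τ)` for all `τ` then `γ' γ⁻¹ ∈ Γ₀(M)`. -/
theorem mem_Gamma0_of_compSL_jdFun_eq (γ γ' : SL(2, ℤ))
    (h : compSL (jdFun M) γ = compSL (jdFun M) γ') :
    γ' * γ⁻¹ ∈ CongruenceSubgroup.Gamma0 M := by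
  obtain ⟨δ, a, e, b, ha, he, hae, _, _, _, h3, h4, _, hj⟩ := HermiteFull.exists_hermite_full γ M
  obtain ⟨δ', a', e', b', ha', he', hae', _, _, _, h3', h4', _, hj'⟩ :=
    HermiteFull.exists_hermite_full γ' M
  have q1 : IsQExp M (compSL (jdFun M) γ) (a * a) (cd_Q a e b ha) := by
    have hfun : compSL (jdFun M) γ = fun z => jFun (Hermite.affH a e b ha he z) :=
      funext fun z => hj z
    rw [hfun]
    exact cd_isQExp_jFun_affH b ha he hae
  have q2 : IsQExp M (compSL (jdFun M) γ') (a' * a') (cd_Q a' e' b' ha') := by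
    have hfun : compSL (jdFun M) γ' = fun z => jFun (Hermite.affH a' e' b' ha' he' z) :=
      funext fun z => hj' z
    rw [hfun]
    exact cd_isQExp_jFun_affH b' ha' he' hae'
  rw [h] at q1
  have e1 := cd_isQExp_unique q2 q1
  obtain ⟨haa, hz⟩ := cd_eq_of_laurentOf_eq ha' ha e1
  subst haa
  have hee : e' = e := by
    have : a' * e' = a' * e := by rw [hae', hae]
    exact Nat.eq_of_mul_eq_mul_left ha' this
  subst hee
  have hbb : (e' : ℤ) ∣ b - b' := cd_dvd_of_zeta_eq he' hz.symm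
  exact Hermite.mem_Gamma0_of_hermite γ γ' hae hbb h3 h4 h3' h4'

/-- `u v = 1` in `ZMod M` for `δ ∈ Γ₀(M)`, `u = δ₀₀`, `v = δ₁₁`. -/
theorem diag_mul_eq_one {δ : SL(2, ℤ)} (hδ : δ ∈ CongruenceSubgroup.Gamma0 M) :
    ((δ 0 0 : ℤ) : ZMod M) * ((δ 1 1 : ℤ) : ZMod M) = 1 := by
  have hdet : (δ 0 0 : ℤ) * δ 1 1 - δ 0 1 * δ 1 0 = 1 := by
    have := Matrix.SpecialLinearGroup.det_coe δ
    rw [Matrix.det_fin_two] at this
    exact this
  rw [CongruenceSubgroup.Gamma0_mem] at hδ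
  have h := congrArg (fun t : ℤ => (t : ZMod M)) hdet
  simp only [Int.cast_sub, Int.cast_mul, Int.cast_one] at h
  rw [hδ, mul_zero, sub_zero] at h
  exact h

/-- the coefficient of `q¹` of `X_a - X_b`. -/
theorem coeff_one_xA_sub (a b : ZMod M) :
    PowerSeries.coeff 1 (xA M a - xA M b) = dA M a 1 - dA M b 1 := by
  rw [coeff_xA_sub, Nat.divisors_one, Finset.sum_singleton, Nat.div_one, Nat.cast_one, one_mul]

theorem dA_one_eq (a : ZMod M) :
    dA M a 1 = (if (1 : ZMod M) = a then 1 else 0) + (if (1 : ZMod M) = -a then 1 else 0) := by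
  unfold dA
  rw [Nat.cast_one]

/-- **The diamond law determines `u = ±1`**: if `δ ∈ Γ₀(M)` fixes the single function
`g_{1, δ₁₁}`, then `δ ∈ ±Γ₁(M)`. -/
theorem mem_Gamma1pm_of_compSL_eq (hM : 2 ≤ M) {δ : SL(2, ℤ)}
    (hδ : δ ∈ CongruenceSubgroup.Gamma0 M)
    (h : ∀ a b : ZMod M, a ≠ 0 → b ≠ 0 →
      compSL (gABfun M (a.val : ℤ) (b.val : ℤ)) δ = gABfun M (a.val : ℤ) (b.val : ℤ)) :
    δ ∈ Gamma1pm M := by
  have : Fact (1 < M) := ⟨hM⟩
  set u : ZMod M := ((δ 0 0 : ℤ) : ZMod M) with hu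
  set v : ZMod M := ((δ 1 1 : ℤ) : ZMod M) with hv
  have huv : u * v = 1 := diag_mul_eq_one M hδ
  have h1 : (1 : ZMod M) ≠ 0 := one_ne_zero
  have hv0 : v ≠ 0 := by
    rintro h0
    rw [h0, mul_zero] at huv
    exact h1 huv.symm
  -- the function `f = g_{1,v}` and its two expansions
  have hfix := h 1 v h1 hv0
  rw [compSL_gABfun M hδ (not_dvd_val M h1) (not_dvd_val M hv0)] at hfix
  have ea : (((((1 : ZMod M).val : ℕ) : ℤ) * δ 0 0 : ℤ) : ZMod M) = u := by
    rw [Int.cast_mul, intCast_val, one_mul]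
  have eb : ((((v.val : ℕ) : ℤ) * δ 0 0 : ℤ) : ZMod M) = 1 := by
    rw [Int.cast_mul, intCast_val, mul_comm]
    exact huv
  have hu0 : u ≠ 0 := by
    rintro h0
    rw [h0, zero_mul] at huv
    exact h1 huv.symm
  have q1 := hasQExp_gABC M ea eb hu0 h1
  have q2 := hasQExp_gABC M (intCast_val M 1) (intCast_val M v) h1 hv0
  rw [hfix] at q1
  have hser : gABC M ℂ u 1 = gABC M ℂ 1 v := q1.unique_left q2
  -- cancel `(E₄E₆/Δ)(q^M)`
  unfold gABC at hser
  have hps : xAC M ℂ u - xAC M ℂ 1 = xAC M ℂ 1 - xAC M ℂ v :=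
    HahnSeries.ofPowerSeries_injective (mul_left_cancel₀ (wMC_ne_zero ℂ M) hser)
  have hc := congrArg (PowerSeries.coeff 1) hps
  rw [coeff_xAC_sub, coeff_xAC_sub, Int.cast_inj, coeff_one_xA_sub, coeff_one_xA_sub] at hc
  -- `dA v 1 = dA u 1`
  have hvu : dA M v 1 = dA M u 1 := by
    rw [dA_one_eq, dA_one_eq]
    have e1 : (1 : ZMod M) = v ↔ (1 : ZMod M) = u := by
      constructor
      · intro hh
        rw [← hh, mul_one] at huv
        exact huv.symm
      · intro hh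
        rw [← hh, one_mul] at huv
        exact huv.symm
    have e2 : (1 : ZMod M) = -v ↔ (1 : ZMod M) = -u := by
      constructor
      · intro hh
        have : u * (-v) = -1 := by rw [mul_neg, huv]
        rw [← hh, mul_one] at this
        rw [this, neg_neg]
      · intro hh
        have : (-u) * v = -1 := by rw [neg_mul, huv]
        rw [← hh, one_mul] at this
        rw [this, neg_neg]
    simp only [e1, e2]
  have h11 : 1 ≤ dA M (1 : ZMod M) 1 := by
    rw [dA_one_eq, if_pos rfl]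
    split_ifs <;> norm_num
  have hu1 : 1 ≤ dA M u 1 := by
    rw [hvu] at hc
    linarith
  have hpm : (1 : ZMod M) = u ∨ (1 : ZMod M) = -u := by
    rw [dA_one_eq] at hu1
    by_contra hcon
    push Not at hcon
    rw [if_neg hcon.1, if_neg hcon.2] at hu1
    norm_num at hu1
  rw [mem_Gamma1pm_iff]
  refine ⟨(CongruenceSubgroup.Gamma0_mem).mp hδ, ?_⟩
  rcases hpm with hh | hh
  · left
    refine ⟨hh.symm, ?_⟩
    show v = 1
    rw [← hh, one_mul] at huv
    exact huv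
  · right
    have hu' : u = -1 := by rw [hh, neg_neg]
    refine ⟨hu', ?_⟩
    show v = -1
    rw [hu', neg_mul, one_mul] at huv
    rw [← huv, neg_neg]

/-- **(H2) DISTINCT for `L1 M`.** -/
theorem distinct1 (γ γ' : SL(2, ℤ))
    (h : ∀ g : (L1 M).gensQ, compSL (gFun M g) γ = compSL (gFun M g) γ') :
    γ' * γ⁻¹ ∈ Gamma1pm M := by
  have hδ : γ' * γ⁻¹ ∈ CongruenceSubgroup.Gamma0 M := by
    apply mem_Gamma0_of_compSL_jdFun_eq
    have := h (jGenD M (dvd_refl M))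
    rwa [gFun_jGenD] at this
  rcases Nat.lt_or_ge M 2 with hM | hM
  · -- `M = 1`
    have hM1 : M = 1 := by
      have := Nat.pos_of_ne_zero (NeZero.ne M)
      omega
    subst hM1
    rw [mem_Gamma1pm_iff]
    exact ⟨Subsingleton.elim _ _, Or.inl ⟨Subsingleton.elim _ _, Subsingleton.elim _ _⟩⟩
  · refine mem_Gamma1pm_of_compSL_eq M hM hδ fun a b ha hb => ?_
    have hg := h (gGenAB M ha hb)
    rw [gFun_gGenAB] at hg
    funext z
    have h1 := congrFun hg (γ⁻¹ • z)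
    simp only [compSL] at h1 ⊢
    rw [smul_inv_smul] at h1
    rw [mul_smul, ← h1]

/-! ### the assembly -/

/-- **The analytic package of the level `±Γ₁(M)`**, for every coefficient field `Lc` with
`ι : Lc →+* ℂ` containing `ζ` with `ι ζ = exp(2πi/M)`. -/
def analyticGens1 (Lc : Type) [Field Lc] [Algebra ℚ Lc] (ι : Lc →+* ℂ) (ζ : Lc)
    (hζ : ι ζ = Fermat.Agent.X0.QExpAffine.zetaC M) : AnalyticGens (L1 M) Lc ι where
  gFun := gFun M
  hasQExp := hasQExp_gFun M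
  j_eq := gFun_jGen M
  invariant := invariant1 M
  cusp := cusp1 M ι hζ
  distinct := distinct1 M

end Fermat.Agent.DS.X1.AnalyticGens13
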