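/-
Programme DS (S48), chapter X1 (helper13): **the interface structures of `DS/G/Level.lean` for the
concrete level `L1 M = ±Γ₁(M)`**, unconditionally:

for every coefficient field `Lc` with an injective `ι : Lc →+* ℂ` and `ζ : Lc`, `ι ζ = exp(2πi/M)`:
* `realizeData1 : RealizeDataL (L1 M) Lc ι`          (from `AnalyticGens13.analyticGens1` + `G/X0/Realize`);
* `cuspData1    : CuspDataL (L1 M) Lc ι realizeData1` (from `G/X0/CuspExpand` + `G/X0/FracR`);
* `cuspData1_distinct : cuspData1.Distinct`           (HYP3);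
and the two specialisations
* `Lc = ℚbar`, `ι = iotaK` : `analyticGensK`, `realizeDataK1`, `cuspDataK1`, `cuspDataK1_distinct`;
* `Lc = ℂ`, `ι = id`       : `analyticGensC`, `realizeDataC1`, `cuspDataC1`, `cuspDataC1_distinct`.
-/
import Mathlib
import Fermat.Agent.DS.X1.AnalyticGens13
import Fermat.Agent.DS.G.X0.Realize
import Fermat.Agent.DS.G.X0.CuspExpand
import Fermat.Agent.DS.G.X0.FracR
import Fermat.Agent.X0.CuspGen

set_option autoImplicit false
set_option linter.unusedSectionVars false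

noncomputable section

open HahnSeries ModularCurve UpperHalfPlane
open scoped MatrixGroups

namespace Fermat.Agent.DS.X1.Inst13

open Fermat.Agent.X0 Fermat.Agent.X0.Analytic
open Fermat.Agent.DS.G.Level Fermat.Agent.DS.G.X0
open Fermat.Agent.DS.X1.Level1 Fermat.Agent.DS.X1.AnalyticGens13

variable (M : ℕ) [NeZero M]

section General

variable (Lc : Type) [Field Lc] [Algebra ℚ Lc] (ι : Lc →+* ℂ) (hι : Function.Injective ι)
  (ζ : Lc) (hζ : ι ζ = Fermat.Agent.X0.QExpAffine.zetaC M)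

/-- The analytic realisation of `Lc[generators]` for `L1 M`. -/
def realizeData1 : RealizeDataL (L1 M) Lc ι :=
  Realize.realizeDataL ι (L1 M) (analyticGens1 M Lc ι ζ hζ) hι

theorem realizeData1_genR (g : (L1 M).gensQ) :
    (realizeData1 M Lc ι hι ζ hζ).Θ (genR (L1 M) Lc g) = gFun M g :=
  Realize.realizeDataL_genR ι (L1 M) (analyticGens1 M Lc ι ζ hζ) hι g

theorem genCusp1 : CuspExpand.GenCusp (realizeData1 M Lc ι hι ζ hζ) := by
  intro g γ
  rw [realizeData1_genR]
  exact cusp1 M ι hζ g γ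

/-- The cusp expansions for `L1 M`. -/
def cuspData1 : CuspDataL (L1 M) Lc ι (realizeData1 M Lc ι hι ζ hζ) :=
  CuspExpand.cuspDataOf (realizeData1 M Lc ι hι ζ hζ) (genCusp1 M Lc ι hι ζ hζ) hι

/-- **HYP3 / DISTINCT** for `L1 M`. -/
theorem cuspData1_distinct : (cuspData1 M Lc ι hι ζ hζ).Distinct := by
  refine CuspExpand.distinct_of (realizeData1 M Lc ι hι ζ hζ) (cuspData1 M Lc ι hι ζ hζ) ?_
  intro γ γ' h
  refine distinct1 M γ γ' fun g => ?_
  have := h g
  rwa [realizeData1_genR] at this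

end General

/-! ### `Lc = ℚbar` -/

section Kbar

theorem exists_zetaK : ∃ ζ : Kbar, iotaK ζ = Fermat.Agent.X0.QExpAffine.zetaC M :=
  Fermat.Agent.X0.CuspGen.exists_iotaK_eq_zetaC (Nat.pos_of_ne_zero (NeZero.ne M))

/-- a primitive `M`-th root of unity of `ℚbar` mapping to `exp(2πi/M)`. -/
def zetaK1 : Kbar := (exists_zetaK M).choose

theorem iotaK_zetaK1 : iotaK (zetaK1 M) = Fermat.Agent.X0.QExpAffine.zetaC M :=
  (exists_zetaK M).choose_spec

/-- The analytic package of `L1 M` over `ℚbar`. -/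
def analyticGensK : AnalyticGens (L1 M) Kbar iotaK :=
  analyticGens1 M Kbar iotaK (zetaK1 M) (iotaK_zetaK1 M)

def realizeDataK1 : RealizeDataK (L1 M) :=
  realizeData1 M Kbar iotaK iotaK_injective (zetaK1 M) (iotaK_zetaK1 M)

def cuspDataK1 : CuspDataK (L1 M) (realizeDataK1 M) :=
  cuspData1 M Kbar iotaK iotaK_injective (zetaK1 M) (iotaK_zetaK1 M)

theorem cuspDataK1_distinct : (cuspDataK1 M).Distinct :=
  cuspData1_distinct M Kbar iotaK iotaK_injective (zetaK1 M) (iotaK_zetaK1 M)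

theorem realizeDataK1_genR (g : (L1 M).gensQ) :
    (realizeDataK1 M).Θ (genR (L1 M) Kbar g) = gFun M g :=
  realizeData1_genR M Kbar iotaK iotaK_injective (zetaK1 M) (iotaK_zetaK1 M) g

end Kbar

/-! ### `Lc = ℂ` -/

section Complex

/-- The analytic package of `L1 M` over `ℂ`. -/
def analyticGensC : AnalyticGens (L1 M) ℂ (RingHom.id ℂ) :=
  analyticGens1 M ℂ (RingHom.id ℂ) (Fermat.Agent.X0.QExpAffine.zetaC M) rfl

def realizeDataC1 : RealizeDataL (L1 M) ℂ (RingHom.id ℂ) :=
  realizeData1 M ℂ (RingHom.id ℂ) Function.injective_id (Fermat.Agent.X0.QExpAffine.zetaC M) rfl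

def cuspDataC1 : CuspDataL (L1 M) ℂ (RingHom.id ℂ) (realizeDataC1 M) :=
  cuspData1 M ℂ (RingHom.id ℂ) Function.injective_id (Fermat.Agent.X0.QExpAffine.zetaC M) rfl

theorem cuspDataC1_distinct : (cuspDataC1 M).Distinct :=
  cuspData1_distinct M ℂ (RingHom.id ℂ) Function.injective_id
    (Fermat.Agent.X0.QExpAffine.zetaC M) rfl

theorem realizeDataC1_genR (g : (L1 M).gensQ) :
    (realizeDataC1 M).Θ (genR (L1 M) ℂ g) = gFun M g :=
  realizeData1_genR M ℂ (RingHom.id ℂ) Function.injective_id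
    (Fermat.Agent.X0.QExpAffine.zetaC M) rfl g

end Complex

end Fermat.Agent.DS.X1.Inst13
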