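/-
Programme DS (S48), chapter X1 (helper13): **`Γ₀(M)` permutes the analytic generators of `L1 M`**
(the diamond law on the generators), for the Kronecker chapter (`DS/G/ES/KRON/ConjTop90`,
`StableUnder` / `stableUnder_of_perm`) and the Hecke chapter.

For `γ ∈ Γ₀(M)`, `u = γ₀₀ mod M` (a unit of `ZMod M`):
* `compSL_gFun_jGenD`  : `gFun (j_d) ∘ γ = gFun (j_d)`;
* `compSL_gFun_gGenAB` : `gFun (G_{a,b}) ∘ γ = gFun (G_{au,bu})`;
* `exists_perm`        : `∀ g, ∃ g', gFun g ∘ γ = gFun g'`;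
* `gFun_eq_of_analyticGens` : every `AG : AnalyticGens (L1 M) Lc ι` has `AG.gFun = gFun M`
  (uniqueness of the function with a given `q`-expansion), hence
  `exists_perm_of_analyticGens AG hγ g : ∃ g', compSL (AG.gFun g) γ = AG.gFun g'`.
-/
import Mathlib
import Fermat.Agent.DS.X1.AnalyticGens13

set_option autoImplicit false
set_option linter.unusedSectionVars false

noncomputable section

open HahnSeries ModularCurve UpperHalfPlane
open scoped MatrixGroups

namespace Fermat.Agent.DS.X1.Diamond13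

open Fermat.Agent.X0 Fermat.Agent.X0.Analytic
open Fermat.Agent.DS.G.Level
open Fermat.Agent.DS.X1.Level1 Fermat.Agent.DS.X1.GabFun Fermat.Agent.DS.X1.HasQExp13
  Fermat.Agent.DS.X1.AnalyticGens13

variable (M : ℕ) [NeZero M]

/-- `u = γ₀₀ mod M`. -/
def uOf (γ : SL(2, ℤ)) : ZMod M := ((γ 0 0 : ℤ) : ZMod M)

theorem mul_uOf_ne_zero {γ : SL(2, ℤ)} (hγ : γ ∈ CongruenceSubgroup.Gamma0 M) {a : ZMod M}
    (ha : a ≠ 0) : a * uOf M γ ≠ 0 := by
  intro h
  apply ha
  have huv := diag_mul_eq_one M hγ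
  have : a = a * uOf M γ * ((γ 1 1 : ℤ) : ZMod M) := by
    rw [mul_assoc, uOf, huv, mul_one]
  rw [this, h, zero_mul]

theorem compSL_gFun_jGenD {γ : SL(2, ℤ)} (hγ : γ ∈ CongruenceSubgroup.Gamma0 M) {d : ℕ}
    [NeZero d] (h : d ∣ M) : compSL (gFun M (jGenD M h)) γ = gFun M (jGenD M h) := by
  rw [gFun_jGenD]
  exact compSL_jdFun_of_mem_Gamma0 M h hγ

/-- **The diamond law on the generators.** -/
theorem compSL_gFun_gGenAB {γ : SL(2, ℤ)} (hγ : γ ∈ CongruenceSubgroup.Gamma0 M) {a b : ZMod M}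
    (ha : a ≠ 0) (hb : b ≠ 0) :
    compSL (gFun M (gGenAB M ha hb)) γ =
      gFun M (gGenAB M (mul_uOf_ne_zero M hγ ha) (mul_uOf_ne_zero M hγ hb)) := by
  rw [gFun_gGenAB, gFun_gGenAB, compSL_gABfun M hγ (not_dvd_val M ha) (not_dvd_val M hb)]
  refine gABfun_congr M (not_dvd_val M (mul_uOf_ne_zero M hγ ha))
    (not_dvd_val M (mul_uOf_ne_zero M hγ hb)) ?_ ?_
  · rw [← ZMod.intCast_zmod_eq_zero_iff_dvd]
    push_cast
    rw [ZMod.natCast_zmod_val, ZMod.natCast_zmod_val, uOf, sub_self]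
  · rw [← ZMod.intCast_zmod_eq_zero_iff_dvd]
    push_cast
    rw [ZMod.natCast_zmod_val, ZMod.natCast_zmod_val, uOf, sub_self]

/-- `Γ₀(M)` permutes the analytic generators of `L1 M`. -/
theorem exists_perm {γ : SL(2, ℤ)} (hγ : γ ∈ CongruenceSubgroup.Gamma0 M) (g : (L1 M).gensQ) :
    ∃ g' : (L1 M).gensQ, compSL (gFun M g) γ = gFun M g' := by
  refine gensQ_cases M (p := fun g => ∃ g' : (L1 M).gensQ, compSL (gFun M g) γ = gFun M g')
    ?_ ?_ g
  · intro d _ h
    exact ⟨_, compSL_gFun_jGenD M hγ h⟩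
  · intro a b ha hb
    exact ⟨_, compSL_gFun_gGenAB M hγ ha hb⟩

/-- The analytic generators are determined by their `q`-expansions. -/
theorem gFun_eq_of_analyticGens {Lc : Type} [Field Lc] [Algebra ℚ Lc] {ι : Lc →+* ℂ}
    (AG : AnalyticGens (L1 M) Lc ι) : AG.gFun = gFun M := by
  funext g
  exact (AG.hasQExp g).unique_right (hasQExp_gFun M g)

/-- `Γ₀(M)` permutes the analytic generators of any `AG : AnalyticGens (L1 M) Lc ι`
(the hypothesis of `ConjTop90.stableUnder_of_perm`). -/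
theorem exists_perm_of_analyticGens {Lc : Type} [Field Lc] [Algebra ℚ Lc] {ι : Lc →+* ℂ}
    (AG : AnalyticGens (L1 M) Lc ι) {γ : SL(2, ℤ)} (hγ : γ ∈ CongruenceSubgroup.Gamma0 M)
    (g : (L1 M).gensQ) : ∃ g' : (L1 M).gensQ, compSL (AG.gFun g) γ = AG.gFun g' := by
  rw [gFun_eq_of_analyticGens M AG]
  exact exists_perm M hγ g

end Fermat.Agent.DS.X1.Diamond13
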