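/-
Programme DS (S48), chapter X1 / IGUSA (helper31): DISTINCTNESS OF THE DIAMOND TRANSLATES OF THE
GENERATORS `G_{a,b}` MODULO EVERY ODD PRIME  (= input (e) `hdist` of
`DS/G/RED/Igusa/ResGenTower31.resField_FC_eq_of_diamonds` for `D = X1gens M`).

Purely formal, on the integral generators `gABC M R a b = (E₄E₆/Δ)(q^M) · (X_a - X_b)` of
`DS/X1/Level1.lean` (the mod-`ℓ` twin of `DS/X1/GabDist.wpRat_one / pm_one_of_gABfun_invariant`):

* `coeff_one_xAC` : the `q¹`-coefficient of `X_a` is `[a = 1] + [a = -1] - 2·[1 = 0]`;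
* `gABC_one_ne`   : `G_{1,d} ≠ G_{d,d²}` over a field with `2 ≠ 0`, for `d ≠ ±1`;
* `exists_gABC_ne` : for units `u ≠ ±u'` of `ℤ/M` there are `a, b ≠ 0` with
  `G_{ua,ub} ≠ G_{u'a,u'b}` over every field with `2 ≠ 0`;
* `gaussRed_qExpand_gen` : `gaussRed (V ĝ) = V (g̃)` for an integral series `g`;
* `exists_gaussRed_qExpand_gABC_ne` : the same after `V = (q ↦ Q^N)` and Gauss reduction, in the
  exact shape of `hdist` (`∀ h1 h1', gaussRed ⟨_, h1⟩ ≠ gaussRed ⟨_, h1'⟩`).
-/
import Mathlib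
import Fermat.Agent.DS.X1.Level1
import Fermat.Agent.DS.Igu77.Isometry
import Fermat.Agent.DS.G.ES.RED.GaussUnit25

set_option autoImplicit false
set_option linter.unusedSectionVars false

noncomputable section

namespace Fermat.Agent.DS.X1.GabDistMod31

open HahnSeries ModularCurve
open Fermat.Agent.DS.X1.Level1 Fermat.Agent.DS.G.ES.RED.Iface

section Formal

variable (M : ℕ) [NeZero M]

/-- the `q¹`-coefficient of `X_a` over `R`. -/
theorem coeff_one_xAC (R : Type*) [CommRing R] (a : ZMod M) :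
    PowerSeries.coeff 1 (xAC M R a) = ((cA M a 1 : ℤ) : R) := by
  rw [coeff_xAC, Nat.divisors_one, Finset.sum_singleton]
  simp

theorem cA_one_of_ne (h10 : (1 : ZMod M) ≠ 0) (a : ZMod M) :
    cA M a 1 = (if (1 : ZMod M) = a then 1 else 0) + (if (1 : ZMod M) = -a then 1 else 0) := by
  unfold cA
  simp only [Nat.cast_one, if_neg h10]
  ring

/-- **distinctness of the diamond translates modulo every odd characteristic**, normalised form. -/
theorem gABC_one_ne (k : Type*) [Field k] (h2 : (2 : k) ≠ 0)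
    (h10 : (1 : ZMod M) ≠ 0) (h11 : (1 : ZMod M) ≠ -1) (d : ZMod M) (hd1 : d ≠ 1) (hd2 : d ≠ -1) :
    gABC M k 1 d ≠ gABC M k d (d * d) := by
  intro h
  rw [gABC, gABC] at h
  have h3 := mul_left_cancel₀ (wMC_ne_zero k M) h
  have h4 := HahnSeries.ofPowerSeries_injective h3
  have h5 := congrArg (PowerSeries.coeff 1) h4
  rw [map_sub, map_sub, coeff_one_xAC, coeff_one_xAC, coeff_one_xAC,
    cA_one_of_ne M h10, cA_one_of_ne M h10, cA_one_of_ne M h10] at h5
  have e1 : (1 : ZMod M) ≠ d := fun e => hd1 e.symm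
  have e2 : (1 : ZMod M) ≠ -d := fun e => hd2 (by rw [e, neg_neg])
  rw [if_pos rfl, if_neg h11, if_neg e1, if_neg e2] at h5
  by_cases c1 : (1 : ZMod M) = d * d
  · have c2 : (1 : ZMod M) ≠ -(d * d) := by
      rw [← c1]
      exact h11
    rw [if_pos c1, if_neg c2] at h5
    apply h2
    have : (1 : k) = -1 := by simpa using h5
    calc (2 : k) = 1 + 1 := by norm_num
      _ = 1 + -1 := by rw [← this]
      _ = 0 := by ring
  · rw [if_neg c1] at h5
    by_cases c2 : (1 : ZMod M) = -(d * d)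
    · rw [if_pos c2] at h5
      apply h2
      have : (1 : k) = -1 := by simpa using h5
      calc (2 : k) = 1 + 1 := by norm_num
        _ = 1 + -1 := by rw [← this]
        _ = 0 := by ring
    · rw [if_neg c2] at h5
      have : (1 : k) = 0 := by simp at h5
      exact one_ne_zero this

end Formal

section Units

variable (M : ℕ) [NeZero M]

/-- units `u ≠ ±u'` exist only for `M ≥ 3`: `1 ≠ 0` and `1 ≠ -1` in `ZMod M`. -/
theorem one_ne_of_units {u u' : (ZMod M)ˣ} (hne : u ≠ u') :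
    (1 : ZMod M) ≠ 0 ∧ (1 : ZMod M) ≠ -1 := by
  constructor
  · intro h
    have : Subsingleton (ZMod M) := subsingleton_of_zero_eq_one h.symm
    exact hne (Subsingleton.elim u u')
  · intro h
    have h2 : ((2 : ℕ) : ZMod M) = 0 := by
      have : (1 : ZMod M) + 1 = 0 := by
        nth_rewrite 2 [h]
        ring
      rw [← this]
      norm_num
    have hM : M ∣ 2 := (ZMod.natCast_eq_zero_iff 2 M).mp h2
    have hle : M ≤ 2 := Nat.le_of_dvd (by norm_num) hM
    have hpos : 0 < M := Nat.pos_of_ne_zero (NeZero.ne M)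
    have hcases : M = 1 ∨ M = 2 := by omega
    rcases hcases with rfl | rfl
    · exact hne (Subsingleton.elim u u')
    · exact hne (Subsingleton.elim u u')

/-- **distinctness of the diamond translates of the generators `G_{a,b}` in odd characteristic**:
for units `u ≠ ±u'` of `ℤ/M` some `G_{ua,ub}` differs from `G_{u'a,u'b}` (`a, b ≠ 0`), over every
field `k` with `2 ≠ 0`. -/
theorem exists_gABC_ne (k : Type*) [Field k] (h2 : (2 : k) ≠ 0) (u u' : (ZMod M)ˣ)
    (hne : u ≠ u') (hne' : u ≠ -u') :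
    ∃ a b : ZMod M, a ≠ 0 ∧ b ≠ 0 ∧ gABC M k (u * a) (u * b) ≠ gABC M k (u' * a) (u' * b) := by
  obtain ⟨h10, h11⟩ := one_ne_of_units M hne
  have : Nontrivial (ZMod M) := ⟨⟨1, 0, h10⟩⟩
  let d : (ZMod M)ˣ := u' * u⁻¹
  have hd1 : (d : ZMod M) ≠ 1 := by
    intro h
    have : d = 1 := Units.ext h
    apply hne
    have h' : u' * u⁻¹ = 1 := this
    rw [mul_inv_eq_one] at h'
    exact h'.symm
  have hd2 : (d : ZMod M) ≠ -1 := by
    intro h
    have : d = -1 := Units.ext (by rw [h]; simp)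
    apply hne'
    have h' : u' * u⁻¹ = -1 := this
    rw [mul_inv_eq_iff_eq_mul, neg_one_mul] at h'
    rw [h', neg_neg]
  refine ⟨((u⁻¹ : (ZMod M)ˣ) : ZMod M), ((u⁻¹ * d : (ZMod M)ˣ) : ZMod M),
    Units.ne_zero _, Units.ne_zero _, ?_⟩
  have e1 : (u : ZMod M) * ((u⁻¹ : (ZMod M)ˣ) : ZMod M) = 1 := by
    rw [← Units.val_mul, mul_inv_cancel, Units.val_one]
  have e2 : (u : ZMod M) * ((u⁻¹ * d : (ZMod M)ˣ) : ZMod M) = (d : ZMod M) := by
    rw [← Units.val_mul, mul_inv_cancel_left]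
  have e3 : (u' : ZMod M) * ((u⁻¹ : (ZMod M)ˣ) : ZMod M) = (d : ZMod M) := by
    rw [← Units.val_mul]
  have e4 : (u' : ZMod M) * ((u⁻¹ * d : (ZMod M)ˣ) : ZMod M) = (d : ZMod M) * (d : ZMod M) := by
    rw [← Units.val_mul, ← Units.val_mul, ← mul_assoc]
  rw [e1, e2, e3, e4]
  exact gABC_one_ne M k h2 h10 h11 (d : ZMod M) hd1 hd2

end Units

section Gauss

open Fermat.Agent.RED.PUR.GaussGen8 Fermat.Agent.DS.Igu77.Isometry
  Fermat.Agent.DS.G.ES.RED.GaussUnit25

variable {K : Type*} [Field K] (O : ValuationSubring K) (M : ℕ) [NeZero M]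

/-- the reduction of `V(ĝ)`, `g` an integral series. -/
theorem gaussRed_qExpand_gen (N : ℕ) [NeZero N] (g : LaurentSeries ℤ)
    (h : qExpand K N (coeffMap (Int.castRingHom K) g) ∈ gaussRing O) :
    gaussRed O ⟨qExpand K N (coeffMap (Int.castRingHom K) g), h⟩ =
      qExpand (Res O) N (coeffMap (Int.castRingHom (Res O)) g) := by
  have h1 := gaussRed_qExpand O N ⟨coeffMap (Int.castRingHom K) g, gen_mem_gaussRing O g⟩
  rw [gaussRed_gen] at h1
  exact h1

/-- **(e) of the (GB2) instance for `X₁(M)`**: for units `u ≠ ±u'` the `V`-images of the diamond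
translates `G_{ua,ub}`, `G_{u'a,u'b}` of some generator have different reductions, as soon as the
residue characteristic is odd. -/
theorem exists_gaussRed_qExpand_gABC_ne (N : ℕ) [NeZero N] (h2 : (2 : Res O) ≠ 0)
    (u u' : (ZMod M)ˣ) (hne : u ≠ u') (hne' : u ≠ -u') :
    ∃ a b : ZMod M, a ≠ 0 ∧ b ≠ 0 ∧
      ∀ (h1 : qExpand K N (gABC M K (u * a) (u * b)) ∈ gaussRing O)
        (h1' : qExpand K N (gABC M K (u' * a) (u' * b)) ∈ gaussRing O),
        gaussRed O ⟨qExpand K N (gABC M K (u * a) (u * b)), h1⟩ ≠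
          gaussRed O ⟨qExpand K N (gABC M K (u' * a) (u' * b)), h1'⟩ := by
  obtain ⟨a, b, ha, hb, hne2⟩ := exists_gABC_ne M (Res O) h2 u u' hne hne'
  refine ⟨a, b, ha, hb, fun h1 h1' heq => hne2 ?_⟩
  have key : ∀ (x y : ZMod M) (h : qExpand K N (gABC M K x y) ∈ gaussRing O),
      gaussRed O ⟨qExpand K N (gABC M K x y), h⟩ = qExpand (Res O) N (gABC M (Res O) x y) := by
    intro x y h
    have e : gABC M K x y = coeffMap (Int.castRingHom K) (gAB M x y) :=
      (coeffMap_gABC M (Int.castRingHom K) x y).symm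
    have h' : qExpand K N (coeffMap (Int.castRingHom K) (gAB M x y)) ∈ gaussRing O := e ▸ h
    have h3 := gaussRed_qExpand_gen O N (gAB M x y) h'
    have e' : coeffMap (Int.castRingHom (Res O)) (gAB M x y) = gABC M (Res O) x y :=
      coeffMap_gABC M (Int.castRingHom (Res O)) x y
    rw [e'] at h3
    rw [← h3]
    congr 1
    exact Subtype.ext (congrArg (qExpand K N) e)
  rw [key _ _ h1, key _ _ h1'] at heq
  exact qExpand_injective (R := Res O) N heq

end Gauss

end Fermat.Agent.DS.X1.GabDistMod31
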