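/-
Programme DS (S48), chapter X1 / IGUSA (helper31): distinctness of the diamond translates of the
generators `G_{a,b}` in EVERY characteristic (including `2`), for `M ≥ 6`
(complement of `DS/X1/GabDistMod31.lean`, which needs `2 ≠ 0` but no bound on `M`).

* `gABC_one_ne_any` : `G_{1,b} ≠ G_{d,db}` over every field, for `d ≠ ±1` and `b`, `db ∉ {±1}`;
* `exists_gABC_ne_any` : for `6 ≤ M` and units `u ≠ ±u'` of `ℤ/M` there are `a, b ≠ 0` with
  `G_{ua,ub} ≠ G_{u'a,u'b}` over every field;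
* `exists_gaussRed_qExpand_gABC_ne_any` : the same after `V` and Gauss reduction (`hdist` shape).
(For `M = 5` and characteristic `2` the statement is false: `G_{2a,2b} = -G_{a,b}`.)
-/
import Mathlib
import Fermat.Agent.DS.X1.GabDistMod31

set_option autoImplicit false
set_option linter.unusedSectionVars false

noncomputable section

namespace Fermat.Agent.DS.X1.GabDistModAny31

open HahnSeries ModularCurve
open Fermat.Agent.DS.X1.Level1 Fermat.Agent.DS.G.ES.RED.Iface Fermat.Agent.DS.X1.GabDistMod31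

section Formal

variable (M : ℕ) [NeZero M]

theorem gABC_one_ne_any (k : Type*) [Field k]
    (h10 : (1 : ZMod M) ≠ 0) (h11 : (1 : ZMod M) ≠ -1) (d b : ZMod M) (hd1 : d ≠ 1) (hd2 : d ≠ -1)
    (hb1 : b ≠ 1) (hb2 : b ≠ -1) (hdb1 : d * b ≠ 1) (hdb2 : d * b ≠ -1) :
    gABC M k 1 b ≠ gABC M k d (d * b) := by
  intro h
  rw [gABC, gABC] at h
  have h3 := mul_left_cancel₀ (wMC_ne_zero k M) h
  have h4 := HahnSeries.ofPowerSeries_injective h3
  have h5 := congrArg (PowerSeries.coeff 1) h4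
  rw [map_sub, map_sub, coeff_one_xAC, coeff_one_xAC, coeff_one_xAC, coeff_one_xAC,
    cA_one_of_ne M h10, cA_one_of_ne M h10, cA_one_of_ne M h10, cA_one_of_ne M h10] at h5
  have e1 : (1 : ZMod M) ≠ d := fun e => hd1 e.symm
  have e2 : (1 : ZMod M) ≠ -d := fun e => hd2 (by rw [e, neg_neg])
  have e3 : (1 : ZMod M) ≠ b := fun e => hb1 e.symm
  have e4 : (1 : ZMod M) ≠ -b := fun e => hb2 (by rw [e, neg_neg])
  have e5 : (1 : ZMod M) ≠ d * b := fun e => hdb1 e.symm
  have e6 : (1 : ZMod M) ≠ -(d * b) := fun e => hdb2 (by rw [e, neg_neg])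
  rw [if_pos rfl, if_neg h11, if_neg e1, if_neg e2, if_neg e3, if_neg e4, if_neg e5, if_neg e6] at h5
  have : (1 : k) = 0 := by simp at h5
  exact one_ne_zero this

/-- for `6 ≤ M` and a unit `d` there is `b ∉ {0, ±1, ±d⁻¹}`. -/
theorem exists_good_b (hM : 6 ≤ M) (d : (ZMod M)ˣ) :
    ∃ b : ZMod M, b ≠ 0 ∧ b ≠ 1 ∧ b ≠ -1 ∧ (d : ZMod M) * b ≠ 1 ∧ (d : ZMod M) * b ≠ -1 := by
  classical
  let s : Finset (ZMod M) :=
    {0, 1, -1, ((d⁻¹ : (ZMod M)ˣ) : ZMod M), -((d⁻¹ : (ZMod M)ˣ) : ZMod M)}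
  have hs : s.card ≤ 5 := Finset.card_le_five
  have hcard : Fintype.card (ZMod M) = M := ZMod.card M
  have hex : ∃ b : ZMod M, b ∉ s := by
    by_contra hall
    push Not at hall
    have h1 : (Finset.univ : Finset (ZMod M)) ⊆ s := fun x _ => hall x
    have h2 := Finset.card_le_card h1
    rw [Finset.card_univ, hcard] at h2
    omega
  obtain ⟨b, hb⟩ := hex
  simp only [s, Finset.mem_insert, Finset.mem_singleton, not_or] at hb
  obtain ⟨hb0, hb1, hb2, hb3, hb4⟩ := hb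
  refine ⟨b, hb0, hb1, hb2, ?_, ?_⟩
  · intro h
    apply hb3
    have : b = ((d⁻¹ : (ZMod M)ˣ) : ZMod M) * ((d : ZMod M) * b) := by
      rw [← mul_assoc, ← Units.val_mul, inv_mul_cancel, Units.val_one, one_mul]
    rw [this, h, mul_one]
  · intro h
    apply hb4
    have : b = ((d⁻¹ : (ZMod M)ˣ) : ZMod M) * ((d : ZMod M) * b) := by
      rw [← mul_assoc, ← Units.val_mul, inv_mul_cancel, Units.val_one, one_mul]
    rw [this, h, mul_neg, mul_one]

/-- **distinctness of the diamond translates in every characteristic**, `6 ≤ M`. -/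
theorem exists_gABC_ne_any (k : Type*) [Field k] (hM : 6 ≤ M) (u u' : (ZMod M)ˣ)
    (hne : u ≠ u') (hne' : u ≠ -u') :
    ∃ a b : ZMod M, a ≠ 0 ∧ b ≠ 0 ∧ gABC M k (u * a) (u * b) ≠ gABC M k (u' * a) (u' * b) := by
  obtain ⟨h10, h11⟩ := one_ne_of_units M hne
  have : Nontrivial (ZMod M) := ⟨⟨1, 0, h10⟩⟩
  let d : (ZMod M)ˣ := u' * u⁻¹
  have hd1 : (d : ZMod M) ≠ 1 := by
    intro h
    have : d = 1 := Units.ext h
    apply hne
    have h' : u' * u⁻¹ = 1 := this
    rw [mul_inv_eq_one] at h'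
    exact h'.symm
  have hd2 : (d : ZMod M) ≠ -1 := by
    intro h
    have : d = -1 := Units.ext (by rw [h]; simp)
    apply hne'
    have h' : u' * u⁻¹ = -1 := this
    rw [mul_inv_eq_iff_eq_mul, neg_one_mul] at h'
    rw [h', neg_neg]
  obtain ⟨b, hb0, hb1, hb2, hdb1, hdb2⟩ := exists_good_b M hM d
  refine ⟨((u⁻¹ : (ZMod M)ˣ) : ZMod M), ((u⁻¹ : (ZMod M)ˣ) : ZMod M) * b,
    Units.ne_zero _, ?_, ?_⟩
  · intro h
    apply hb0
    have : b = (u : ZMod M) * (((u⁻¹ : (ZMod M)ˣ) : ZMod M) * b) := by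
      rw [← mul_assoc, ← Units.val_mul, mul_inv_cancel, Units.val_one, one_mul]
    rw [this, h, mul_zero]
  have e1 : (u : ZMod M) * ((u⁻¹ : (ZMod M)ˣ) : ZMod M) = 1 := by
    rw [← Units.val_mul, mul_inv_cancel, Units.val_one]
  have e2 : (u : ZMod M) * (((u⁻¹ : (ZMod M)ˣ) : ZMod M) * b) = b := by
    rw [← mul_assoc, e1, one_mul]
  have e3 : (u' : ZMod M) * ((u⁻¹ : (ZMod M)ˣ) : ZMod M) = (d : ZMod M) := by
    rw [← Units.val_mul]
  have e4 : (u' : ZMod M) * (((u⁻¹ : (ZMod M)ˣ) : ZMod M) * b) = (d : ZMod M) * b := by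
    rw [← mul_assoc, e3]
  rw [e1, e2, e3, e4]
  exact gABC_one_ne_any M k h10 h11 (d : ZMod M) b hd1 hd2 hb1 hb2 hdb1 hdb2

end Formal

section Gauss

open Fermat.Agent.RED.PUR.GaussGen8 Fermat.Agent.DS.Igu77.Isometry
  Fermat.Agent.DS.G.ES.RED.GaussUnit25

variable {K : Type*} [Field K] (O : ValuationSubring K) (M : ℕ) [NeZero M]

/-- the `hdist` shape, every residue characteristic, `6 ≤ M`. -/
theorem exists_gaussRed_qExpand_gABC_ne_any (N : ℕ) [NeZero N] (hM : 6 ≤ M)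
    (u u' : (ZMod M)ˣ) (hne : u ≠ u') (hne' : u ≠ -u') :
    ∃ a b : ZMod M, a ≠ 0 ∧ b ≠ 0 ∧
      ∀ (h1 : qExpand K N (gABC M K (u * a) (u * b)) ∈ gaussRing O)
        (h1' : qExpand K N (gABC M K (u' * a) (u' * b)) ∈ gaussRing O),
        gaussRed O ⟨qExpand K N (gABC M K (u * a) (u * b)), h1⟩ ≠
          gaussRed O ⟨qExpand K N (gABC M K (u' * a) (u' * b)), h1'⟩ := by
  obtain ⟨a, b, ha, hb, hne2⟩ := exists_gABC_ne_any M (Res O) hM u u' hne hne'
  refine ⟨a, b, ha, hb, fun h1 h1' heq => hne2 ?_⟩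
  have key : ∀ (x y : ZMod M) (h : qExpand K N (gABC M K x y) ∈ gaussRing O),
      gaussRed O ⟨qExpand K N (gABC M K x y), h⟩ = qExpand (Res O) N (gABC M (Res O) x y) := by
    intro x y h
    have e : gABC M K x y = coeffMap (Int.castRingHom K) (gAB M x y) :=
      (coeffMap_gABC M (Int.castRingHom K) x y).symm
    have h' : qExpand K N (coeffMap (Int.castRingHom K) (gAB M x y)) ∈ gaussRing O := e ▸ h
    have h3 := gaussRed_qExpand_gen O N (gAB M x y) h'
    have e' : coeffMap (Int.castRingHom (Res O)) (gAB M x y) = gABC M (Res O) x y :=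
      coeffMap_gABC M (Int.castRingHom (Res O)) x y
    rw [e'] at h3
    rw [← h3]
    congr 1
    exact Subtype.ext (congrArg (qExpand K N) e)
  rw [key _ _ h1, key _ _ h1'] at heq
  exact qExpand_injective (R := Res O) N heq

end Gauss

end Fermat.Agent.DS.X1.GabDistModAny31
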