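/-
Programme DS (S48), chapter X1 (helper16): THE ARITHMETIC MODEL OF `X₁(M)/±` OVER `ℚbar`,
UNCONDITIONALLY.

Plugging helper13's `analyticGens1` (the analytic package of the level `L1 M`, `Gam = ±Γ₁(M)`,
`w = M`) into the generic assembly `DS/G/X0/OfAnalyticGens.lean`:

* `A1 M : AnalyticGens (L1 M) Kbar iotaK`,
* `D1 M : RealizeDataK (L1 M)`, `C1 M : CuspDataK (L1 M) (D1 M)`, `distinct1 : (C1 M).Distinct`,
* the function-field package: `isGen_jF1 : FF.IsGen Kbar (jFL (L1 M))`,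
  `finrank_eq_index1 : [F : ℚbar(j)] = [SL(2,ℤ) : ±Γ₁(M)]`, separability, ...
-/
import Mathlib
import Fermat.Agent.DS.X1.AnalyticGens13
import Fermat.Agent.DS.G.X0.OfAnalyticGens
import Fermat.Agent.X0.CuspGen

set_option autoImplicit false
set_option linter.unusedSectionVars false

open ModularCurve UpperHalfPlane
open scoped MatrixGroups IntermediateField

noncomputable section

namespace Fermat.Agent.DS.X1.Model1

open Fermat.Agent.X0 Fermat.Agent.DS.G.Level Fermat.Agent.DS.X1.Level1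
  Fermat.Agent.DS.X1.AnalyticGens13 Fermat.Agent.DS.G.X0

variable (M : ℕ) [NeZero M]

/-- an `M`-th root of unity in `ℚbar` mapping to `exp(2πi/M)`. -/
def zetaK1 : Kbar :=
  (CuspGen.exists_iotaK_eq_zetaC (Nat.pos_of_ne_zero (NeZero.ne M))).choose

theorem iotaK_zetaK1 : iotaK (zetaK1 M) = QExpAffine.zetaC M :=
  (CuspGen.exists_iotaK_eq_zetaC (Nat.pos_of_ne_zero (NeZero.ne M))).choose_spec

/-- The analytic package of `±Γ₁(M)` over `ℚbar`. -/
def A1 : AnalyticGens (L1 M) Kbar iotaK :=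
  analyticGens1 M Kbar iotaK (zetaK1 M) (iotaK_zetaK1 M)

/-- The analytic realisation of `ℚbar[generators]` for `±Γ₁(M)`. -/
def D1 : RealizeDataK (L1 M) := OfAnalyticGens.realizeK (L1 M) (A1 M)

/-- The cusp expansions for `±Γ₁(M)`. -/
def C1 : CuspDataK (L1 M) (D1 M) := OfAnalyticGens.cuspK (L1 M) (A1 M)

/-- **DISTINCT** for `±Γ₁(M)`. -/
theorem distinct1 : (C1 M).Distinct := OfAnalyticGens.distinctK (L1 M) (A1 M)

theorem D1_genR (g : (L1 M).gensQ) : (D1 M).Θ (genR (L1 M) Kbar g) = (A1 M).gFun g :=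
  OfAnalyticGens.realizeK_genR (L1 M) (A1 M) g

/-- `j` is a transcendental generator of the function field of `X₁(M)/±` over `ℚbar`. -/
theorem isGen_jF1 : FF.IsGen Kbar (jFL (L1 M)) := OfAnalyticGens.isGen_jF (L1 M) (A1 M)

theorem finiteDimensional1 : FiniteDimensional (KjL (L1 M)) (FFL (L1 M)) :=
  OfAnalyticGens.finiteDimensional (L1 M) (A1 M)

/-- `[F : ℚbar(j)] = [SL(2,ℤ) : ±Γ₁(M)]`. -/
theorem finrank_eq_index1 :
    Module.finrank (KjL (L1 M)) (FFL (L1 M)) = (L1 M).Gam.index :=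
  OfAnalyticGens.finrank_eq_index (L1 M) (A1 M)

theorem finrank_adjoin_eq_index1 :
    Module.finrank Kbar⟮jFL (L1 M)⟯ (FFL (L1 M)) = (L1 M).Gam.index :=
  OfAnalyticGens.finrank_adjoin_eq_index (L1 M) (A1 M)

theorem isSeparable_adjoin1 : Algebra.IsSeparable Kbar⟮jFL (L1 M)⟯ (FFL (L1 M)) :=
  OfAnalyticGens.isSeparable_adjoin (L1 M) (A1 M)

theorem Θ_ne_zero_of_transcendental1 (s : RsubL (L1 M)) (hs : s ≠ 0) (z₀ : ℍ)
    (hz : jFun z₀ ∉ Set.range iotaK) : (D1 M).Θ s z₀ ≠ 0 :=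
  OfAnalyticGens.Θ_ne_zero_of_transcendental (L1 M) (A1 M) s hs z₀ hz

end Fermat.Agent.DS.X1.Model1
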