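/-
Programme DS (S48), chapter X1 / IGUSA (helper31): THE DEGREE COUNT for the (GB2) instance at
`X₁(M)/±` (input `hN` of helper55's `GB2X1Canon.gb2Step_X1gens_canon`, input `hcard` of
`ResGenTower31.resField_FC_eq_of_diamonds` / helper27's `DiaGB2_27`).

* `relIndex_Gamma1pm_le` : `[Γ₀(M) : ±Γ₁(M)] ≤ #((ℤ/M)ˣ / ±1)`  (lower right entry);
* `index_Gamma1pm_le` : `[SL₂(ℤ) : ±Γ₁(M)] ≤ #((ℤ/M)ˣ / ±1) · ψ(M)`;
* `relfinrank_Kbar_eq_index` : `[ℚbar·F₁(M) : ℚbar(j)] = [SL₂(ℤ) : ±Γ₁(M)]` as a `relfinrank` inside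
  `ℚbar((q))` (from `Model1.finrank_adjoin_eq_index1`);
* `relfinrank_le_of_ringHom` : base change of constants can only increase `[D.FC k : k(j)]` (generic
  `GenData`, `LinDisjoint.linearIndependent_coeffMap`);
* **`relfinrank_j_le`** (K(j)-form, every field `K` with a ring hom to `ℚbar`; `relfinrank_j_le'` for
  `K : IntermediateField ℚ ℚbar`):
    `relfinrank K⟮jqModC K⟯ ((X1gens M).FC K) ≤ Nat.card ((ZMod M)ˣ ⧸ zpowers (-1)) * dedekindPsi M`;
* **`relfinrank_full_le`** (relative form over `K(j(q^d) : d ∣ M)`, `K` of characteristic `0`):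
    `relfinrank (modularFunctionFieldFullC K M) ((X1gens M).FC K) ≤ Nat.card ((ZMod M)ˣ ⧸ zpowers (-1))`.
-/
import Mathlib
import Fermat.Agent.DS.X1.Model1
import Fermat.Agent.DS.G.ES.RED.LinDisjoint
import Fermat.Agent.X0.G1Index
import Fermat.Agent.ES.RED.SpecialGen25
import Fermat.Agent.RED.PUR.DegBaseChange25

set_option autoImplicit false
set_option linter.unusedSectionVars false

noncomputable section

namespace Fermat.Agent.DS.X1.DegX1_31

open HahnSeries ModularCurve IntermediateField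
open scoped MatrixGroups
open Fermat.Agent.X0 Fermat.Agent.DS.G.Level Fermat.Agent.DS.X1.Level1
  Fermat.Agent.DS.G.ES.RED.Iface Fermat.Agent.IG.PR

/-! ### the index of `±Γ₁(M)` -/

section Index

variable (M : ℕ) [NeZero M]

/-- the lower right entry, as a homomorphism `Γ₀(M) → (ℤ/M)ˣ / ±1`. -/
def lowerRight : ↥(CongruenceSubgroup.Gamma0 M) →*
    (ZMod M)ˣ ⧸ Subgroup.zpowers (-1 : (ZMod M)ˣ) :=
  (QuotientGroup.mk' _).comp (CongruenceSubgroup.Gamma0Map M).toHomUnits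

theorem ker_lowerRight_le :
    (lowerRight M).ker ≤ (Gamma1pm M).subgroupOf (CongruenceSubgroup.Gamma0 M) := by
  intro γ hγ
  rw [MonoidHom.mem_ker] at hγ
  have h1 : (CongruenceSubgroup.Gamma0Map M).toHomUnits γ ∈
      Subgroup.zpowers (-1 : (ZMod M)ˣ) := (QuotientGroup.eq_one_iff _).mp hγ
  obtain ⟨k, hk⟩ := Subgroup.mem_zpowers_iff.mp h1
  have hd : (((γ : SL(2, ℤ)) 1 1 : ℤ) : ZMod M) = 1 ∨ (((γ : SL(2, ℤ)) 1 1 : ℤ) : ZMod M) = -1 := by
    have hv : (((CongruenceSubgroup.Gamma0Map M).toHomUnits γ : (ZMod M)ˣ) : ZMod M) =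
        (((γ : SL(2, ℤ)) 1 1 : ℤ) : ZMod M) := rfl
    rcases Int.even_or_odd k with he | ho
    · left
      rw [← hv, ← hk, he.neg_one_zpow, Units.val_one]
    · right
      rw [← hv, ← hk, ho.neg_one_zpow, Units.val_neg, Units.val_one]
  have hc : (((γ : SL(2, ℤ)) 1 0 : ℤ) : ZMod M) = 0 := CongruenceSubgroup.Gamma0_mem.mp γ.2
  have hdet : (((γ : SL(2, ℤ)) 0 0 : ℤ) : ZMod M) * (((γ : SL(2, ℤ)) 1 1 : ℤ) : ZMod M) = 1 := by
    have h := Matrix.SpecialLinearGroup.det_coe (γ : SL(2, ℤ))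
    rw [Matrix.det_fin_two] at h
    have h' := congrArg (Int.cast : ℤ → ZMod M) h
    push_cast at h'
    rw [hc, mul_zero, sub_zero] at h'
    exact h'
  rw [Subgroup.mem_subgroupOf, mem_Gamma1pm_iff]
  refine ⟨hc, ?_⟩
  rcases hd with hd | hd
  · left
    rw [hd, mul_one] at hdet
    exact ⟨hdet, hd⟩
  · right
    rw [hd, mul_neg, mul_one] at hdet
    exact ⟨neg_eq_iff_eq_neg.mp hdet, hd⟩

/-- `[Γ₀(M) : ±Γ₁(M)] ≤ #((ℤ/M)ˣ / ±1)`. -/
theorem relIndex_Gamma1pm_le :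
    (Gamma1pm M).relIndex (CongruenceSubgroup.Gamma0 M) ≤
      Nat.card ((ZMod M)ˣ ⧸ Subgroup.zpowers (-1 : (ZMod M)ˣ)) := by
  have h1 : ((Gamma1pm M).subgroupOf (CongruenceSubgroup.Gamma0 M)).index ∣
      (lowerRight M).ker.index := Subgroup.index_dvd_of_le (ker_lowerRight_le M)
  have h2 : (lowerRight M).ker.index = Nat.card (lowerRight M).range :=
    Subgroup.index_ker (lowerRight M)
  have h3 : Nat.card (lowerRight M).range ≤
      Nat.card ((ZMod M)ˣ ⧸ Subgroup.zpowers (-1 : (ZMod M)ˣ)) :=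
    Nat.card_le_card_of_injective _ Subtype.val_injective
  have h4 : 0 < Nat.card (lowerRight M).range := Nat.card_pos
  rw [h2] at h1
  exact (Nat.le_of_dvd h4 h1).trans h3

/-- `[SL₂(ℤ) : ±Γ₁(M)] ≤ #((ℤ/M)ˣ / ±1) · ψ(M)`. -/
theorem index_Gamma1pm_le :
    (Gamma1pm M).index ≤
      Nat.card ((ZMod M)ˣ ⧸ Subgroup.zpowers (-1 : (ZMod M)ˣ)) * dedekindPsi M := by
  rw [← Subgroup.relIndex_mul_index (Gamma1pm_le_Gamma0 M), G1Index.g1_index]
  exact Nat.mul_le_mul_right _ (relIndex_Gamma1pm_le M)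

end Index

/-! ### base change of constants -/

section BaseChange

variable (D : GenData) {k κ : Type*} [Field k] [Field κ]

/-- base change of constants can only increase `[D.FC · : ·(j)]` (when the target degree is
finite). -/
theorem relfinrank_le_of_ringHom (φ : k →+* κ) (hfin : relfinrank κ⟮jqModC κ⟯ (D.FC κ) ≠ 0) :
    relfinrank k⟮jqModC k⟯ (D.FC k) ≤ relfinrank κ⟮jqModC κ⟯ (D.FC κ) := by
  have hle : k⟮jqModC k⟯ ≤ D.FC k := adjoin_simple_le_iff.mpr D.jqModC_mem_FC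
  have hle' : κ⟮jqModC κ⟯ ≤ D.FC κ := adjoin_simple_le_iff.mpr D.jqModC_mem_FC
  refine FamilyForm20.relfinrank_le_of_family_bound hle _ ?_
  intro n c hc hli
  have hli' := Fermat.Agent.DS.G.ES.RED.LinDisjoint.linearIndependent_coeffMap φ {jqModC k} c hli
  rw [Set.image_singleton, coeffMap_jqModC] at hli'
  exact FamilyForm20.le_relfinrank_of_family hle' n hfin _
    (fun i => D.coeffMap_mem_FC φ (hc i)) hli'

end BaseChange

/-! ### the degree over `ℚbar` -/

section Degree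

variable (M : ℕ) [NeZero M]

theorem coe_jFL : ((jFL (L1 M) : FFL (L1 M)) : LaurentSeries Kbar) = jqModC Kbar := by
  show coeffEmb Kbar jq = jqModC Kbar
  rw [← jqModC_rat]
  exact map_jqModC (algebraMap ℚ Kbar)

/-- `[ℚbar·F₁(M) : ℚbar(j)] = [SL₂(ℤ) : ±Γ₁(M)]`, as a `relfinrank` inside `ℚbar((q))`. -/
theorem relfinrank_Kbar_eq_index :
    relfinrank Kbar⟮jqModC Kbar⟯ ((X1gens M).FC Kbar) = (Gamma1pm M).index := by
  have h1 := Fermat.Agent.DS.X1.Model1.finrank_adjoin_eq_index1 M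
  have h2 := Fermat.Agent.ES.RED.SpecialGen25.finrank_adjoin_simple_eq_relfinrank
    (laurentBaseChange Kbar (L1 M).F₀) (jFL (L1 M))
  rw [coe_jFL] at h2
  have h3 : relfinrank Kbar⟮jqModC Kbar⟯ (laurentBaseChange Kbar (L1 M).F₀) =
      (L1 M).Gam.index := h2.symm.trans h1
  rw [laurentBaseChange_L1] at h3
  exact h3

theorem index_Gamma1pm_ne_zero : (Gamma1pm M).index ≠ 0 := by
  have : (L1 M).Gam.FiniteIndex := inferInstance
  exact Subgroup.FiniteIndex.index_ne_zero (H := (L1 M).Gam)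

/-- **(hN), `K(j)`-form**: for every field `K` with a ring hom to `ℚbar`. -/
theorem relfinrank_j_le {K : Type*} [Field K] (φ : K →+* Kbar) :
    relfinrank K⟮jqModC K⟯ ((X1gens M).FC K) ≤
      Nat.card ((ZMod M)ˣ ⧸ Subgroup.zpowers (-1 : (ZMod M)ˣ)) * dedekindPsi M := by
  have h0 : relfinrank Kbar⟮jqModC Kbar⟯ ((X1gens M).FC Kbar) ≠ 0 := by
    rw [relfinrank_Kbar_eq_index]
    exact index_Gamma1pm_ne_zero M
  have h1 := relfinrank_le_of_ringHom (X1gens M) φ h0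
  rw [relfinrank_Kbar_eq_index] at h1
  exact h1.trans (index_Gamma1pm_le M)

/-- **(hN)** in the shape consumed by `GB2X1Canon.gb2Step_X1gens_canon`. -/
theorem relfinrank_j_le' (K : IntermediateField ℚ Kbar) :
    relfinrank (↥K)⟮jqModC ↥K⟯ ((X1gens M).FC ↥K) ≤
      Nat.card ((ZMod M)ˣ ⧸ Subgroup.zpowers (-1 : (ZMod M)ˣ)) * dedekindPsi M :=
  relfinrank_j_le M (algebraMap ↥K Kbar)

/-- `[K·F₁(M) : K(j)] ≠ 0` (finiteness), for every field `K` with a ring hom to `ℚbar`... -/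
theorem relfinrank_j_ne_zero {K : Type*} [Field K] (φ : K →+* Kbar) :
    relfinrank K⟮jqModC K⟯ ((X1gens M).FC K) ≠ 0 := by
  have hle : K⟮jqModC K⟯ ≤ (X1gens M).FC K :=
    adjoin_simple_le_iff.mpr (X1gens M).jqModC_mem_FC
  have hle' : Kbar⟮jqModC Kbar⟯ ≤ (X1gens M).FC Kbar :=
    adjoin_simple_le_iff.mpr (X1gens M).jqModC_mem_FC
  have h0 : relfinrank Kbar⟮jqModC Kbar⟯ ((X1gens M).FC Kbar) ≠ 0 := by
    rw [relfinrank_Kbar_eq_index]
    exact index_Gamma1pm_ne_zero M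
  refine Fermat.Agent.DS.G.ES.RED.LinDisjoint.relfinrank_ne_zero_of_family_bound hle
    (relfinrank Kbar⟮jqModC Kbar⟯ ((X1gens M).FC Kbar)) ?_
  intro n c hc hli
  have hli' := Fermat.Agent.DS.G.ES.RED.LinDisjoint.linearIndependent_coeffMap φ {jqModC K} c hli
  rw [Set.image_singleton, coeffMap_jqModC] at hli'
  exact FamilyForm20.le_relfinrank_of_family hle' n h0 _
    (fun i => (X1gens M).coeffMap_mem_FC φ (hc i)) hli'

/-- **(hcard), relative form over `K(j(q^d) : d ∣ M)`**, `K` of characteristic `0` with a ring hom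
to `ℚbar`. -/
theorem relfinrank_full_le {K : Type} [Field K] [CharZero K] (φ : K →+* Kbar) :
    relfinrank (modularFunctionFieldFullC K M) ((X1gens M).FC K) ≤
      Nat.card ((ZMod M)ˣ ⧸ Subgroup.zpowers (-1 : (ZMod M)ˣ)) := by
  have hjle : K⟮jqModC K⟯ ≤ modularFunctionFieldFullC K M :=
    adjoin_simple_le_iff.mpr (jqModC_mem_full K M)
  have h01 : modularFunctionFieldFullC K M ≤ (X1gens M).FC K := modularFunctionFieldFullC_le M K
  have hψ : relfinrank K⟮jqModC K⟯ (modularFunctionFieldFullC K M) = dedekindPsi M :=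
    Fermat.Agent.RED.PUR.DegBaseChange25.relfinrank_fullC_eq_psi_of_charZero K M
  have hmul := relfinrank_mul_relfinrank hjle h01
  have hN := relfinrank_j_le M φ
  rw [← hmul, hψ, mul_comm] at hN
  have hψ0 : 0 < dedekindPsi M := by
    rw [← G1Index.g1_index]
    exact Nat.pos_of_ne_zero (Subgroup.FiniteIndex.index_ne_zero (H := CongruenceSubgroup.Gamma0 M))
  exact Nat.le_of_mul_le_mul_right hN hψ0

end Degree

end Fermat.Agent.DS.X1.DegX1_31
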