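/-
Programme DS (S48), chapter X1 / IGUSA instance layer, helper13: **the diamond automorphisms of
`K·F₁(M)` over every subfield `K ⊆ ℚbar`** = the input `hdia` of helper55's
`GB2X1.gb2Step_X1gens` (route R, relative diamond route for (GB2) at `X₁(M)/±`).

Over `ℚbar` the diamond automorphism of `σ ∈ Γ₀(M)` is `Diamond.dia (A1 M) σ` (chapter G-HECKE,
helper34/helper19); it is `ℚbar`-linear and permutes the generators
(`j(q^d) ↦ j(q^d)`, `G_{a,b} ↦ G_{a u, b u}`, `u = σ₀₀ mod M`: `Diamond13`), which are RATIONAL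
series.  Hence the subfield `K(generators) = (X1gens M).FC K` (embedded coefficientwise into
`ℚbar((q))`) is stable, and `DiamondAbs.pullEnd` transports the automorphism to `(X1gens M).FC K`.

* `bc M φ : (X1gens M).FC K →+* FFL (L1 M)` for a ring hom `φ : K →+* ℚbar` (coefficientwise);
* `stable_bc` : the image of `bc` is stable under `dia (A1 M) σ`, `σ ∈ Γ₀(M)`;
* `diaK M φ σ hσ : (X1gens M).FC K →+* (X1gens M).FC K`, `bc_diaK`, `diaK_jDC`, `diaK_gABC`
  (diamond law), `diaK_fix` (identity on `(X0gens M).FC K`);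
* `exists_sigma` : every unit `u` of `ℤ/M` is `σ₀₀ mod M` for some `σ ∈ Γ₀(M)`;
* **`hasDiamonds`** : `GB2X1.HasDiamonds M u K` for every `u : T → (ℤ/M)ˣ` and every field `K`
  with a ring hom to `ℚbar`; `hasDiamonds_intermediate` (the literal form of `hdia`).
-/
import Mathlib
import Fermat.Agent.DS.G.ES.RED.GB2X1
import Fermat.Agent.DS.G.HECKE.Top
import Fermat.Agent.DS.Per1.SigmaOfD

set_option autoImplicit false
set_option linter.unusedSectionVars false

open HahnSeries ModularCurve IntermediateField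
open scoped MatrixGroups

noncomputable section

namespace Fermat.Agent.DS.X1.DiamondsK13

open Fermat.Agent.X0
open Fermat.Agent.DS.G.Level Fermat.Agent.DS.X1.Level1 Fermat.Agent.DS.X1.Inst13
open Fermat.Agent.DS.X1.Diamond13 Fermat.Agent.DS.X1.AnalyticGens13
open Fermat.Agent.DS.G.ES.RED.Iface
open Fermat.Agent.DS.G.HECKE.Iface Fermat.Agent.DS.G.HECKE.Diamond
open Fermat.Agent.DS.G.HECKE.DiamondAbs Fermat.Agent.DS.G.HECKE.ModelGens
open Fermat.Agent.DS.G.HECKE.Top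

/-! ### generators of `k(T)` inside `k(T)` -/

theorem adjoin_val_preimage_eq_top {k E : Type*} [Field k] [Field E] [Algebra k E] (T : Set E) :
    IntermediateField.adjoin k
      ((Subtype.val : ↥(IntermediateField.adjoin k T) → E) ⁻¹' T) = ⊤ := by
  rw [eq_top_iff]
  intro y _
  have hle : IntermediateField.adjoin k T ≤
      (IntermediateField.adjoin k
        ((Subtype.val : ↥(IntermediateField.adjoin k T) → E) ⁻¹' T)).map
        (IntermediateField.adjoin k T).val := by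
    rw [IntermediateField.adjoin_le_iff]
    intro x hx
    exact ⟨⟨x, IntermediateField.subset_adjoin k T hx⟩,
      IntermediateField.subset_adjoin k _ hx, rfl⟩
  obtain ⟨a, ha, hay⟩ := hle y.2
  have : a = y := Subtype.ext hay
  rw [← this]
  exact ha

/-! ### base change to `ℚbar` -/

section BC

variable (M : ℕ) [NeZero M] {K : Type*} [Field K] (φ : K →+* Kbar)

/-- Coefficientwise base change `K·F₁(M) → ℚbar·F₁(M)` along `φ : K →+* ℚbar`. -/
def bc : ↥((X1gens M).FC K) →+* FFL (L1 M) :=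
  RingHom.codRestrict ((coeffMap φ).comp ((X1gens M).FC K).val.toRingHom)
    (laurentBaseChange Kbar (L1 M).F₀)
    (fun f => by
      rw [laurentBaseChange_L1]
      exact (X1gens M).coeffMap_mem_FC φ f.2)

@[simp] theorem coe_bc (f : ↥((X1gens M).FC K)) :
    ((bc M φ f : FFL (L1 M)) : LaurentSeries Kbar) = coeffMap φ (f : LaurentSeries K) := rfl

theorem bc_algebraMap (c : K) :
    bc M φ (algebraMap K ↥((X1gens M).FC K) c) = algebraMap Kbar (FFL (L1 M)) (φ c) := by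
  apply Subtype.ext
  rw [coe_bc]
  exact coeffMap_algebraMap' φ c

theorem bc_jDC {d : ℕ} [NeZero d] (h : d ∣ M) :
    bc M φ ⟨jDC K d, jDC_mem_FC M K h⟩ = genc (L1 M) Kbar (jGenD M h) := by
  apply Subtype.ext
  rw [coe_bc, coe_genc, coe_jGenD, coeffEmb_jDC]
  exact coeffMap_jDC φ d

theorem bc_gABC {a b : ZMod M} (ha : a ≠ 0) (hb : b ≠ 0) :
    bc M φ ⟨gABC M K a b, gABC_mem_FC M K ha hb⟩ = genc (L1 M) Kbar (gGenAB M ha hb) := by
  apply Subtype.ext
  rw [coe_bc, coe_genc, coe_gGenAB, coeffEmb_gABC]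
  exact coeffMap_gABC M φ a b

end BC

/-! ### the diamond automorphism over `ℚbar` on the generators -/

section DiaBar

variable (M : ℕ) [NeZero M] {σ : SL(2, ℤ)} (hσ : σ ∈ CongruenceSubgroup.Gamma0 M)

theorem gFunC_eq : (analyticGensC M).gFun = gFun M :=
  gFun_eq_of_analyticGens M (analyticGensC M)

theorem dia_jGenD {d : ℕ} [NeZero d] (h : d ∣ M) :
    dia (A1 M) σ (acts1 M hσ) (genc (L1 M) Kbar (jGenD M h)) = genc (L1 M) Kbar (jGenD M h) :=
  dia_genc (analyticGensC M) (acts1 M hσ)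
    (by rw [gFunC_eq]; exact compSL_gFun_jGenD M hσ h)

theorem dia_gGenAB {a b : ZMod M} (ha : a ≠ 0) (hb : b ≠ 0) :
    dia (A1 M) σ (acts1 M hσ) (genc (L1 M) Kbar (gGenAB M ha hb)) =
      genc (L1 M) Kbar
        (gGenAB M (mul_uOf_ne_zero M hσ ha) (mul_uOf_ne_zero M hσ hb)) :=
  dia_genc (analyticGensC M) (acts1 M hσ)
    (by rw [gFunC_eq]; exact compSL_gFun_gGenAB M hσ ha hb)

end DiaBar

/-! ### descent to `K` -/

section Descent

variable (M : ℕ) [NeZero M] {K : Type*} [Field K] (φ : K →+* Kbar)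
  {σ : SL(2, ℤ)} (hσ : σ ∈ CongruenceSubgroup.Gamma0 M)

/-- The diamond automorphism over `ℚbar`, as a ring endomorphism. -/
def diaBar : FFL (L1 M) →+* FFL (L1 M) :=
  ((dia (A1 M) σ (acts1 M hσ) : FFK (L1 M).F₀ ≃ₐ[Kbar] FFK (L1 M).F₀) :
    FFK (L1 M).F₀ →+* FFK (L1 M).F₀)

theorem diaBar_apply (f : FFL (L1 M)) : diaBar M hσ f = dia (A1 M) σ (acts1 M hσ) f := rfl

/-- **The image of `K·F₁(M)` in `ℚbar·F₁(M)` is stable under the diamond automorphisms.** -/
theorem stable_bc : Stable (bc M φ) (diaBar M hσ) := by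
  refine stable_of_generators (K := K) (bc M φ) (diaBar M hσ)
    ((Subtype.val : ↥((X1gens M).FC K) → LaurentSeries K) ⁻¹' ((X1gens M).gensC K))
    (adjoin_val_preimage_eq_top _) ?_ ?_
  · intro c
    refine ⟨algebraMap K ↥((X1gens M).FC K) c, ?_⟩
    rw [bc_algebraMap, diaBar_apply, AlgEquiv.commutes]
  · rintro ⟨g, hg⟩ hgS
    have hgS' : g ∈ (X1gens M).gensC K := hgS
    rw [X1gens_gensC] at hgS'
    rcases hgS' with ⟨d, hne, hd, rfl⟩ | ⟨a, b, ha, hb, rfl⟩
    · refine ⟨⟨jDC K d, jDC_mem_FC M K hd⟩, ?_⟩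
      rw [bc_jDC M φ hd, diaBar_apply, dia_jGenD M hσ hd]
    · refine ⟨⟨gABC M K (a * uOf M σ) (b * uOf M σ),
        gABC_mem_FC M K (mul_uOf_ne_zero M hσ ha) (mul_uOf_ne_zero M hσ hb)⟩, ?_⟩
      rw [bc_gABC M φ ha hb, diaBar_apply, dia_gGenAB M hσ ha hb, bc_gABC M φ]

/-- **The diamond endomorphism of `K·F₁(M)`** attached to `σ ∈ Γ₀(M)`. -/
def diaK : ↥((X1gens M).FC K) →+* ↥((X1gens M).FC K) :=
  pullEnd (bc M φ) (diaBar M hσ) (stable_bc M φ hσ)

theorem bc_diaK (f : ↥((X1gens M).FC K)) :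
    bc M φ (diaK M φ hσ f) = dia (A1 M) σ (acts1 M hσ) (bc M φ f) :=
  an_pullEnd (bc M φ) (diaBar M hσ) (stable_bc M φ hσ) f

theorem diaK_eq_of_bc_eq {f f' : ↥((X1gens M).FC K)}
    (h : bc M φ f' = dia (A1 M) σ (acts1 M hσ) (bc M φ f)) : diaK M φ hσ f = f' :=
  pullEnd_eq_of_an_eq (bc M φ) (diaBar M hσ) (stable_bc M φ hσ) h

theorem diaK_jDC {d : ℕ} [NeZero d] (h : d ∣ M) :
    diaK M φ hσ ⟨jDC K d, jDC_mem_FC M K h⟩ = ⟨jDC K d, jDC_mem_FC M K h⟩ :=
  diaK_eq_of_bc_eq M φ hσ (by rw [bc_jDC M φ h, dia_jGenD M hσ h])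

/-- **The diamond law over `K`.** -/
theorem diaK_gABC {a b : ZMod M} (ha : a ≠ 0) (hb : b ≠ 0) :
    diaK M φ hσ ⟨gABC M K a b, gABC_mem_FC M K ha hb⟩ =
      ⟨gABC M K (a * uOf M σ) (b * uOf M σ),
        gABC_mem_FC M K (mul_uOf_ne_zero M hσ ha) (mul_uOf_ne_zero M hσ hb)⟩ :=
  diaK_eq_of_bc_eq M φ hσ (by rw [bc_gABC M φ ha hb, dia_gGenAB M hσ ha hb, bc_gABC M φ])

/-- **The diamond endomorphisms are the identity on `K·F₀(M)`.** -/
theorem diaK_fix (x : ↥((X1gens M).FC K))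
    (hx : (x : LaurentSeries K) ∈ (X0gens M).FC K) : diaK M φ hσ x = x := by
  obtain ⟨x, hx1⟩ := x
  have hx0 : x ∈ (X0gens M).FC K := hx
  have key : ∀ y (hy0 : y ∈ (X0gens M).FC K),
      diaK M φ hσ ⟨y, FC_X0_le M K hy0⟩ = ⟨y, FC_X0_le M K hy0⟩ := by
    intro y hy0
    unfold GenData.FC at hy0
    induction hy0 using IntermediateField.adjoin_induction with
    | mem y hy =>
      rw [X0gens_gensC] at hy
      obtain ⟨d, hne, hd, rfl⟩ := hy
      exact diaK_jDC M φ hσ hd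
    | algebraMap c =>
      exact diaK_eq_of_bc_eq M φ hσ (by
        have h1 : (⟨algebraMap K (LaurentSeries K) c,
            FC_X0_le M K (IntermediateField.algebraMap_mem _ c)⟩ : ↥((X1gens M).FC K)) =
            algebraMap K ↥((X1gens M).FC K) c := rfl
        rw [h1, bc_algebraMap, AlgEquiv.commutes])
    | add y z hy hz ihy ihz =>
      have h1 : (⟨y + z, FC_X0_le M K (add_mem hy hz)⟩ : ↥((X1gens M).FC K)) =
          ⟨y, FC_X0_le M K hy⟩ + ⟨z, FC_X0_le M K hz⟩ := rfl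
      rw [h1, map_add, ihy, ihz]
    | inv y hy ihy =>
      have h1 : (⟨y⁻¹, FC_X0_le M K (inv_mem hy)⟩ : ↥((X1gens M).FC K)) =
          (⟨y, FC_X0_le M K hy⟩ : ↥((X1gens M).FC K))⁻¹ := rfl
      rw [h1, map_inv₀, ihy]
    | mul y z hy hz ihy ihz =>
      have h1 : (⟨y * z, FC_X0_le M K (mul_mem hy hz)⟩ : ↥((X1gens M).FC K)) =
          ⟨y, FC_X0_le M K hy⟩ * ⟨z, FC_X0_le M K hz⟩ := rfl
      rw [h1, map_mul, ihy, ihz]
  exact key x hx0

end Descent

/-! ### all units are diamonds -/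

section Units

variable (M : ℕ) [NeZero M]

open Fermat.Agent.DS.Per1.SigmaOfD Fermat.Agent.DS.Per1.LatticeSide2

/-- Every unit `u` of `ℤ/M` is `σ₀₀ mod M` for some `σ ∈ Γ₀(M)`. -/
theorem exists_sigma (u : (ZMod M)ˣ) :
    ∃ σ : SL(2, ℤ), σ ∈ CongruenceSubgroup.Gamma0 M ∧ uOf M σ = (u : ZMod M) := by
  refine ⟨(choiceD M).sD u⁻¹, (choiceD M).sD_mem u⁻¹, ?_⟩
  have h1 := diag_mul_eq_one M ((choiceD M).sD_mem u⁻¹)
  rw [(choiceD M).sD_lr u⁻¹] at h1
  calc uOf M ((choiceD M).sD u⁻¹)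
      = uOf M ((choiceD M).sD u⁻¹) * (((u⁻¹ : (ZMod M)ˣ) : ZMod M) * (u : ZMod M)) := by
        rw [Units.inv_mul, mul_one]
    _ = (u : ZMod M) := by
        rw [← mul_assoc]
        show ((((choiceD M).sD u⁻¹) 0 0 : ℤ) : ZMod M) * _ * _ = _
        rw [h1, one_mul]

end Units

/-! ### the input `hdia` -/

section Main

open Fermat.Agent.DS.G.ES.RED.GB2X1

variable (M : ℕ) [NeZero M]

/-- **`HasDiamonds M u K`** for every family of units `u` and every field `K` with a ring hom to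
`ℚbar`. -/
theorem hasDiamonds {T : Type*} (u : T → (ZMod M)ˣ) {K : Type*} [Field K] (φ : K →+* Kbar) :
    HasDiamonds M u K := by
  choose σ hσ hu using fun t => exists_sigma M (u t)
  refine ⟨fun t => diaK M φ (hσ t), fun t x hx => diaK_fix M φ (hσ t) x hx,
    fun t a b ha hb => ?_⟩
  rw [diaK_gABC M φ (hσ t) ha hb]
  show gABC M K (a * uOf M (σ t)) (b * uOf M (σ t)) = _
  rw [hu t]

/-- The literal form of the hypothesis `hdia` of `GB2X1.gb2Step_X1gens` (with `K₀ = ℚ`). -/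
theorem hasDiamonds_intermediate {T : Type*} (u : T → (ZMod M)ˣ) :
    ∃ K₀ : IntermediateField ℚ Fermat.Agent.RED.Interface4.Qbar, FiniteDimensional ℚ K₀ ∧
      ∀ K : IntermediateField ℚ Fermat.Agent.RED.Interface4.Qbar, FiniteDimensional ℚ K →
        K₀ ≤ K → HasDiamonds M u ↥K :=
  ⟨⊥, inferInstance, fun K _ _ => hasDiamonds M u (algebraMap ↥K Kbar)⟩

end Main

end Fermat.Agent.DS.X1.DiamondsK13
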