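/-
Programme DS (S48), chapter X1 / IGUSA (helper27), brick X1-DISTMOD, part (D):
**the diamond conjugates of the generators of `L1 M` at the cusp `∞`, and (GB2) for `X1gens M`
from an `IgusaInput`** (the inputs `hD`, `hg0`, `hdist` of
`ResGenTower31.resField_FC_eq_of_diamonds`).

`D := Inst13.realizeData1 M K ι hι ζ hζ`, `C := Inst13.cuspData1 M K ι hι ζ hζ`.

* `T_eq_T_one_of_compSL_eq` (generic) : `Θ u ∘ δ = Θ u'  ⟹  C.T δ u = C.T 1 u'`;
* `T_one_gGenAB`, `T_one_jGenD` : the expansions at `∞` of the generators are `V` of the formal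
  generators (`V = qExpand K M`);
* `T_dia_gGenAB`, `T_dia_jGenD` : for `δ ∈ Γ₀(M)`, `u = δ₀₀ mod M`:
  `C.T δ G_{a,b} = V G_{au,bu}`, `C.T δ j_d = V j_d`  (the diamond law on expansions);
* `exists_mem_Gamma0_uOf` : every unit of `ZMod M` is `uOf M δ` for some `δ ∈ Γ₀(M)`;
* `resField_X1_eq_of_input` : **(GB2) at one field `K`** for `X1gens M`, from ANY
  `I : IgusaInput K O M` carrying the cusp expansions (`h_lift`, `h_sT`: one-liners for the
  Galois-closure instance, `sg = GaloisClosure30B.s D C`), an index family of units pairwise distinct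
  modulo `±1` and the index count `hcard`.
-/
import Mathlib
import Fermat.Agent.DS.X1.Inst13
import Fermat.Agent.DS.X1.Diamond13
import Fermat.Agent.DS.X1.GabDistModAny31
import Fermat.Agent.DS.G.RED.Igusa.GaloisClosure30C
import Fermat.Agent.DS.G.RED.Igusa.ResGenTower31
import Fermat.Agent.DS.Hecke1.Cosets

set_option autoImplicit false
set_option linter.unusedSectionVars false

noncomputable section

open HahnSeries ModularCurve UpperHalfPlane IntermediateField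
open scoped MatrixGroups

namespace Fermat.Agent.DS.X1.DiaGB2_27

open Fermat.Agent.X0 Fermat.Agent.DS.G.Level
open Fermat.Agent.DS.X1.Level1 Fermat.Agent.DS.X1.AnalyticGens13 Fermat.Agent.DS.X1.Inst13
  Fermat.Agent.DS.X1.Diamond13
open Fermat.Agent.DS.G.RED.Igusa.GaloisClosure30A Fermat.Agent.DS.G.RED.Igusa.GaloisClosure30B
  Fermat.Agent.DS.G.RED.Igusa.GaloisClosure30C

/-! ### generic: equal analytic functions have equal expansions -/

section Generic

variable {L : LevelData} {K : Type} [Field K] [Algebra ℚ K] {ι : K →+* ℂ}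
variable (D : RealizeDataL L K ι) (C : CuspDataL L K ι D)

/-- If `Θ u ∘ δ = Θ u'` then the expansion of `u` at the cusp `δ` is the expansion of `u'` at
`∞`. -/
theorem T_eq_T_one_of_compSL_eq (u u' : Rsubc L K) (δ : SL(2, ℤ))
    (h : compSL (D.Θ u) δ = D.Θ u') :
    C.T δ (u : FFc L K) = C.T 1 (u' : FFc L K) := by
  rw [← exA_gen D C u δ, ← exA_gen D C u' 1]
  congr 1
  apply Subtype.ext
  show compSL (D.Θ u) δ = compSL (D.Θ u') 1
  rw [compSL_one]
  exact h

end Generic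

/-! ### the level `L1 M` -/

section Level1

variable (M : ℕ) [NeZero M]
variable (K : Type) [Field K] [Algebra ℚ K] (ι : K →+* ℂ) (hι : Function.Injective ι)
  (ζ : K) (hζ : ι ζ = Fermat.Agent.X0.QExpAffine.zetaC M)

/-- The expansion at `∞` of the generator `G_{a,b}`. -/
theorem T_one_gGenAB {a b : ZMod M} (ha : a ≠ 0) (hb : b ≠ 0) :
    (cuspData1 M K ι hι ζ hζ).T 1 ((genR (L1 M) K (gGenAB M ha hb) : Rsubc (L1 M) K) :
        FFc (L1 M) K) = qExpand K M (gABC M K a b) := by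
  rw [T_one_R (realizeData1 M K ι hι ζ hζ) (cuspData1 M K ι hι ζ hζ)]
  show qExpand K M (coeffEmb K (gABC M ℚ a b)) = _
  rw [coeffEmb_gABC]

/-- The expansion at `∞` of the generator `j(q^d)`. -/
theorem T_one_jGenD {d : ℕ} [NeZero d] (h : d ∣ M) :
    (cuspData1 M K ι hι ζ hζ).T 1 ((genR (L1 M) K (jGenD M h) : Rsubc (L1 M) K) :
        FFc (L1 M) K) = qExpand K M (jDC K d) := by
  rw [T_one_R (realizeData1 M K ι hι ζ hζ) (cuspData1 M K ι hι ζ hζ)]
  show qExpand K M (coeffEmb K (jDC ℚ d)) = _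
  rw [coeffEmb_jDC]

/-- **The diamond law on expansions**, `G_{a,b}`. -/
theorem T_dia_gGenAB {δ : SL(2, ℤ)} (hδ : δ ∈ CongruenceSubgroup.Gamma0 M) {a b : ZMod M}
    (ha : a ≠ 0) (hb : b ≠ 0) :
    (cuspData1 M K ι hι ζ hζ).T δ ((genR (L1 M) K (gGenAB M ha hb) : Rsubc (L1 M) K) :
        FFc (L1 M) K) = qExpand K M (gABC M K (a * uOf M δ) (b * uOf M δ)) := by
  rw [T_eq_T_one_of_compSL_eq (realizeData1 M K ι hι ζ hζ) (cuspData1 M K ι hι ζ hζ)
    (genR (L1 M) K (gGenAB M ha hb))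
    (genR (L1 M) K (gGenAB M (mul_uOf_ne_zero M hδ ha) (mul_uOf_ne_zero M hδ hb))) δ ?_,
    T_one_gGenAB]
  rw [realizeData1_genR, realizeData1_genR]
  exact compSL_gFun_gGenAB M hδ ha hb

/-- **The diamond law on expansions**, `j(q^d)`. -/
theorem T_dia_jGenD {δ : SL(2, ℤ)} (hδ : δ ∈ CongruenceSubgroup.Gamma0 M) {d : ℕ} [NeZero d]
    (h : d ∣ M) :
    (cuspData1 M K ι hι ζ hζ).T δ ((genR (L1 M) K (jGenD M h) : Rsubc (L1 M) K) :
        FFc (L1 M) K) = qExpand K M (jDC K d) := by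
  rw [T_eq_T_one_of_compSL_eq (realizeData1 M K ι hι ζ hζ) (cuspData1 M K ι hι ζ hζ)
    (genR (L1 M) K (jGenD M h)) (genR (L1 M) K (jGenD M h)) δ ?_, T_one_jGenD]
  rw [realizeData1_genR]
  exact compSL_gFun_jGenD M hδ h

end Level1

/-! ### lifting units to `Γ₀(M)` -/

section Units

variable (M : ℕ) [NeZero M]

/-- Every unit of `ZMod M` is the upper left entry of an element of `Γ₀(M)`. -/
theorem exists_mem_Gamma0_uOf (u : (ZMod M)ˣ) :
    ∃ δ ∈ CongruenceSubgroup.Gamma0 M, uOf M δ = (u : ZMod M) := by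
  obtain ⟨δ, hδ, hlr⟩ := Fermat.Agent.DS.Hecke1.Cosets.exists_mem_Gamma0_lr u⁻¹
  refine ⟨δ, hδ, ?_⟩
  have h1 : uOf M δ * ((u⁻¹ : (ZMod M)ˣ) : ZMod M) = 1 := by
    have h := diag_mul_eq_one M hδ
    rw [← hlr]
    exact h
  calc uOf M δ = uOf M δ * (((u⁻¹ : (ZMod M)ˣ) : ZMod M) * (u : ZMod M)) := by
        rw [← Units.val_mul, inv_mul_cancel, Units.val_one, mul_one]
    _ = (u : ZMod M) := by rw [← mul_assoc, h1, one_mul]

/-- A chosen lift of a unit to `Γ₀(M)`. -/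
def diaLift (u : (ZMod M)ˣ) : SL(2, ℤ) := (exists_mem_Gamma0_uOf M u).choose

theorem diaLift_mem (u : (ZMod M)ˣ) : diaLift M u ∈ CongruenceSubgroup.Gamma0 M :=
  (exists_mem_Gamma0_uOf M u).choose_spec.1

theorem uOf_diaLift (u : (ZMod M)ˣ) : uOf M (diaLift M u) = (u : ZMod M) :=
  (exists_mem_Gamma0_uOf M u).choose_spec.2

end Units

/-! ### (GB2) at one field from an `IgusaInput` -/

section Input

open Fermat.Agent.RED.PUR.GaussGen8 Fermat.Agent.RED.PUR.KtGauss8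
  Fermat.Agent.RED.PUR.G1Package8 Fermat.Agent.RED.PUR.GaussBridge10
  Fermat.Agent.RED.PUR Fermat.Agent.IG.PR
  Fermat.Agent.DS.G.RED.Igusa.ResGen31 Fermat.Agent.DS.Igu77.Input
  Fermat.Agent.DS.G.ES.RED.Iface

variable {K : Type} [Field K] [CharZero K] [Algebra ℚ K]
  (O : ValuationSubring K) [IsDiscreteValuationRing ↥O]
  {π : ↥O} (hπ : Irreducible π) (ℓ : ℕ) [Fact ℓ.Prime] [CharP (Res O) ℓ]
  (M : ℕ) [NeZero M] (hℓM : ¬ ℓ ∣ M)
  (ι : K →+* ℂ) (hι : Function.Injective ι)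
  (ζ : K) (hζ : ι ζ = Fermat.Agent.X0.QExpAffine.zetaC M)

include hπ hℓM in
/-- **(GB2) for `X1gens M` at one field `K`, from an `IgusaInput` carrying the cusp expansions.**

`sg δ` acts on (the preimages of) the cusp expansions by `C.T γ u ↦ C.T (γ δ⁻¹) u`
(`GaloisClosure30B.s_T`); `r : ι' → (ZMod M)ˣ` is a family of units pairwise distinct modulo `±1`
with at least `[K·F₁(M) : K·F₀(M)]` members. -/
theorem resField_X1_eq_of_input
    (hM : 6 ≤ M ∨ ∀ u u' : (ZMod M)ˣ, u = u' ∨ u = -u')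
    (I : IgusaInput K O M)
    (sg : SL(2, ℤ) → (I.L ≃ₐ[I.k] I.L))
    (h_lift : ∀ (γ : SL(2, ℤ)) (u : Rsubc (L1 M) K), ∃ b : I.L,
      I.ι b = (cuspData1 M K ι hι ζ hζ).T γ (u : FFc (L1 M) K))
    (h_sT : ∀ (δ γ : SL(2, ℤ)) (u : Rsubc (L1 M) K) (b : I.L),
      I.ι b = (cuspData1 M K ι hι ζ hζ).T γ (u : FFc (L1 M) K) →
        I.ι (sg δ b) = (cuspData1 M K ι hι ζ hζ).T (γ * δ⁻¹) (u : FFc (L1 M) K))
    {ι' : Type*} [Fintype ι'] (r : ι' → (ZMod M)ˣ)
    (hr : ∀ i j, i ≠ j → r i ≠ r j ∧ r i ≠ -r j)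
    (hcard : relfinrank (modularFunctionFieldFullC K M) ((X1gens M).FC K) ≤ Fintype.card ι') :
    resField O ((X1gens M).FC K) = (X1gens M).FC (Res O) := by
  -- the Galois elements: `g i = sg (δ_i)⁻¹`, `δ_i ∈ Γ₀(M)` with upper left entry `r i`
  set g : ι' → (I.L ≃ₐ[I.k] I.L) := fun i => sg (diaLift M (r i))⁻¹ with hg
  -- the action of `g i` on lifts of expansions at `∞`
  have hgT : ∀ (i : ι') (u : Rsubc (L1 M) K) (b : I.L),
      I.ι b = (cuspData1 M K ι hι ζ hζ).T 1 (u : FFc (L1 M) K) →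
        I.ι (g i b) = (cuspData1 M K ι hι ζ hζ).T (diaLift M (r i)) (u : FFc (L1 M) K) := by
    intro i u b hb
    have h := h_sT (diaLift M (r i))⁻¹ 1 u b hb
    rwa [inv_inv, one_mul] at h
  refine Fermat.Agent.DS.G.RED.Igusa.ResGenTower31.resField_FC_eq_of_diamonds O hπ ℓ M hℓM
    (X1gens M) (X0gens_gens_subset M) I ?_ hcard g ?_ ?_
  · -- hD : the generators lie in `L`
    intro gen hgen
    rcases hgen with ⟨d, hne, hd, rfl⟩ | ⟨a, b, ha, hb, rfl⟩
    · obtain ⟨x, hx⟩ := h_lift 1 (genR (L1 M) K (jGenD M hd))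
      refine ⟨x, ?_⟩
      rw [hx, T_one_jGenD]
      show qExpand K M (jDC K d) = qExpand K M (coeffMap (Int.castRingHom K) (jDC ℤ d))
      rw [coeffMap_jDC]
    · obtain ⟨x, hx⟩ := h_lift 1 (genR (L1 M) K (gGenAB M ha hb))
      refine ⟨x, ?_⟩
      rw [hx, T_one_gGenAB, coeffMap_gABC]
  · -- hg0 : the `g i` fix the `j(Q^{Md})`
    intro i d hne hd b hb
    apply I.ι_injective
    have hb' : I.ι b = (cuspData1 M K ι hι ζ hζ).T 1
        ((genR (L1 M) K (jGenD M hd) : Rsubc (L1 M) K) : FFc (L1 M) K) := by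
      rw [hb, T_one_jGenD]
      rfl
    rw [hgT i _ b hb', T_dia_jGenD M K ι hι ζ hζ (diaLift_mem M (r i)) hd, hb]
    rfl
  · -- hdist
    intro i j hij
    obtain ⟨hne, hne'⟩ := hr i j hij
    rcases hM with hM | hM
    · obtain ⟨a, b, ha, hb, hab⟩ :=
        Fermat.Agent.DS.X1.GabDistModAny31.exists_gaussRed_qExpand_gABC_ne_any (K := K) O M M hM
          (r i) (r j) hne hne'
      obtain ⟨x, hx⟩ := h_lift 1 (genR (L1 M) K (gGenAB M ha hb))
      refine ⟨gAB M a b, gAB_mem_gensZ M ha hb, x, ?_, ?_⟩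
      · rw [hx, T_one_gGenAB, coeffMap_gABC]
      · intro h1 h2
        have e1 : I.ι (g i x) = qExpand K M (gABC M K ((r i : ZMod M) * a) ((r i : ZMod M) * b)) := by
          rw [hgT i _ x hx, T_dia_gGenAB M K ι hι ζ hζ (diaLift_mem M (r i)) ha hb, uOf_diaLift,
            mul_comm a, mul_comm b]
        have e2 : I.ι (g j x) = qExpand K M (gABC M K ((r j : ZMod M) * a) ((r j : ZMod M) * b)) := by
          rw [hgT j _ x hx, T_dia_gGenAB M K ι hι ζ hζ (diaLift_mem M (r j)) ha hb, uOf_diaLift,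
            mul_comm a, mul_comm b]
        rw [Fermat.Agent.DS.G.RED.Igusa.ResGenInput31.gaussRed_congr O h1 (e1 ▸ h1) e1,
          Fermat.Agent.DS.G.RED.Igusa.ResGenInput31.gaussRed_congr O h2 (e2 ▸ h2) e2]
        exact hab _ _
    · rcases hM (r i) (r j) with h | h
      · exact absurd h hne
      · exact absurd h hne'

end Input

end Fermat.Agent.DS.X1.DiaGB2_27
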