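/-
Programme DS (S48), chapter X1 / IGUSA (helper27), brick X1-DISTMOD, part (E):
**(GB2) for `X1gens M`, route I (IgusaInput form), on helper11's unconditional instance**
`ModRing11.igusaInputOfZeta ι O M ζ hζ : IgusaInput K O M`.

* `exists_modRing_T` : the element of `modRing` attached to `u ∈ R = K[generators]` of a level `L`,
  with ALL its cusp expansions `a.1.2 γ = C.T γ u`;
* `lift_T`, `galHom_T` : the two hypotheses `h_lift`, `h_sT` of
  `DiaGB2_27.resField_X1_eq_of_input` for `igusaInputOfZeta` (Galois elements `galHom ι O M δ`);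
* `resField_X1_eq_of_zeta` : **(GB2) at one field `K`** (a DVR `O ⊂ K` of residue characteristic
  `ℓ ∤ M`, `ζ ∈ Oˣ` with `ι ζ = exp(2πi/M)`), from the index count `hcard` alone;
* `gb2Step_X1gens_of_card` : **`GB2Step (X1gens M) A`** for `A` over `ℓ ∤ M` (`6 ≤ M` or all units
  of `ZMod M` are `±1`), from the index count over all large number fields alone.
-/
import Mathlib
import Fermat.Agent.DS.X1.DiaGB2_27
import Fermat.Agent.DS.G.RED.Igusa.ModRing11.OfCusp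

set_option autoImplicit false
set_option linter.unusedSectionVars false
set_option linter.style.haveILetI false

noncomputable section

open HahnSeries ModularCurve UpperHalfPlane IntermediateField
open scoped MatrixGroups

namespace Fermat.Agent.DS.X1.GB2Inst27

open Fermat.Agent.X0 Fermat.Agent.X0.Analytic Fermat.Agent.DS.G.Level
open Fermat.Agent.DS.X1.Level1 Fermat.Agent.DS.X1.Inst13
open Fermat.Agent.DS.G.RED.Igusa.ModRing11
open Fermat.Agent.DS.G.X0.Realize (toCι toCι_injective)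
open Fermat.Agent.DS.G.X0.CuspEquiv (zetaC)
open Fermat.Agent.RED.PUR.GaussGen8 (fracField gaussRing)
open Fermat.Agent.DS.Igu77.Input (IgusaInput)
open Fermat.Agent.DS.X1.GabCuspFrac27 (cuspData1_T_mem_fracField)

/-! ### the element of `modRing` attached to `u ∈ R`, with all its cusp expansions -/

section Build

variable {K : Type} [Field K] [Algebra ℚ K] {ι : K →+* ℂ} {O : ValuationSubring K}
variable (L : LevelData) (D : RealizeDataL L K ι) (C : CuspDataL L K ι D)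

/-- The element of `modRing` attached to `u ∈ R = K[generators]`, with all cusp expansions. -/
theorem exists_modRing_T
    (hbdd : ∀ (γ : SL(2, ℤ)) (u : Rsubc L K), C.T γ (u : FFc L K) ∈ fracField O)
    (u : Rsubc L K) :
    ∃ a : ModRing ι O L.w, ∀ γ : SL(2, ℤ), a.1.2 γ = C.T γ (u : FFc L K) := by
  have hmem : IsMod ι O L.w (D.Θ u, fun γ => C.T γ (u : FFc L K)) := by
    refine ⟨D.mem_HolH u, fun δ hδ => D.invariant u δ (L.gamma_le hδ), fun γ => ⟨?_, hbdd γ u⟩⟩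
    obtain ⟨m, P, hP, hT⟩ := C.spec γ u
    show IntgQN L.w (compSL (D.Θ u) γ) (toCι ι (C.T γ (u : FFc L K)))
    rw [hT, toCι, Fermat.Agent.X0.coeffMap_laurentOf]
    exact intg_qn_of_isQExp L.w hP
  exact ⟨⟨_, hmem⟩, fun γ => rfl⟩

end Build

/-! ### the two hypotheses of `resField_X1_eq_of_input` for `igusaInputOfZeta` -/

section Inst

variable {K : Type} [Field K] [Algebra ℚ K] (ι : K →+* ℂ) (O : ValuationSubring K)
  (M : ℕ) [NeZero M] (ζ : (↥O)ˣ) (hζ : ι ((ζ : ↥O) : K) = zetaC M)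

/-- The element of `modRing` attached to `u ∈ R` for the level `L1 M`. -/
theorem exists_modRing_T1 (u : Rsubc (L1 M) K) :
    ∃ a : ModRing ι O M, ∀ γ : SL(2, ℤ),
      a.1.2 γ = (cuspData1 M K ι ι.injective ((ζ : ↥O) : K) hζ).T γ (u : FFc (L1 M) K) :=
  exists_modRing_T (L1 M) (realizeData1 M K ι ι.injective ((ζ : ↥O) : K) hζ)
    (cuspData1 M K ι ι.injective ((ζ : ↥O) : K) hζ)
    (fun γ u => cuspData1_T_mem_fracField M O ι ι.injective ((ζ : ↥O) : K) hζ γ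
      (u : FFc (L1 M) K)) u

/-- `h_lift` : every cusp expansion `C.T γ u` is `ι` of an element of the level-`M` field. -/
theorem lift_T (γ : SL(2, ℤ)) (u : Rsubc (L1 M) K) :
    ∃ b : (igusaInputOfZeta ι O M ζ hζ).L, (igusaInputOfZeta ι O M ζ hζ).ι b =
      (cuspData1 M K ι ι.injective ((ζ : ↥O) : K) hζ).T γ (u : FFc (L1 M) K) := by
  obtain ⟨a, ha⟩ := exists_modRing_T1 ι O M ζ hζ u
  refine ⟨algebraMap (ModRing ι O M) (FracMod ι O M) (γ⁻¹ • a), ?_⟩
  show ιInf ι O M (algebraMap (ModRing ι O M) (FracMod ι O M) (γ⁻¹ • a)) = _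
  rw [ιInf_algebraMap, expInf_smul, inv_inv, ha]

/-- The Galois elements of `igusaInputOfZeta`. -/
def sg (δ : SL(2, ℤ)) :
    (igusaInputOfZeta ι O M ζ hζ).L ≃ₐ[(igusaInputOfZeta ι O M ζ hζ).k]
      (igusaInputOfZeta ι O M ζ hζ).L :=
  galHom ι O M δ

/-- `h_sT` : `galHom δ` maps (the preimage of) `C.T γ u` to (the preimage of) `C.T (γ δ⁻¹) u`. -/
theorem galHom_T (δ γ : SL(2, ℤ)) (u : Rsubc (L1 M) K) (b : (igusaInputOfZeta ι O M ζ hζ).L)
    (hb : (igusaInputOfZeta ι O M ζ hζ).ι b =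
      (cuspData1 M K ι ι.injective ((ζ : ↥O) : K) hζ).T γ (u : FFc (L1 M) K)) :
    (igusaInputOfZeta ι O M ζ hζ).ι (sg ι O M ζ hζ δ b) =
      (cuspData1 M K ι ι.injective ((ζ : ↥O) : K) hζ).T (γ * δ⁻¹) (u : FFc (L1 M) K) := by
  obtain ⟨a, ha⟩ := exists_modRing_T1 ι O M ζ hζ u
  have hb' : b = algebraMap (ModRing ι O M) (FracMod ι O M) (γ⁻¹ • a) := by
    apply (igusaInputOfZeta ι O M ζ hζ).ι_injective
    rw [hb]
    show _ = ιInf ι O M (algebraMap (ModRing ι O M) (FracMod ι O M) (γ⁻¹ • a))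
    rw [ιInf_algebraMap, expInf_smul, inv_inv, ha]
  rw [hb']
  show ιInf ι O M (galHom ι O M δ (algebraMap (ModRing ι O M) (FracMod ι O M) (γ⁻¹ • a))) = _
  rw [galHom_algebraMap, ιInf_algebraMap, expInf_smul, smul_snd, inv_inv, ha]

end Inst

/-! ### (GB2) at one field -/

section OneField

open Fermat.Agent.RED.PUR.GaussGen8 Fermat.Agent.RED.PUR.KtGauss8
  Fermat.Agent.RED.PUR.G1Package8 Fermat.Agent.RED.PUR.GaussBridge10
  Fermat.Agent.RED.PUR Fermat.Agent.IG.PR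
  Fermat.Agent.DS.G.ES.RED.Iface

variable {K : Type} [Field K] [CharZero K] [Algebra ℚ K]
  (O : ValuationSubring K) [IsDiscreteValuationRing ↥O]
  {π : ↥O} (hπ : Irreducible π) (ℓ : ℕ) [Fact ℓ.Prime] [CharP (Res O) ℓ]
  (M : ℕ) [NeZero M] (hℓM : ¬ ℓ ∣ M)
  (ι : K →+* ℂ) (ζ : (↥O)ˣ) (hζ : ι ((ζ : ↥O) : K) = zetaC M)

include hπ hℓM hζ in
/-- **(GB2) for `X1gens M` at one field `K`**: a DVR `O ⊂ K` of residue characteristic `ℓ ∤ M`
containing `ζ` with `ι ζ = exp(2πi/M)`; `r` a family of units pairwise distinct modulo `±1` with at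
least `[K·F₁(M) : K·F₀(M)]` members. -/
theorem resField_X1_eq_of_zeta
    (hM : 6 ≤ M ∨ ∀ u u' : (ZMod M)ˣ, u = u' ∨ u = -u')
    {ι' : Type*} [Fintype ι'] (r : ι' → (ZMod M)ˣ)
    (hr : ∀ i j, i ≠ j → r i ≠ r j ∧ r i ≠ -r j)
    (hcard : relfinrank (modularFunctionFieldFullC K M) ((X1gens M).FC K) ≤ Fintype.card ι') :
    resField O ((X1gens M).FC K) = (X1gens M).FC (Res O) :=
  Fermat.Agent.DS.X1.DiaGB2_27.resField_X1_eq_of_input O hπ ℓ M hℓM ι ι.injective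
    ((ζ : ↥O) : K) hζ hM (igusaInputOfZeta ι O M ζ hζ) (sg ι O M ζ hζ)
    (lift_T ι O M ζ hζ) (galHom_T ι O M ζ hζ) r hr hcard

end OneField

/-! ### (GB2) for all large number fields -/

section Concrete

open Fermat.Agent.RED.Interface4 Fermat.Agent.RED.DESC.NumberFieldDVR27
open Fermat.Agent.DS.G.ES.RED.GaussUnit25 Fermat.Agent.DS.G.ES.RED.Iface
open Fermat.Agent.RED.PUR.GaussGen8 Fermat.Agent.RED.PUR.KtGauss8
  Fermat.Agent.RED.PUR.G1Package8 Fermat.Agent.RED.PUR.GaussBridge10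
  Fermat.Agent.RED.PUR Fermat.Agent.IG.PR

/-- The embedding `K → ℂ` of a subfield of `ℚ̄`. -/
def iotaOf (K : IntermediateField ℚ Qbar) : ↥K →+* ℂ := iotaK.comp (algebraMap ↥K Qbar)

/-- **`GB2Step (X1gens M) A`** for `A` over a prime `ℓ ∤ M` (`6 ≤ M`, or all units of `ZMod M` are
`±1`, e.g. `M = 4`), from the index count `[K·F₁(M) : K·F₀(M)] ≤ #T` over all large number fields
alone (route I: the `IgusaInput` of `ModRing11.igusaInputOfZeta`). -/
theorem gb2Step_X1gens_of_card (M : ℕ) [NeZero M] (ℓ : ℕ) [Fact ℓ.Prime]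
    (hM : 6 ≤ M ∨ ∀ u u' : (ZMod M)ˣ, u = u' ∨ u = -u') (hℓM : ¬ ℓ ∣ M)
    (A : ValuationSubring Qbar) (hA : A.LiesOverPrime ℓ)
    {T : Type*} [Fintype T] (u : T → (ZMod M)ˣ) (hu : ∀ s t, s ≠ t → u s ≠ u t ∧ u s ≠ -u t)
    (hN : ∃ K₀ : IntermediateField ℚ Qbar, FiniteDimensional ℚ K₀ ∧
      ∀ K : IntermediateField ℚ Qbar, FiniteDimensional ℚ K → K₀ ≤ K →
        relfinrank (modularFunctionFieldFullC ↥K M) ((X1gens M).FC ↥K) ≤ Fintype.card T) :
    GB2Step (X1gens M) A := by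
  obtain ⟨K₃, hfin₃, hK₃⟩ := hN
  haveI := hfin₃
  -- the cyclotomic field
  have hz : iotaK (zetaK1 M) = zetaC M := iotaK_zetaK1 M
  have hzM : (zetaK1 M) ^ M = 1 :=
    Fermat.Agent.DS.X1.GabCuspFrac27.zeta_pow_eq_one iotaK M hz
  have hzint : IsIntegral ℚ (zetaK1 M) :=
    (AlgebraicClosure.isAlgebraic ℚ).isIntegral.isIntegral (zetaK1 M)
  haveI : FiniteDimensional ℚ ℚ⟮zetaK1 M⟯ := IntermediateField.adjoin.finiteDimensional hzint
  refine ⟨ℚ⟮zetaK1 M⟯ ⊔ K₃, inferInstance, fun K hKfd hle => ?_⟩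
  have hzK : zetaK1 M ∈ K := (le_sup_left.trans hle) (mem_adjoin_simple_self ℚ (zetaK1 M))
  have hle3 : K₃ ≤ K := le_sup_right.trans hle
  have hℓ : ℓ.Prime := Fact.out
  haveI : IsDiscreteValuationRing ↥(AK A K) := isDiscreteValuationRing_AK A K hℓ.ne_zero hA
  haveI : CharP (Res (AK A K)) ℓ := charP_residueField_AK A K hℓ hA
  obtain ⟨π, hπ⟩ := IsDiscreteValuationRing.exists_irreducible ↥(AK A K)
  -- `ζ` as a unit of `A ∩ K`
  have hM0 : 0 < M := Nat.pos_of_ne_zero (NeZero.ne M)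
  have hzA : zetaK1 M ∈ A := Fermat.Agent.DS.X1.GabCuspFrac27.mem_of_pow_eq_one A hM0 hzM
  have hziA : (zetaK1 M)⁻¹ ∈ A :=
    Fermat.Agent.DS.X1.GabCuspFrac27.mem_of_pow_eq_one A hM0 (by rw [inv_pow, hzM, inv_one])
  have hz0 : zetaK1 M ≠ 0 := by
    rintro h0
    rw [h0, zero_pow hM0.ne'] at hzM
    exact zero_ne_one hzM
  let zK : ↥K := ⟨zetaK1 M, hzK⟩
  have hzK0 : zK ≠ 0 := fun h => hz0 (congrArg Subtype.val h)
  have hzO : zK ∈ AK A K := hzA
  have hziO : zK⁻¹ ∈ AK A K := by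
    show algebraMap ↥K Qbar zK⁻¹ ∈ A
    rw [map_inv₀]
    exact hziA
  let ζ : (↥(AK A K))ˣ :=
    ⟨⟨zK, hzO⟩, ⟨zK⁻¹, hziO⟩, Subtype.ext (mul_inv_cancel₀ hzK0),
      Subtype.ext (inv_mul_cancel₀ hzK0)⟩
  have hζ : iotaOf K (((ζ : (↥(AK A K))ˣ) : ↥(AK A K)) : ↥K) = zetaC M := hz
  exact (resField_X1_eq_of_zeta (AK A K) hπ ℓ M hℓM (iotaOf K) ζ hζ hM u hu
    (hK₃ K hKfd hle3)).le

end Concrete

end Fermat.Agent.DS.X1.GB2Inst27
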