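/-
Programme DS (S48), chapter X1 / IGUSA (helper31): **`GB2Step (X1gens M) A`, unconditional.**

Plugs the degree count `DegX1_31.relfinrank_full_le`
(`[K·F₁(M) : K·F₀(M)] ≤ #((ℤ/M)ˣ/±1)` for every field `K ⊆ ℚbar`) into helper27's route I
(`GB2Inst27.gb2Step_X1gens_of_card`, which runs on helper11's unconditional
`ModRing11.igusaInputOfZeta`), with `T := UnitsModSign M`, `u := repU M` of helper55's
`GB2X1Canon`.

* `gb2Step_X1gens_final` : `GB2Step (X1gens M) A` for every `A` over a prime `ℓ ∤ M`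
  (`6 ≤ M`, or all units of `ZMod M` are `±1`);
* `gb2Step_X1gens_of_six_le`, `gb2Step_X1gens_four` : the two cases used (`4 ∣ M` or `9 ∣ M`
  gives `M = 4` or `6 ≤ M`);
* `gb2Step_X1gens_of_dvd` : the case `4 ∣ M ∨ 9 ∣ M` of S48.
-/
import Mathlib
import Fermat.Agent.DS.X1.GB2Inst27
import Fermat.Agent.DS.X1.DegX1_31
import Fermat.Agent.DS.G.ES.RED.GB2X1Canon

set_option autoImplicit false
set_option linter.unusedSectionVars false

noncomputable section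

namespace Fermat.Agent.DS.X1.GB2Final31

open IntermediateField
open Fermat.Agent.DS.G.ES.RED.GB2X1Canon (UnitsModSign repU repU_ne)
open Fermat.Agent.RED.Interface4 Fermat.Agent.RED.DESC.NumberFieldDVR27
open Fermat.Agent.DS.G.ES.RED.GaussUnit25 Fermat.Agent.DS.G.ES.RED.Iface
open Fermat.Agent.DS.X1.Level1

/-- **`GB2Step (X1gens M) A`** for every `A` over a prime `ℓ ∤ M` (including `ℓ = 2`), provided
`6 ≤ M` or all units of `ZMod M` are `±1` (e.g. `M = 4`). No remaining hypothesis. -/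
theorem gb2Step_X1gens_final (M : ℕ) [NeZero M] (ℓ : ℕ) [Fact ℓ.Prime]
    (hM : 6 ≤ M ∨ ∀ u u' : (ZMod M)ˣ, u = u' ∨ u = -u') (hℓM : ¬ ℓ ∣ M)
    (A : ValuationSubring Qbar) (hA : A.LiesOverPrime ℓ) :
    GB2Step (X1gens M) A := by
  classical
  letI : Fintype (UnitsModSign M) := Fintype.ofFinite _
  refine Fermat.Agent.DS.X1.GB2Inst27.gb2Step_X1gens_of_card M ℓ hM hℓM A hA (repU M) (repU_ne M)
    ⟨⊥, inferInstance, fun K _ _ => ?_⟩
  rw [Fintype.card_eq_nat_card]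
  exact Fermat.Agent.DS.X1.DegX1_31.relfinrank_full_le M (algebraMap ↥K Qbar)

/-- The case `6 ≤ M`. -/
theorem gb2Step_X1gens_of_six_le (M : ℕ) [NeZero M] (ℓ : ℕ) [Fact ℓ.Prime] (hM : 6 ≤ M)
    (hℓM : ¬ ℓ ∣ M) (A : ValuationSubring Qbar) (hA : A.LiesOverPrime ℓ) :
    GB2Step (X1gens M) A :=
  gb2Step_X1gens_final M ℓ (Or.inl hM) hℓM A hA

/-- The case `M = 4`. -/
theorem gb2Step_X1gens_four (ℓ : ℕ) [Fact ℓ.Prime] (hℓM : ¬ ℓ ∣ 4)
    (A : ValuationSubring Qbar) (hA : A.LiesOverPrime ℓ) :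
    GB2Step (X1gens 4) A :=
  gb2Step_X1gens_final 4 ℓ (Or.inr (by decide)) hℓM A hA

/-- The case `4 ∣ M ∨ 9 ∣ M` (the levels used for S48). -/
theorem gb2Step_X1gens_of_dvd (M : ℕ) [NeZero M] (hM : 4 ∣ M ∨ 9 ∣ M) (ℓ : ℕ) [Fact ℓ.Prime]
    (hℓM : ¬ ℓ ∣ M) (A : ValuationSubring Qbar) (hA : A.LiesOverPrime ℓ) :
    GB2Step (X1gens M) A := by
  have hM0 : 0 < M := Nat.pos_of_ne_zero (NeZero.ne M)
  by_cases h6 : 6 ≤ M
  · exact gb2Step_X1gens_of_six_le M ℓ h6 hℓM A hA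
  · have h4 : M = 4 := by
      rcases hM with h | h
      · obtain ⟨k, rfl⟩ := h
        omega
      · obtain ⟨k, rfl⟩ := h
        omega
    subst h4
    exact gb2Step_X1gens_four ℓ hℓM A hA

end Fermat.Agent.DS.X1.GB2Final31
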