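/-
Programme DS (S48), chapter X1 (helper16): the cusp expansions of the Hauptmodul `t` at ALL cusps of
`X₁(M)/±` — the interface statements (B5) + (B4) of chapter G-RED/BASE at the level `L1 M` with the
unconditional model `(D1 M, C1 M)` of `DS/X1/Model1.lean`.
-/
import Mathlib
import Fermat.Agent.DS.X1.Model1
import Fermat.Agent.DS.G.RED.BASE.CuspExpLevel11

set_option autoImplicit false

open UpperHalfPlane ModularCurve
open scoped MatrixGroups

noncomputable section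

namespace Fermat.Agent.DS.X1.CuspExp1

open Fermat.Agent.X0 Fermat.Agent.DS.G.Level Fermat.Agent.DS.X1.Level1 Fermat.Agent.DS.X1.Model1
open Fermat.Agent.RED.BASE.Interface12 (CuspSeparated)
open Fermat.Agent.RED.BASE.CuspExpMain11 (cvT)
open Fermat.Agent.DS.G.RED.BASE.Interface12

variable (M : ℕ) [NeZero M]

theorem full_le_L1 : ModularCurve.modularFunctionFieldFull M ≤ (L1 M).F₀ := L0_F₀_le_L1_F₀ M

theorem L1_w_eq : (L1 M).w = M * 1 := (mul_one M).symm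

/-- the cusp expansions at level `±Γ₁(M)` of the functions of level `Γ₀(M)` are those of
level `Γ₀(M)`. -/
theorem T_incl1 (γ : SL(2, ℤ)) (x : FF M) :
    (C1 M).T γ (Fermat.Agent.DS.G.RED.BASE.Compare.inclL (L1 M) M (full_le_L1 M) x)
      = (cuspData M).T γ x := by
  rw [Fermat.Agent.DS.G.RED.BASE.Compare.T_inclL (L1 M) (D1 M) (C1 M) M (full_le_L1 M) 1
    (L1_w_eq M) γ x, qExpand_one_apply]

/-- **(B5) + (B4)** for `t₄` at the level `±Γ₁(M)`, `4 ∣ M`. -/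
theorem cuspExp_four1 (hM : 4 ∣ M) :
    CuspExp 4 8 (L1 M) (C1 M) (cvT 4 8 M) ∧ CuspSeparated 4 (cvT 4 8 M) :=
  Fermat.Agent.DS.G.RED.BASE.CuspExpLevel11.cuspExp_four (L1 M) (D1 M) (C1 M) M (full_le_L1 M) 1
    (L1_w_eq M) hM

/-- **(B5) + (B4)** for `t₉` at the level `±Γ₁(M)`, `9 ∣ M`. -/
theorem cuspExp_nine1 (hM : 9 ∣ M) :
    CuspExp 9 3 (L1 M) (C1 M) (cvT 9 3 M) ∧ CuspSeparated 9 (cvT 9 3 M) :=
  Fermat.Agent.DS.G.RED.BASE.CuspExpLevel11.cuspExp_nine (L1 M) (D1 M) (C1 M) M (full_le_L1 M) 1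
    (L1_w_eq M) hM

end Fermat.Agent.DS.X1.CuspExp1
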