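/-
Programme DS (S48), chapter X1 / IGUSA (helper27): **bounded denominators at all cusps.**

For a field `K ⊇ ℚ(ζ_M)` (`ι : K →+* ℂ`, `ι ζ = e^{2πi/M}`) and ANY valuation subring `O ≤ K`:
the `q_M`-expansion of every generator function of `L1 M = ±Γ₁(M)` composed with every
`γ ∈ SL(2,ℤ)` lies in `GaussGen8.fracField O = Frac (O((Q)))` (the coefficients are in
`(1/12)·ℤ[ζ]` resp. `ℤ[ζ]`, up to a constant factor of `K`).  Consequently every cusp expansion
`C.T γ f`, `f ∈ FFc (L1 M) K`, lies in `fracField O`: this is the field `ι_mem` of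
`Igu77.Input.IgusaInput` for the level-`M` Galois closure, however the latter is presented.

* `QExpFr O ι h f`  : `f` has a `q_h`-expansion over `K` lying in `fracField O` (+ closure lemmas);
* `qExpFr_PbN`, `qExpFr_wm2_aff`, `qExpFr_compSL_gABfun`, `qExpFr_compSL_jdFun` ;
* `T_mem_fracField`  : generic in `(L, D, C)`, from the per-generator statement;
* `cuspData1_T_mem_fracField` : the instance for `Inst13.cuspData1`.
-/
import Mathlib
import Fermat.Agent.DS.X1.GabCusp
import Fermat.Agent.DS.X1.Inst13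
import Fermat.Agent.DS.G.X0.CuspEquiv
import Fermat.Agent.DS.G.X0.IntegralityLc
import Fermat.Agent.RED.PUR.GaussGen8

set_option autoImplicit false
set_option linter.unusedSectionVars false

noncomputable section

namespace Fermat.Agent.DS.X1.GabCuspFrac27

open Fermat.Agent.X0 Fermat.Agent.X0.Hermite Fermat.Agent.X0.QExpAffine
open UpperHalfPlane hiding I
open Complex Filter Topology MatrixGroups Matrix CongruenceSubgroup
open Fermat.Agent.DS.Eis1.WPExp Fermat.Agent.DS.Eis1.WPTors Fermat.Agent.DS.Eis1.WPE6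
open Fermat.Agent.DS.Eis1.WPFricke Fermat.Agent.DS.Eis1.WPIsog
open Fermat.Agent.DS.X1.GabFun Fermat.Agent.DS.X1.GabCusp
open Fermat.Agent.RED.PUR.GaussGen8
open scoped ArithmeticFunction.sigma

/-! ### Series with coefficients in `O` -/

section Integral

variable {K : Type} [Field K] (O : ValuationSubring K)

/-- A Laurent series `q^{-m} P` with all coefficients of `P` in `O` lies in `fracField O`. -/
theorem laurentOf_mem_fracField_of_coeff_mem (m : ℕ) (P : PowerSeries K)
    (h : ∀ n, PowerSeries.coeff n P ∈ O) : laurentOf m P ∈ fracField O := by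
  let P' : PowerSeries ↥O := PowerSeries.mk fun n => ⟨PowerSeries.coeff n P, h n⟩
  have e : P'.map O.subtype = P := by
    ext n
    simp [P', PowerSeries.coeff_map]
  have h1 : embK O (laurentOf m P') = laurentOf m P := by
    rw [embK, coeffMap_laurentOf, e]
  rw [← h1]
  exact embK_mem_fracField O _

/-- Constants lie in `fracField O`. -/
theorem laurentOf_C_mem_fracField (c : K) : laurentOf 0 (PowerSeries.C c) ∈ fracField O := by
  have e : laurentOf 0 (PowerSeries.C c) = HahnSeries.C c := by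
    rw [laurentOf, HahnSeries.ofPowerSeries_C]
    simp
  rw [e, ← algebraMap_eq_C]
  exact (fracField O).algebraMap_mem c

/-- A root of unity lies in every valuation subring. -/
theorem mem_of_pow_eq_one {ζ : K} {n : ℕ} (hn : 0 < n) (h : ζ ^ n = 1) : ζ ∈ O := by
  rcases O.mem_or_inv_mem ζ with h1 | h1
  · exact h1
  · have h2 : ζ = ζ⁻¹ ^ (n - 1) := by
      have hζ : ζ ≠ 0 := by
        rintro rfl
        rw [zero_pow hn.ne'] at h
        exact zero_ne_one h
      have h3 : ζ ^ (n - 1) * ζ = 1 := by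
        rw [← pow_succ, Nat.sub_add_cancel hn, h]
      rw [inv_pow]
      exact (eq_inv_of_mul_eq_one_right h3)
    rw [h2]
    exact pow_mem h1 _

theorem zpow_mem_of_pow_eq_one {ζ : K} {n : ℕ} (hn : 0 < n) (h : ζ ^ n = 1) (k : ℤ) :
    ζ ^ k ∈ O := by
  apply mem_of_pow_eq_one O hn
  rw [← zpow_natCast, ← _root_.zpow_mul, mul_comm, _root_.zpow_mul, zpow_natCast, h, _root_.one_zpow]

end Integral

/-! ### `q_h`-expansions in `fracField O` -/

section QExpFr

variable {K : Type} [Field K] (O : ValuationSubring K) (ι : K →+* ℂ)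

/-- `f` has a `q_h`-expansion over `K` which lies in `Frac (O((Q)))`. -/
def QExpFr (h : ℕ) (f : ℍ → ℂ) : Prop :=
  ∃ (m : ℕ) (P : PowerSeries K), IsQExp h f m (P.map ι) ∧ laurentOf m P ∈ fracField O

variable {O ι} {h : ℕ} [NeZero h] {f g : ℍ → ℂ}

theorem QExpFr.qExpIn (hf : QExpFr O ι h f) : QExpIn ι h f := by
  obtain ⟨m, P, hP, -⟩ := hf
  exact ⟨m, P, hP⟩

theorem QExpFr.add (hf : QExpFr O ι h f) (hg : QExpFr O ι h g) : QExpFr O ι h (f + g) := by
  obtain ⟨m, P, hP, hPm⟩ := hf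
  obtain ⟨m', Q, hQ, hQm⟩ := hg
  refine ⟨m + m', PowerSeries.X ^ m' * P + PowerSeries.X ^ m * Q, ?_, ?_⟩
  · have := hP.add hQ
    simpa [map_add, map_mul, map_pow, PowerSeries.map_X] using this
  · have e : laurentOf (m + m') (PowerSeries.X ^ m' * P + PowerSeries.X ^ m * Q)
        = laurentOf m P + laurentOf m' Q := by
      rw [laurentOf_add, laurentOf_shift]
      conv_lhs => rw [add_comm m m', laurentOf_shift]
    rw [e]
    exact add_mem hPm hQm

theorem QExpFr.mul (hf : QExpFr O ι h f) (hg : QExpFr O ι h g) : QExpFr O ι h (f * g) := by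
  obtain ⟨m, P, hP, hPm⟩ := hf
  obtain ⟨m', Q, hQ, hQm⟩ := hg
  refine ⟨m + m', P * Q, ?_, ?_⟩
  · have := hP.mul hQ
    simpa [map_mul] using this
  · rw [laurentOf_mul]
    exact mul_mem hPm hQm

theorem QExpFr.const (c : K) : QExpFr O ι h (fun _ => ι c) := by
  refine ⟨0, PowerSeries.C c, ?_, laurentOf_C_mem_fracField O c⟩
  have := isQExp_const h (ι c)
  simpa using this

theorem QExpFr.smul (hf : QExpFr O ι h f) (c : K) : QExpFr O ι h (ι c • f) := by
  have h1 : (ι c • f) = (fun _ => ι c) * f := by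
    funext z
    simp
  rw [h1]
  exact (QExpFr.const c).mul hf

theorem QExpFr.neg (hf : QExpFr O ι h f) : QExpFr O ι h (-f) := by
  have h1 : -f = ι (-1) • f := by
    funext z
    simp
  rw [h1]
  exact hf.smul (-1)

theorem QExpFr.sub (hf : QExpFr O ι h f) (hg : QExpFr O ι h g) : QExpFr O ι h (f - g) := by
  rw [sub_eq_add_neg]
  exact hf.add hg.neg

theorem QExpFr.zero : QExpFr O ι h (0 : ℍ → ℂ) := by
  have h0 : (0 : ℍ → ℂ) = fun _ => ι 0 := by
    funext z
    simp
  rw [h0]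
  exact QExpFr.const 0

theorem QExpFr.sum {α : Type*} (s : Finset α) {F : α → ℍ → ℂ}
    (hF : ∀ i ∈ s, QExpFr O ι h (F i)) : QExpFr O ι h (∑ i ∈ s, F i) := by
  classical
  induction s using Finset.induction_on with
  | empty => simpa using QExpFr.zero
  | insert i s hi ih =>
    rw [Finset.sum_insert hi]
    exact (hF i (Finset.mem_insert_self i s)).add
      (ih fun j hj => hF j (Finset.mem_insert_of_mem hj))

end QExpFr

/-! ### The base cases -/

section Base

variable {K : Type} [Field K] (O : ValuationSubring K) (ι : K →+* ℂ) (M : ℕ) [NeZero M]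

theorem zeta_pow_eq_one {ζ : K} (hζ : ι ζ = zetaC M) : ζ ^ M = 1 := by
  apply ι.injective
  rw [map_pow, hζ, map_one, zetaC, ← Complex.exp_nat_mul]
  have hM : (M : ℂ) ≠ 0 := by exact_mod_cast NeZero.ne M
  have : (M : ℂ) * (2 * (Real.pi : ℂ) * Complex.I / M) = 2 * Real.pi * Complex.I := by
    field_simp
  rw [this, Complex.exp_two_pi_mul_I]

/-- The constant part of the coefficients `wpCoeffL`. -/
def wpConst (ζ : K) (b : Fin 2 → ℤ) : K :=
  (1 / 12 : K) + (if (M : ℤ) ∣ b 0 then ζ ^ (b 1) / (1 - ζ ^ (b 1)) ^ 2 else 0)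

/-- The integral part of the coefficients `wpCoeffL`. -/
def wpInt (ζ : K) (b : Fin 2 → ℤ) (N : ℕ) : K :=
  (∑ x ∈ N.divisorsAntidiagonal, (x.2 : K) *
    ((if (M : ℤ) ∣ (x.1 : ℤ) - b 0 then (ζ ^ (b 1)) ^ x.2 else 0) +
     (if (M : ℤ) ∣ (x.1 : ℤ) + b 0 then (ζ ^ (b 1))⁻¹ ^ x.2 else 0))) -
  (if M ∣ N then 2 * ((σ 1 (N / M) : ℕ) : K) else 0)

theorem wpCoeffL_eq (ζ : K) (b : Fin 2 → ℤ) (N : ℕ) :
    wpCoeffL M ζ b N = (if N = 0 then wpConst M ζ b else 0) + wpInt M ζ b N := by
  unfold wpCoeffL wpConst wpInt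
  ring

theorem wpInt_mem {ζ : K} (hζ : ζ ^ M = 1) (b : Fin 2 → ℤ) (N : ℕ) : wpInt M ζ b N ∈ O := by
  have hMpos : 0 < M := Nat.pos_of_ne_zero (NeZero.ne M)
  have hz : ∀ k : ℤ, ζ ^ k ∈ O := zpow_mem_of_pow_eq_one O hMpos hζ
  have hnat : ∀ n : ℕ, (n : K) ∈ O := fun n => natCast_mem O n
  unfold wpInt
  refine sub_mem (sum_mem fun x _ => mul_mem (hnat _) (add_mem ?_ ?_)) ?_
  · split_ifs
    · exact pow_mem (hz _) _
    · exact zero_mem O
  · split_ifs
    · rw [← _root_.zpow_neg]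
      exact pow_mem (hz _) _
    · exact zero_mem O
  · split_ifs
    · exact mul_mem (by exact_mod_cast hnat 2) (hnat _)
    · exact zero_mem O

theorem qExpFr_PbN {ζ : K} (hζ : ι ζ = zetaC M) {b : Fin 2 → ℤ}
    (hb : ¬ ((M : ℤ) ∣ b 0 ∧ (M : ℤ) ∣ b 1)) : QExpFr O ι M (PbN M b) := by
  refine ⟨0, PowerSeries.mk (wpCoeffL M ζ b), ?_, ?_⟩
  · have h := isQExp_PbN M hb
    have e : (PowerSeries.mk (wpCoeffL M ζ b)).map ι = wpSeries M b := by
      ext n
      rw [PowerSeries.coeff_map, PowerSeries.coeff_mk, wpSeries, PowerSeries.coeff_mk,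
        map_wpCoeffL ι M hζ]
    rw [e]
    exact h
  · have e : PowerSeries.mk (wpCoeffL M ζ b)
        = PowerSeries.C (wpConst M ζ b) + PowerSeries.mk (wpInt M ζ b) := by
      ext n
      rw [PowerSeries.coeff_mk, map_add, PowerSeries.coeff_C, PowerSeries.coeff_mk, wpCoeffL_eq]
    rw [e, laurentOf_add]
    exact add_mem (laurentOf_C_mem_fracField O _)
      (laurentOf_mem_fracField_of_coeff_mem O 0 _ fun n => by
        rw [PowerSeries.coeff_mk]
        exact wpInt_mem O M (zeta_pow_eq_one ι M hζ) b n)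

theorem affQ_int_coeff_mem {ζ : K} (hζ : ζ ^ M = 1) (P : PowerSeries ℤ) (m s : ℕ) (B : ℤ)
    (e : ℕ) (n : ℕ) :
    PowerSeries.coeff n (affQ (P.map (Int.castRingHom K)) m s B (ζ ^ e)) ∈ O := by
  have hMpos : 0 < M := Nat.pos_of_ne_zero (NeZero.ne M)
  rw [coeff_affQ]
  split_ifs
  · refine mul_mem ?_ ?_
    · rw [PowerSeries.coeff_map]
      exact intCast_mem O _
    · rw [← zpow_natCast, ← _root_.zpow_mul]
      exact zpow_mem_of_pow_eq_one O hMpos hζ _
  · exact zero_mem O

theorem qExpFr_wm2_aff {ζ : K} (hζ : ι ζ = zetaC M) {A D : ℕ} (B : ℤ) (hA : 0 < A) (hD : 0 < D)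
    (hDM : D ∣ M) : QExpFr O ι M (fun z => wm2 (affH A D B hA hD z)) := by
  have h := isQExp_affine (N := M) isQExp_wm2 B hA hD hDM
  refine ⟨1 * (A * (M / D)),
    affQ (wm2Z.map (Int.castRingHom K)) 1 (A * (M / D)) B (ζ ^ (M / D)), ?_, ?_⟩
  · rw [affQ_map, map_pow, hζ, zetaC_pow_div M hD hDM]
    have e : (wm2Z.map (Int.castRingHom K)).map ι = wm2Z.map (Int.castRingHom ℂ) := by
      ext n
      simp [PowerSeries.coeff_map]
    rw [e]
    exact h
  · exact laurentOf_mem_fracField_of_coeff_mem O _ _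
      (affQ_int_coeff_mem O M (zeta_pow_eq_one ι M hζ) wm2Z _ _ _ _)

end Base

/-! ### The generators of `L1 M` at all cusps -/

section Main

variable {K : Type} [Field K] (O : ValuationSubring K) (ι : K →+* ℂ) (M : ℕ) [NeZero M]

/-- **Expansions of `g_{a,b}` at all cusps lie in `Frac (O((Q)))`.** -/
theorem qExpFr_compSL_gABfun {ζ : K} (hζ : ι ζ = zetaC M) {a b : ℤ} (ha : ¬ (M : ℤ) ∣ a)
    (hb : ¬ (M : ℤ) ∣ b) (γ : SL(2, ℤ)) : QExpFr O ι M (compSL (gABfun M a b) γ) := by
  have hMpos : 0 < M := Nat.pos_of_ne_zero (NeZero.ne M)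
  obtain ⟨γ', A, D, B, hAD, hA, hD, -, -, h1, h2, h3, h4⟩ := exists_hermite γ hMpos
  have hDM : D ∣ M := Dvd.intro_left A hAD
  have hfun : compSL (gABfun M a b) γ = ι ((D : K) ^ 2 / (M : K) ^ 2) •
      ((fun z => wm2 (affH A D B hA hD z)) *
        ∑ k : Fin M, (PbN M (![a, -((k : ℕ) : ℤ)] ᵥ* (γ : Matrix (Fin 2) (Fin 2) ℤ)) -
          PbN M (![b, -((k : ℕ) : ℤ)] ᵥ* (γ : Matrix (Fin 2) (Fin 2) ℤ)))) := by
    funext τ
    show gABfun M a b (γ • τ) = _
    rw [gABfun_smul_hermite M hA hD h1 h2 h3 h4 a b τ]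
    simp only [Pi.smul_apply, Pi.mul_apply, Finset.sum_apply, Pi.sub_apply, smul_eq_mul,
      map_div₀, map_pow, map_natCast]
  rw [hfun]
  refine QExpFr.smul (QExpFr.mul (qExpFr_wm2_aff O ι M hζ B hA hD hDM) (QExpFr.sum _ ?_)) _
  intro k _
  exact (qExpFr_PbN O ι M hζ (not_dvd_vecMul M γ (not_dvd_pair' M ha _))).sub
    (qExpFr_PbN O ι M hζ (not_dvd_vecMul M γ (not_dvd_pair' M hb _)))

/-- **Expansions of `j(d ·)`, `d ∣ M`, at all cusps lie in `Frac (O((Q)))`.** -/
theorem qExpFr_compSL_jdFun {ζ : K} (hζ : ι ζ = zetaC M) (d : ℕ) [NeZero d] (hd : d ∣ M)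
    (γ : SL(2, ℤ)) : QExpFr O ι M (compSL (jdFun d) γ) := by
  obtain ⟨a, e, b, ha, he, hae, -, -, -, hfun⟩ := exists_compSL_jdFun γ d
  have heM : e ∣ M := (Dvd.intro_left a hae).trans hd
  have h := isQExp_affine (N := M) isQExp_jFun_Q b ha he heM
  refine ⟨1 * (a * (M / e)),
    affQ (ModularCurve.jNum.map (Int.castRingHom K)) 1 (a * (M / e)) b (ζ ^ (M / e)), ?_, ?_⟩
  · rw [hfun, affQ_map, map_pow, hζ, zetaC_pow_div M he heM]
    have e1 : (ModularCurve.jNum.map (Int.castRingHom K)).map ι =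
        ModularCurve.jNumQ.map (algebraMap ℚ ℂ) := by
      ext n
      simp [PowerSeries.coeff_map, ModularCurve.jNumQ]
    rw [e1]
    exact h
  · exact laurentOf_mem_fracField_of_coeff_mem O _ _
      (affQ_int_coeff_mem O M (zeta_pow_eq_one ι M hζ) ModularCurve.jNum _ _ _ _)

end Main

/-! ### All cusp expansions of the function field lie in `Frac (O((Q)))` -/

section Generic

open Fermat.Agent.DS.G.Level Fermat.Agent.DS.G.X0

variable {K : Type} [Field K] [Algebra ℚ K] (O : ValuationSubring K) {ι : K →+* ℂ}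
  {L : LevelData} [IsFractionRing (Rsubc L K) (FFc L K)]
  {D : RealizeDataL L K ι} (C : CuspDataL L K ι D)

/-- **Generic criterion**: if the cusp expansions of the generators lie in `fracField O`, so do the
cusp expansions of every element of `R = K[generators]`. -/
theorem T_mem_fracField_of_mem_Rsub
    (hgen : ∀ (g : L.gensQ) (γ : SL(2, ℤ)), QExpFr O ι L.w (compSL (D.Θ (genR L K g)) γ))
    (γ : SL(2, ℤ)) (u : Rsubc L K) : C.T γ (u : FFc L K) ∈ fracField O := by
  induction u using Rsubc_induction with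
  | hgen g =>
      obtain ⟨m, P, hP, hm⟩ := hgen g γ
      rw [CuspEquiv.T_eq_of_isQExp C γ (genR L K g) hP]
      exact hm
  | hconst c =>
      have h1 : ((algebraMap K (Rsubc L K) c : Rsubc L K) : FFc L K)
          = algebraMap K (FFc L K) c := rfl
      rw [h1, IntegralityLc.intg_T_algebraMap ι.injective L D C γ c]
      exact (fracField O).algebraMap_mem c
  | hadd u v hu hv =>
      have h1 : ((u + v : Rsubc L K) : FFc L K) = (u : FFc L K) + (v : FFc L K) := rfl
      rw [h1, map_add]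
      exact add_mem hu hv
  | hmul u v hu hv =>
      have h1 : ((u * v : Rsubc L K) : FFc L K) = (u : FFc L K) * (v : FFc L K) := rfl
      rw [h1, map_mul]
      exact mul_mem hu hv

/-- **Generic criterion**: if the cusp expansions of the generators lie in `fracField O`, so do
ALL cusp expansions `C.T γ f`, `f ∈ FFc L K`. -/
theorem T_mem_fracField
    (hgen : ∀ (g : L.gensQ) (γ : SL(2, ℤ)), QExpFr O ι L.w (compSL (D.Θ (genR L K g)) γ))
    (γ : SL(2, ℤ)) (f : FFc L K) : C.T γ f ∈ fracField O := by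
  obtain ⟨r, s, rfl⟩ := CuspEquiv.exists_div (L := L) (Lc := K) f
  rw [map_div₀]
  exact div_mem (T_mem_fracField_of_mem_Rsub O C hgen γ r)
    (T_mem_fracField_of_mem_Rsub O C hgen γ s)

end Generic

/-! ### The instance `L1 M` -/

section Inst

open Fermat.Agent.DS.G.Level Fermat.Agent.DS.G.X0 Fermat.Agent.DS.X1.Level1
  Fermat.Agent.DS.X1.AnalyticGens13 Fermat.Agent.DS.X1.Inst13

variable (M : ℕ) [NeZero M] {K : Type} [Field K] [Algebra ℚ K] (O : ValuationSubring K)
  (ι : K →+* ℂ) (hι : Function.Injective ι) (ζ : K) (hζ : ι ζ = zetaC M)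

include hζ in
/-- The per-generator statement for `L1 M`. -/
theorem qExpFr_compSL_gFun (g : (L1 M).gensQ) (γ : SL(2, ℤ)) :
    QExpFr O ι M (compSL (gFun M g) γ) := by
  refine gensQ_cases M (p := fun g => QExpFr O ι M (compSL (gFun M g) γ)) ?_ ?_ g
  · intro d _ h
    rw [gFun_jGenD]
    exact qExpFr_compSL_jdFun O ι M hζ d h γ
  · intro a b ha hb
    rw [gFun_gGenAB]
    exact qExpFr_compSL_gABfun O ι M hζ (not_dvd_val M ha) (not_dvd_val M hb) γ

/-- **`ι_mem` for `±Γ₁(M)`**: every cusp expansion of every element of the function field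
`FFc (L1 M) K` lies in `Frac (O((Q)))`, for every valuation subring `O` of `K`. -/
theorem cuspData1_T_mem_fracField (γ : SL(2, ℤ)) (f : FFc (L1 M) K) :
    (cuspData1 M K ι hι ζ hζ).T γ f ∈ fracField O := by
  refine T_mem_fracField O (cuspData1 M K ι hι ζ hζ) (fun g γ => ?_) γ f
  rw [realizeData1_genR]
  exact qExpFr_compSL_gFun M O ι ζ hζ g γ

/-- The same for ANY cusp datum over the realisation `realizeData1` (e.g. one obtained by another
construction). -/
theorem T_mem_fracField1 (C : CuspDataL (L1 M) K ι (realizeData1 M K ι hι ζ hζ))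
    (γ : SL(2, ℤ)) (f : FFc (L1 M) K) : C.T γ f ∈ fracField O := by
  refine T_mem_fracField O C (fun g γ => ?_) γ f
  rw [realizeData1_genR]
  exact qExpFr_compSL_gFun M O ι ζ hζ g γ

end Inst

end Fermat.Agent.DS.X1.GabCuspFrac27
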