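/-
Programme DS (S48), chapter X1 / G-RED-C (helper29): **integrality and rationality of the cusp
expansions of the generators of `L1 M = ±Γ₁(M)` at ALL cusps.**

For a field `K` with `ι : K →+* ℂ`, `ζ : K`, `ι ζ = e^{2πi/M}`, and ANY subring `S ≤ K` with
`ζ ∈ S`, `1/M ∈ S`: for every generator `g` of `L1 M` and every `γ ∈ SL(2,ℤ)` the function
`gFun g ∘ γ` has a `q_M`-expansion `q^{-m} P` with ALL coefficients of `P` in `S`
(`cusp1S`).  Refinement of `GabCusp.exists_isQExp_compSL_gABfun / _jdFun_in` (helper27), tracking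
the coefficients: the constants `1/12` cancel in `P_b - P_{b'}`, `(1 - ζ^k)⁻¹ = Ψ(ζ^k)/M`
(`inv_one_sub_mem`), and the factor `D²/M²` of the Hermite substitution needs `1/M`.

Consequences (uniqueness of `q`-expansions, `CuspEquiv.T_eq_of_isQExp`):
* `T_genc_coeff_mem` : generic in `(L, D, C)`: the coefficients of `C.T γ (genc g)` lie in `S`;
* `cuspData1_T_genc_coeff_mem` : the instance for `Inst13.cuspData1`;
* over `ℚbar`: `S1 M = ℤ[ζ_M, 1/M]`, `cuspDataK1_T_genc_coeff_mem`, `S1_le_of_mem` (`≤ K` for a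
  subfield containing `ζ_M`), `S1_le_valuationSubring` (`≤ A` for a valuation subring with
  `1/M ∈ A`).
-/
import Mathlib
import Fermat.Agent.DS.X1.GabCuspFrac27
import Fermat.Agent.IG.AN.DeltaAffine11

set_option autoImplicit false
set_option linter.unusedSectionVars false

noncomputable section

namespace Fermat.Agent.DS.X1.CuspInt29

open Fermat.Agent.X0 Fermat.Agent.X0.Hermite Fermat.Agent.X0.QExpAffine
open UpperHalfPlane hiding I
open Complex Filter Topology MatrixGroups Matrix CongruenceSubgroup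
open Fermat.Agent.DS.Eis1.WPExp Fermat.Agent.DS.Eis1.WPTors Fermat.Agent.DS.Eis1.WPE6
open Fermat.Agent.DS.Eis1.WPFricke Fermat.Agent.DS.Eis1.WPIsog
open Fermat.Agent.DS.X1.GabFun Fermat.Agent.DS.X1.GabCusp Fermat.Agent.DS.X1.GabCuspFrac27
open scoped ArithmeticFunction.sigma

/-! ### power series with coefficients in a subring -/

section CoeffsIn

variable {K : Type*} [Field K] (S : Subring K)

/-- The power series over `K` with all coefficients in `S`. -/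
def coeffsIn : Subring (PowerSeries K) := (PowerSeries.map S.subtype).range

theorem mem_coeffsIn_iff {P : PowerSeries K} :
    P ∈ coeffsIn S ↔ ∀ n, PowerSeries.coeff n P ∈ S := by
  constructor
  · rintro ⟨Q, rfl⟩ n
    rw [PowerSeries.coeff_map]
    exact (PowerSeries.coeff n Q).2
  · intro h
    refine ⟨PowerSeries.mk fun n => ⟨PowerSeries.coeff n P, h n⟩, ?_⟩
    ext n
    rw [PowerSeries.coeff_map, PowerSeries.coeff_mk]
    rfl

theorem X_mem_coeffsIn : (PowerSeries.X : PowerSeries K) ∈ coeffsIn S :=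
  ⟨PowerSeries.X, PowerSeries.map_X _⟩

theorem C_mem_coeffsIn {c : K} (hc : c ∈ S) : PowerSeries.C c ∈ coeffsIn S :=
  ⟨PowerSeries.C ⟨c, hc⟩, by rw [PowerSeries.map_C]; rfl⟩

/-- Roots of unity: all integer powers lie in `S`. -/
theorem zpow_mem {ζ : K} (hζS : ζ ∈ S) {n : ℕ} (hn : 0 < n) (h : ζ ^ n = 1) (k : ℤ) :
    ζ ^ k ∈ S :=
  Fermat.Agent.IG.AN.DeltaAffine11.zpow_mem_of_pow_eq_one S hζS hn h k

/-- **`(1 - x)⁻¹ ∈ ℤ[x, 1/n]`** for an `n`-th root of unity `x ≠ 1` (`n ≠ 0` in `K`):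
`n = (1 - x) · ∑_{i<n} ∑_{j<i} x^j`. -/
theorem inv_one_sub_mem {x : K} (hxS : x ∈ S) {n : ℕ} (hn0 : (n : K) ≠ 0) (hnS : (n : K)⁻¹ ∈ S)
    (hx : x ^ n = 1) (hx1 : x ≠ 1) : (1 - x)⁻¹ ∈ S := by
  have h1x : (1 : K) - x ≠ 0 := sub_ne_zero.mpr (Ne.symm hx1)
  have hgeom : ∑ i ∈ Finset.range n, x ^ i = 0 := by
    have h := geom_sum_mul x n
    rw [hx, sub_self] at h
    rcases mul_eq_zero.mp h with h | h
    · exact h
    · exact absurd (sub_eq_zero.mp h) hx1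
  set Ψ : K := ∑ i ∈ Finset.range n, ∑ j ∈ Finset.range i, x ^ j with hΨ
  have hΨS : Ψ ∈ S := Subring.sum_mem _ fun i _ => Subring.sum_mem _ fun j _ => S.pow_mem hxS j
  have hkey : (1 - x) * Ψ = (n : K) := by
    have h2 : ∀ i : ℕ, (1 - x) * ∑ j ∈ Finset.range i, x ^ j = 1 - x ^ i := fun i => by
      have := geom_sum_mul x i
      linear_combination -this
    rw [hΨ, Finset.mul_sum]
    simp_rw [h2]
    rw [Finset.sum_sub_distrib, hgeom, sub_zero]
    simp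
  have hΨ0 : Ψ ≠ 0 := by
    intro h
    rw [h, mul_zero] at hkey
    exact hn0 hkey.symm
  have : (1 - x)⁻¹ = Ψ * (n : K)⁻¹ := by
    rw [← hkey, mul_inv, mul_comm (1 - x)⁻¹, ← mul_assoc, mul_inv_cancel₀ hΨ0, one_mul]
  rw [this]
  exact S.mul_mem hΨS hnS

end CoeffsIn

/-! ### `q_h`-expansions with coefficients in `S` -/

section QExpS

variable {K : Type*} [Field K] (S : Subring K) (ι : K →+* ℂ)

/-- `f` has a `q_h`-expansion `q^{-m} P` over `K` with all coefficients of `P` in `S`. -/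
def QExpS (h : ℕ) (f : ℍ → ℂ) : Prop :=
  ∃ (m : ℕ) (P : PowerSeries K), IsQExp h f m (P.map ι) ∧ P ∈ coeffsIn S

variable {S ι} {h : ℕ} [NeZero h] {f g : ℍ → ℂ}

theorem QExpS.qExpIn (hf : QExpS S ι h f) : QExpIn ι h f := by
  obtain ⟨m, P, hP, -⟩ := hf
  exact ⟨m, P, hP⟩

theorem QExpS.add (hf : QExpS S ι h f) (hg : QExpS S ι h g) : QExpS S ι h (f + g) := by
  obtain ⟨m, P, hP, hPS⟩ := hf
  obtain ⟨m', Q, hQ, hQS⟩ := hg
  refine ⟨m + m', PowerSeries.X ^ m' * P + PowerSeries.X ^ m * Q, ?_, ?_⟩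
  · have := hP.add hQ
    simpa [map_add, map_mul, map_pow, PowerSeries.map_X] using this
  · exact add_mem (mul_mem (pow_mem (X_mem_coeffsIn S) _) hPS)
      (mul_mem (pow_mem (X_mem_coeffsIn S) _) hQS)

theorem QExpS.mul (hf : QExpS S ι h f) (hg : QExpS S ι h g) : QExpS S ι h (f * g) := by
  obtain ⟨m, P, hP, hPS⟩ := hf
  obtain ⟨m', Q, hQ, hQS⟩ := hg
  refine ⟨m + m', P * Q, ?_, mul_mem hPS hQS⟩
  have := hP.mul hQ
  simpa [map_mul] using this

theorem QExpS.smul (hf : QExpS S ι h f) {c : K} (hc : c ∈ S) : QExpS S ι h (ι c • f) := by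
  obtain ⟨m, P, hP, hPS⟩ := hf
  refine ⟨m, PowerSeries.C c * P, ?_, mul_mem (C_mem_coeffsIn S hc) hPS⟩
  have := hP.smul (ι c)
  have e : (PowerSeries.C c * P).map ι = ι c • P.map ι := by
    ext n
    simp [PowerSeries.coeff_map, PowerSeries.coeff_C_mul]
  rw [e]
  exact this

theorem QExpS.neg (hf : QExpS S ι h f) : QExpS S ι h (-f) := by
  obtain ⟨m, P, hP, hPS⟩ := hf
  refine ⟨m, -P, ?_, neg_mem hPS⟩
  have := hP.neg
  simpa [map_neg] using this

theorem QExpS.sub (hf : QExpS S ι h f) (hg : QExpS S ι h g) : QExpS S ι h (f - g) := by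
  rw [sub_eq_add_neg]
  exact hf.add hg.neg

theorem QExpS.zero : QExpS S ι h (0 : ℍ → ℂ) :=
  ⟨0, 0, by simpa using isQExp_zero h 0, zero_mem _⟩

theorem QExpS.sum {α : Type*} (s : Finset α) {F : α → ℍ → ℂ}
    (hF : ∀ i ∈ s, QExpS S ι h (F i)) : QExpS S ι h (∑ i ∈ s, F i) := by
  classical
  induction s using Finset.induction_on with
  | empty => simpa using (QExpS.zero (S := S) (ι := ι) (h := h))
  | insert i s hi ih =>
    rw [Finset.sum_insert hi]
    exact (hF i (Finset.mem_insert_self i s)).add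
      (ih fun j hj => hF j (Finset.mem_insert_of_mem hj))

end QExpS

/-! ### The base cases -/

section Base

variable {K : Type} [Field K] (S : Subring K) (ι : K →+* ℂ) (M : ℕ) [NeZero M]

include ι in
theorem natCast_ne_zero_of_hom (n : ℕ) (hn : n ≠ 0) : (n : K) ≠ 0 := by
  intro h
  have h1 : ι (n : K) = 0 := by rw [h, map_zero]
  rw [map_natCast] at h1
  exact hn (by exact_mod_cast h1)

/-- The non-rational part of the constant term of `wpCoeffL`. -/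
def wpConst' (ζ : K) (b : Fin 2 → ℤ) : K :=
  if (M : ℤ) ∣ b 0 then ζ ^ (b 1) / (1 - ζ ^ (b 1)) ^ 2 else 0

theorem wpConst_eq (ζ : K) (b : Fin 2 → ℤ) : wpConst M ζ b = 1 / 12 + wpConst' M ζ b := rfl

theorem wpInt_mem' {ζ : K} (hζS : ζ ∈ S) (hζ : ζ ^ M = 1) (b : Fin 2 → ℤ) (N : ℕ) :
    wpInt M ζ b N ∈ S := by
  have hMpos : 0 < M := Nat.pos_of_ne_zero (NeZero.ne M)
  have hz : ∀ k : ℤ, ζ ^ k ∈ S := zpow_mem S hζS hMpos hζ
  have hnat : ∀ n : ℕ, (n : K) ∈ S := fun n => natCast_mem S n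
  unfold wpInt
  refine sub_mem (sum_mem fun x _ => mul_mem (hnat _) (add_mem ?_ ?_)) ?_
  · split_ifs
    · exact pow_mem (hz _) _
    · exact zero_mem S
  · split_ifs
    · rw [← _root_.zpow_neg]
      exact pow_mem (hz _) _
    · exact zero_mem S
  · split_ifs
    · exact mul_mem (by exact_mod_cast hnat 2) (hnat _)
    · exact zero_mem S

theorem wpConst'_mem {ζ : K} (hζ : ι ζ = zetaC M) (hζS : ζ ∈ S) (hMS : (M : K)⁻¹ ∈ S)
    {b : Fin 2 → ℤ} (hb : ¬ ((M : ℤ) ∣ b 0 ∧ (M : ℤ) ∣ b 1)) : wpConst' M ζ b ∈ S := by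
  have hMpos : 0 < M := Nat.pos_of_ne_zero (NeZero.ne M)
  have hζM : ζ ^ M = 1 := zeta_pow_eq_one ι M hζ
  unfold wpConst'
  split_ifs with h0
  · have hb1 : ¬ (M : ℤ) ∣ b 1 := fun h => hb ⟨h0, h⟩
    have hx1 : ζ ^ (b 1) ≠ 1 := by
      intro h
      apply hb1
      have hprim : IsPrimitiveRoot (zetaC M) M := Complex.isPrimitiveRoot_exp M (NeZero.ne M)
      rw [← hprim.zpow_eq_one_iff_dvd, ← hζ, ← map_zpow₀, h, map_one]
    have hxS : ζ ^ (b 1) ∈ S := zpow_mem S hζS hMpos hζM _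
    have hxM : (ζ ^ (b 1)) ^ M = 1 := by
      rw [← zpow_natCast, ← _root_.zpow_mul, mul_comm, _root_.zpow_mul, zpow_natCast, hζM,
        _root_.one_zpow]
    have hinv := inv_one_sub_mem S hxS (natCast_ne_zero_of_hom ι M (NeZero.ne M)) hMS hxM hx1
    rw [div_eq_mul_inv, ← inv_pow]
    exact S.mul_mem hxS (S.pow_mem hinv 2)
  · exact S.zero_mem

/-- **`P_b - P_{b'}` has `q_M`-coefficients in `S`** (the constants `1/12` cancel). -/
theorem qExpS_PbN_sub {ζ : K} (hζ : ι ζ = zetaC M) (hζS : ζ ∈ S) (hMS : (M : K)⁻¹ ∈ S)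
    {b b' : Fin 2 → ℤ} (hb : ¬ ((M : ℤ) ∣ b 0 ∧ (M : ℤ) ∣ b 1))
    (hb' : ¬ ((M : ℤ) ∣ b' 0 ∧ (M : ℤ) ∣ b' 1)) : QExpS S ι M (PbN M b - PbN M b') := by
  have hζM : ζ ^ M = 1 := zeta_pow_eq_one ι M hζ
  have e : ∀ c : Fin 2 → ℤ, (PowerSeries.mk (wpCoeffL M ζ c)).map ι = wpSeries M c := fun c => by
    ext n
    rw [PowerSeries.coeff_map, PowerSeries.coeff_mk, wpSeries, PowerSeries.coeff_mk,
      map_wpCoeffL ι M hζ]
  refine ⟨0, PowerSeries.mk (wpCoeffL M ζ b) - PowerSeries.mk (wpCoeffL M ζ b'), ?_, ?_⟩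
  · have h1 := isQExp_PbN M hb
    have h2 := (isQExp_PbN M hb').neg
    have h3 := h1.add h2
    rw [map_sub, e, e]
    simpa [sub_eq_add_neg] using h3
  · rw [mem_coeffsIn_iff]
    intro n
    rw [map_sub, PowerSeries.coeff_mk, PowerSeries.coeff_mk, wpCoeffL_eq, wpCoeffL_eq]
    have hrw : (if n = 0 then wpConst M ζ b else 0) + wpInt M ζ b n -
        ((if n = 0 then wpConst M ζ b' else 0) + wpInt M ζ b' n) =
        (if n = 0 then wpConst' M ζ b - wpConst' M ζ b' else 0) +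
          (wpInt M ζ b n - wpInt M ζ b' n) := by
      split_ifs
      · rw [wpConst_eq, wpConst_eq]; ring
      · ring
    rw [hrw]
    refine S.add_mem ?_ (S.sub_mem (wpInt_mem' S M hζS hζM b n) (wpInt_mem' S M hζS hζM b' n))
    split_ifs
    · exact S.sub_mem (wpConst'_mem S ι M hζ hζS hMS hb) (wpConst'_mem S ι M hζ hζS hMS hb')
    · exact S.zero_mem

theorem affQ_int_coeff_mem' {ζ : K} (hζS : ζ ∈ S) (hζ : ζ ^ M = 1) (P : PowerSeries ℤ)
    (m s : ℕ) (B : ℤ) (e : ℕ) (n : ℕ) :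
    PowerSeries.coeff n (affQ (P.map (Int.castRingHom K)) m s B (ζ ^ e)) ∈ S := by
  have hMpos : 0 < M := Nat.pos_of_ne_zero (NeZero.ne M)
  rw [coeff_affQ]
  split_ifs
  · refine S.mul_mem ?_ ?_
    · rw [PowerSeries.coeff_map]
      exact intCast_mem S _
    · rw [← zpow_natCast, ← _root_.zpow_mul]
      exact zpow_mem S hζS hMpos hζ _
  · exact S.zero_mem

theorem qExpS_wm2_aff {ζ : K} (hζ : ι ζ = zetaC M) (hζS : ζ ∈ S) {A D : ℕ} (B : ℤ)
    (hA : 0 < A) (hD : 0 < D) (hDM : D ∣ M) :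
    QExpS S ι M (fun z => wm2 (affH A D B hA hD z)) := by
  have h := isQExp_affine (N := M) isQExp_wm2 B hA hD hDM
  refine ⟨1 * (A * (M / D)),
    affQ (wm2Z.map (Int.castRingHom K)) 1 (A * (M / D)) B (ζ ^ (M / D)), ?_, ?_⟩
  · rw [affQ_map, map_pow, hζ, zetaC_pow_div M hD hDM]
    have e : (wm2Z.map (Int.castRingHom K)).map ι = wm2Z.map (Int.castRingHom ℂ) := by
      ext n
      simp [PowerSeries.coeff_map]
    rw [e]
    exact h
  · rw [mem_coeffsIn_iff]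
    exact affQ_int_coeff_mem' S M hζS (zeta_pow_eq_one ι M hζ) wm2Z _ _ _ _

end Base

/-! ### The generators of `L1 M` at all cusps -/

section Main

variable {K : Type} [Field K] (S : Subring K) (ι : K →+* ℂ) (M : ℕ) [NeZero M]

/-- **Expansions of `g_{a,b}` at all cusps have coefficients in `S ∋ ζ, 1/M`.** -/
theorem qExpS_compSL_gABfun {ζ : K} (hζ : ι ζ = zetaC M) (hζS : ζ ∈ S) (hMS : (M : K)⁻¹ ∈ S)
    {a b : ℤ} (ha : ¬ (M : ℤ) ∣ a) (hb : ¬ (M : ℤ) ∣ b) (γ : SL(2, ℤ)) :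
    QExpS S ι M (compSL (gABfun M a b) γ) := by
  have hMpos : 0 < M := Nat.pos_of_ne_zero (NeZero.ne M)
  obtain ⟨γ', A, D, B, hAD, hA, hD, -, -, h1, h2, h3, h4⟩ := exists_hermite γ hMpos
  have hDM : D ∣ M := Dvd.intro_left A hAD
  have hfun : compSL (gABfun M a b) γ = ι ((D : K) ^ 2 / (M : K) ^ 2) •
      ((fun z => wm2 (affH A D B hA hD z)) *
        ∑ k : Fin M, (PbN M (![a, -((k : ℕ) : ℤ)] ᵥ* (γ : Matrix (Fin 2) (Fin 2) ℤ)) -
          PbN M (![b, -((k : ℕ) : ℤ)] ᵥ* (γ : Matrix (Fin 2) (Fin 2) ℤ)))) := by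
    funext τ
    show gABfun M a b (γ • τ) = _
    rw [gABfun_smul_hermite M hA hD h1 h2 h3 h4 a b τ]
    simp only [Pi.smul_apply, Pi.mul_apply, Finset.sum_apply, Pi.sub_apply, smul_eq_mul,
      map_div₀, map_pow, map_natCast]
  have hc : (D : K) ^ 2 / (M : K) ^ 2 ∈ S := by
    rw [div_eq_mul_inv, ← inv_pow]
    exact S.mul_mem (S.pow_mem (natCast_mem S D) 2) (S.pow_mem hMS 2)
  rw [hfun]
  refine QExpS.smul (QExpS.mul (qExpS_wm2_aff S ι M hζ hζS B hA hD hDM) (QExpS.sum _ ?_)) hc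
  intro k _
  exact qExpS_PbN_sub S ι M hζ hζS hMS (not_dvd_vecMul M γ (not_dvd_pair' M ha _))
    (not_dvd_vecMul M γ (not_dvd_pair' M hb _))

/-- **Expansions of `j(d ·)`, `d ∣ M`, at all cusps have coefficients in `S ∋ ζ`.** -/
theorem qExpS_compSL_jdFun {ζ : K} (hζ : ι ζ = zetaC M) (hζS : ζ ∈ S) (d : ℕ) [NeZero d]
    (hd : d ∣ M) (γ : SL(2, ℤ)) : QExpS S ι M (compSL (jdFun d) γ) := by
  obtain ⟨a, e, b, ha, he, hae, -, -, -, hfun⟩ := exists_compSL_jdFun γ d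
  have heM : e ∣ M := (Dvd.intro_left a hae).trans hd
  have h := isQExp_affine (N := M) isQExp_jFun_Q b ha he heM
  refine ⟨1 * (a * (M / e)),
    affQ (ModularCurve.jNum.map (Int.castRingHom K)) 1 (a * (M / e)) b (ζ ^ (M / e)), ?_, ?_⟩
  · rw [hfun, affQ_map, map_pow, hζ, zetaC_pow_div M he heM]
    have e1 : (ModularCurve.jNum.map (Int.castRingHom K)).map ι =
        ModularCurve.jNumQ.map (algebraMap ℚ ℂ) := by
      ext n
      simp [PowerSeries.coeff_map, ModularCurve.jNumQ]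
    rw [e1]
    exact h
  · rw [mem_coeffsIn_iff]
    exact affQ_int_coeff_mem' S M hζS (zeta_pow_eq_one ι M hζ) ModularCurve.jNum _ _ _ _

end Main

/-! ### The coefficients of the cusp expansions of the generators -/

section Generic

open Fermat.Agent.DS.G.Level Fermat.Agent.DS.G.X0

variable {K : Type} [Field K] [Algebra ℚ K] (S : Subring K) {ι : K →+* ℂ}
  {L : LevelData} {D : RealizeDataL L K ι} (C : CuspDataL L K ι D)

/-- **Generic criterion**: if `Θ g ∘ γ` has a `q_w`-expansion with coefficients in `S` for every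
generator `g`, then all coefficients of the cusp expansions `C.T γ (genc g)` lie in `S`. -/
theorem T_genc_coeff_mem
    (hgen : ∀ (g : L.gensQ) (γ : SL(2, ℤ)), QExpS S ι L.w (compSL (D.Θ (genR L K g)) γ))
    (γ : SL(2, ℤ)) (g : L.gensQ) (n : ℤ) : (C.T γ (genc L K g)).coeff n ∈ S := by
  obtain ⟨m, P, hP, hPS⟩ := hgen g γ
  have h := CuspEquiv.T_eq_of_isQExp C γ (genR L K g) hP
  rw [coe_genR] at h
  rw [h]
  exact Fermat.Agent.IG.AN.DeltaAffine11.coeff_laurentOf_mem S m ((mem_coeffsIn_iff S).mp hPS) n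

end Generic

/-! ### The instance `L1 M` -/

section Inst

open Fermat.Agent.DS.G.Level Fermat.Agent.DS.G.X0 Fermat.Agent.DS.X1.Level1
  Fermat.Agent.DS.X1.AnalyticGens13 Fermat.Agent.DS.X1.Inst13

variable (M : ℕ) [NeZero M] {K : Type} [Field K] [Algebra ℚ K] (S : Subring K)
  (ι : K →+* ℂ) (hι : Function.Injective ι) (ζ : K) (hζ : ι ζ = zetaC M)

include hζ in
/-- The per-generator statement for `L1 M`. -/
theorem qExpS_compSL_gFun (hζS : ζ ∈ S) (hMS : (M : K)⁻¹ ∈ S) (g : (L1 M).gensQ)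
    (γ : SL(2, ℤ)) : QExpS S ι M (compSL (gFun M g) γ) := by
  refine gensQ_cases M (p := fun g => QExpS S ι M (compSL (gFun M g) γ)) ?_ ?_ g
  · intro d _ h
    rw [gFun_jGenD]
    exact qExpS_compSL_jdFun S ι M hζ hζS d h γ
  · intro a b ha hb
    rw [gFun_gGenAB]
    exact qExpS_compSL_gABfun S ι M hζ hζS hMS (not_dvd_val M ha) (not_dvd_val M hb) γ

/-- **Cusp expansions of the generators of `±Γ₁(M)` have coefficients in `S ∋ ζ_M, 1/M`.** -/
theorem cuspData1_T_genc_coeff_mem (hζS : ζ ∈ S) (hMS : (M : K)⁻¹ ∈ S) (γ : SL(2, ℤ))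
    (g : (L1 M).gensQ) (n : ℤ) :
    ((cuspData1 M K ι hι ζ hζ).T γ (genc (L1 M) K g)).coeff n ∈ S := by
  refine T_genc_coeff_mem S (cuspData1 M K ι hι ζ hζ) (fun g γ => ?_) γ g n
  rw [realizeData1_genR]
  exact qExpS_compSL_gFun M S ι ζ hζ hζS hMS g γ

/-- The same for ANY cusp datum over the realisation `realizeData1`. -/
theorem T_genc_coeff_mem1 (C : CuspDataL (L1 M) K ι (realizeData1 M K ι hι ζ hζ))
    (hζS : ζ ∈ S) (hMS : (M : K)⁻¹ ∈ S) (γ : SL(2, ℤ)) (g : (L1 M).gensQ) (n : ℤ) :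
    (C.T γ (genc (L1 M) K g)).coeff n ∈ S := by
  refine T_genc_coeff_mem S C (fun g γ => ?_) γ g n
  rw [realizeData1_genR]
  exact qExpS_compSL_gFun M S ι ζ hζ hζS hMS g γ

end Inst

/-! ### Over `ℚbar` -/

section Kbar

open Fermat.Agent.DS.G.Level Fermat.Agent.DS.X1.Level1 Fermat.Agent.DS.X1.Inst13

variable (M : ℕ) [NeZero M]

/-- `ℤ[ζ_M, 1/M] ⊂ ℚbar`. -/
def S1 : Subring Kbar := Subring.closure {zetaK1 M, ((M : Kbar))⁻¹}

theorem zetaK1_mem_S1 : zetaK1 M ∈ S1 M := Subring.subset_closure (Or.inl rfl)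

theorem inv_mem_S1 : ((M : Kbar))⁻¹ ∈ S1 M := Subring.subset_closure (Or.inr rfl)

/-- **All coefficients of all cusp expansions of the generators of `L1 M` over `ℚbar` lie in
`ℤ[ζ_M, 1/M]`.** -/
theorem cuspDataK1_T_genc_coeff_mem (γ : SL(2, ℤ)) (g : (L1 M).gensQ) (n : ℤ) :
    ((cuspDataK1 M).T γ (genc (L1 M) Kbar g)).coeff n ∈ S1 M :=
  cuspData1_T_genc_coeff_mem M (S1 M) iotaK iotaK_injective (zetaK1 M) (iotaK_zetaK1 M)
    (zetaK1_mem_S1 M) (inv_mem_S1 M) γ g n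

theorem zetaK1_pow : zetaK1 M ^ M = 1 := zeta_pow_eq_one iotaK M (iotaK_zetaK1 M)

/-- `ℤ[ζ_M, 1/M] ≤ 𝔽` for every subfield `𝔽 ∋ ζ_M`. -/
theorem S1_le_of_mem (𝔽 : Subfield Kbar) (hζ : zetaK1 M ∈ 𝔽) : S1 M ≤ 𝔽.toSubring := by
  rw [S1, Subring.closure_le]
  rintro x (rfl | rfl)
  · exact hζ
  · exact 𝔽.inv_mem (natCast_mem 𝔽 M)

/-- `ℤ[ζ_M, 1/M] ≤ A` for every valuation subring `A` of `ℚbar` with `1/M ∈ A`. -/
theorem S1_le_valuationSubring (A : ValuationSubring Kbar) (hM : ((M : Kbar))⁻¹ ∈ A) :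
    S1 M ≤ A.toSubring := by
  rw [S1, Subring.closure_le]
  rintro x (rfl | rfl)
  · exact mem_of_pow_eq_one A (Nat.pos_of_ne_zero (NeZero.ne M)) (zetaK1_pow M)
  · exact hM

end Kbar

end Fermat.Agent.DS.X1.CuspInt29
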