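/-
Programme DS (S48), chapter X1 / G-RED (helper29): **(MODEL) at the level `L1 M = X₁(M)/±`,
UNCONDITIONALLY**:

  `modelStep_L1 : ModelMain4.ModelStep (L1 M).F₀ A`    (`4 ∣ M` or `9 ∣ M`, `p ∤ M`, `A` over `p`).

Assembly of `Hfam29.modelStep_of_level'` (family chain: `CuspFamily29`, `CuspPack29`, `Hfam29` on top
of helper77's `TopAsm77.modelStep_of_level`) at the unconditional model `(D1 M, C1 M)` of
`DS/X1/Model1`, with
* `CuspExp ∧ CuspSeparated` : `CuspExp1.cuspExp_four1 / cuspExp_nine1`;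
* `GaussInputs`             : helper55's `GaussInputsX1.gaussInputs_X1gens`;
* rationality / integrality of the cusp expansions of the generators: `CuspInt29`
  (coefficients in `ℤ[ζ_M, 1/M]`).
-/
import Mathlib
import Fermat.Agent.DS.X1.CuspInt29
import Fermat.Agent.DS.G.RED.CUSP.Hfam29
import Fermat.Agent.DS.G.RED.ModelL1
import Fermat.Agent.DS.G.ES.RED.GaussInputsX1

set_option autoImplicit false
set_option linter.unusedSectionVars false

noncomputable section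

namespace Fermat.Agent.DS.X1.ModelStep29

open Fermat.Agent.X0 (Kbar iotaK iotaK_injective)
open scoped MatrixGroups
open IntermediateField
open Fermat.Agent.RED.Interface4 (Qbar)
open Fermat.Agent.RED.BASE.Hauptmodul12 (BaseHyp baseHyp_four baseHyp_nine)
open Fermat.Agent.RED.BASE.CuspExpMain11 (cvT)
open Fermat.Agent.DS.G.Level Fermat.Agent.DS.X1.Level1 Fermat.Agent.DS.X1.Model1
open Fermat.Agent.DS.X1.CuspExp1 Fermat.Agent.DS.X1.CuspInt29
open Fermat.Agent.DS.G.RED.CUSP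
open Fermat.Agent.DS.G.RED.ModelMain4 Fermat.Agent.DS.G.RED.ModelL1

variable (M : ℕ) [NeZero M]

/-- `ℤ[ζ_M, 1/M] ⊂ ℚbar` (with the root of unity of `DS/X1/Model1`). -/
def SM : Subring Kbar := Subring.closure {zetaK1 M, ((M : Kbar))⁻¹}

theorem zetaK1_mem_SM : zetaK1 M ∈ SM M := Subring.subset_closure (Or.inl rfl)

theorem inv_mem_SM : ((M : Kbar))⁻¹ ∈ SM M := Subring.subset_closure (Or.inr rfl)

theorem zetaK1_pow : zetaK1 M ^ M = 1 :=
  Fermat.Agent.DS.X1.GabCuspFrac27.zeta_pow_eq_one iotaK M (iotaK_zetaK1 M)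

theorem SM_le_of_mem (𝔽 : Subfield Kbar) (hζ : zetaK1 M ∈ 𝔽) : SM M ≤ 𝔽.toSubring := by
  rw [SM, Subring.closure_le]
  rintro x (rfl | rfl)
  · exact hζ
  · exact 𝔽.inv_mem (natCast_mem 𝔽 M)

theorem SM_le_valuationSubring (A : ValuationSubring Kbar) (hM : ((M : Kbar))⁻¹ ∈ A) :
    SM M ≤ A.toSubring := by
  rw [SM, Subring.closure_le]
  rintro x (rfl | rfl)
  · exact Fermat.Agent.DS.X1.GabCuspFrac27.mem_of_pow_eq_one A
      (Nat.pos_of_ne_zero (NeZero.ne M)) (zetaK1_pow M)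
  · exact hM

/-- **All coefficients of all cusp expansions of the generators of `L1 M` (model `C1 M`) lie in
`ℤ[ζ_M, 1/M]`.** -/
theorem C1_T_genc_coeff_mem (γ : SL(2, ℤ)) (g : (L1 M).gensQ) (n : ℤ) :
    ((C1 M).T γ (genc (L1 M) Kbar g)).coeff n ∈ SM M := by
  refine T_genc_coeff_mem (SM M) (C1 M) (fun g γ => ?_) γ g n
  rw [D1_genR]
  exact qExpS_compSL_gFun M (SM M) iotaK (zetaK1 M) (iotaK_zetaK1 M) (zetaK1_mem_SM M)
    (inv_mem_SM M) g γ

/-- the same for the compressed expansions. -/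
theorem C1_Tc_genc_coeff_mem (γ : SL(2, ℤ)) (g : (L1 M).gensQ) (n : ℤ) :
    (CuspExact16.Tc (C1 M) γ (genc (L1 M) Kbar g)).coeff n ∈ SM M := by
  rw [CuspExact16.Tc_coeff]
  exact C1_T_genc_coeff_mem M γ g _

/-- **Rationality** of the cusp expansions of the generators over all number fields `K ∋ ζ_M`. -/
theorem hKrat_L1 : ∃ K₀ : IntermediateField ℚ Qbar, FiniteDimensional ℚ K₀ ∧
    ∀ K : IntermediateField ℚ Qbar, FiniteDimensional ℚ K → K₀ ≤ K →
      ∀ (γ : SL(2, ℤ)) (g : (L1 M).gensQ) (m : ℤ),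
        (CuspExact16.Tc (C1 M) γ (genc (L1 M) Qbar g)).coeff m ∈ K := by
  have hint : IsIntegral ℚ (zetaK1 M) :=
    ((AlgebraicClosure.isAlgebraic ℚ).isAlgebraic (zetaK1 M)).isIntegral
  refine ⟨ℚ⟮zetaK1 M⟯, adjoin.finiteDimensional hint, fun K _ hle γ g m => ?_⟩
  have hζK : zetaK1 M ∈ K := hle (mem_adjoin_simple_self ℚ _)
  exact SM_le_of_mem M K.toSubfield hζK (C1_Tc_genc_coeff_mem M γ g m)

/-- **Integrality** of the cusp expansions of the generators at every `A` with `1/M ∈ A`. -/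
theorem hInt_L1 (A : ValuationSubring Qbar) (hM : ((M : Qbar))⁻¹ ∈ A)
    (γ : SL(2, ℤ)) (g : (L1 M).gensQ) (m : ℤ) :
    (CuspExact16.Tc (C1 M) γ (genc (L1 M) Qbar g)).coeff m ∈ A :=
  SM_le_valuationSubring M A hM (C1_Tc_genc_coeff_mem M γ g m)

variable {p : ℕ} [Fact p.Prime] (A : ValuationSubring Qbar)

/-- **(MODEL) at `L1 M` from `GaussInputs`** (all cusp inputs discharged). -/
theorem modelStep_L1_of_gauss (hM : 4 ∣ M ∨ 9 ∣ M) (hpM : ¬ p ∣ M) (hA : A.LiesOverPrime p)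
    (hG : GaussInputs (L1 M).F₀ A) : ModelStep (L1 M).F₀ A := by
  have hp : p.Prime := Fact.out
  have hw : ¬ p ∣ (L1 M).w := by
    rw [L1_w_eq M, mul_one]
    exact hpM
  have hMA : ((M : Qbar))⁻¹ ∈ A := Fermat.Agent.RED.NumInst4.inv_natCast_mem hp hA M hpM
  rcases hM with hM | hM
  · exact Hfam29.modelStep_of_level' baseHyp_four (L1 M) (D1 M) (C1 M) (distinct1 M)
      (full_le_L1_of_dvd M hM) (cvT 4 8 M) (cuspExp_four1 M hM)
      (fun h => hpM (dvd_trans h hM)) hw hA hG (hKrat_L1 M) (hInt_L1 M A hMA)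
  · exact Hfam29.modelStep_of_level' baseHyp_nine (L1 M) (D1 M) (C1 M) (distinct1 M)
      (full_le_L1_of_dvd M hM) (cvT 9 3 M) (cuspExp_nine1 M hM)
      (fun h => hpM (dvd_trans h hM)) hw hA hG (hKrat_L1 M) (hInt_L1 M A hMA)

/-- **(MODEL) at `L1 M = X₁(M)/±`, UNCONDITIONAL**: `4 ∣ M` or `9 ∣ M`, `p ∤ M`, `A` over `p`. -/
theorem modelStep_L1 (hM : 4 ∣ M ∨ 9 ∣ M) (hpM : ¬ p ∣ M) (hA : A.LiesOverPrime p) :
    ModelStep (L1 M).F₀ A :=
  modelStep_L1_of_gauss M A hM hpM hA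
    (Fermat.Agent.DS.G.ES.RED.GaussInputsX1.gaussInputs_X1gens M p hpM A hA)

end Fermat.Agent.DS.X1.ModelStep29
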