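/-
Programme DS (S48), chapter X1 / G-RED (helper29): **the three smoothness targets of chapter MODEL
at the level `L1 M = X₁(M)/±`, UNCONDITIONALLY**, in helper77's named form
(`DS/G/RED/ModelTargets4.OffTarget / OverTarget / InfTarget`), i.e. the inputs `hoff hover hinf` of
helper52's `ModelOf52.model_of_targets'` (chain B of S48).

* `targets_of_level'` : generic level `L` with a cusp model `(D, C)`: the three targets from
  `GaussInputs` and the rationality / integrality of the cusp expansions of the generators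
  (= the body of `TopAsm77.modelStep_of_level` with `hfamS hfamN := Hfam29.hfamS / hfamN`);
* `targets_L1_of_base`, `targets_L1_four`, `targets_L1_nine` : the instance `(L1 M, D1 M, C1 M)`,
  `cv := cvT n e M`, `p ∤ M`, `A` over `p`: NO other hypothesis.
-/
import Mathlib
import Fermat.Agent.DS.X1.ModelStep29

set_option autoImplicit false
set_option linter.unusedSectionVars false

noncomputable section

namespace Fermat.Agent.DS.X1.Targets29

open Fermat.Agent.X0 (Kbar iotaK iotaK_injective)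
open HahnSeries ModularCurve IntermediateField
open scoped MatrixGroups
open Fermat.Agent.RED.Interface4 (Qbar AK)
open Fermat.Agent.DS.G.Level
open Fermat.Agent.RED.BASE.Hauptmodul12 (BaseHyp baseHyp_four baseHyp_nine)
open Fermat.Agent.RED.BASE.Interface12 (CuspSeparated)
open Fermat.Agent.RED.BASE.CuspExpMain11 (cvT)
open Fermat.Agent.RED.ModelTargets4 (cuspSet JTarget)
open Fermat.Agent.RED.CUSP.CuspIface23
open Fermat.Agent.DS.G.RED.BASE.Interface12
open Fermat.Agent.DS.G.RED.ModelTargets4 Fermat.Agent.DS.G.RED.ModelMain4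
open Fermat.Agent.DS.G.RED.CUSP Fermat.Agent.DS.G.RED.CUSP.CuspExact16
open Fermat.Agent.DS.X1.Level1 Fermat.Agent.DS.X1.Model1 Fermat.Agent.DS.X1.CuspExp1
open Fermat.Agent.DS.X1.ModelStep29 Fermat.Agent.DS.G.RED.ModelL1

variable {n e : ℕ} [NeZero n] {A : ValuationSubring Qbar}

/-- **The three smoothness targets for the level `L`**, from `GaussInputs` and the rationality /
integrality of the cusp expansions of the generators. -/
theorem targets_of_level' (hb : BaseHyp n e) (L : LevelData) (D : RealizeDataK L)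
    (C : CuspDataK L D) (hC : C.Distinct) (hle : modularFunctionFieldFull n ≤ L.F₀)
    (cv : SL(2, ℤ) → Option Kbar) (hcv : CuspExp n e L C cv ∧ CuspSeparated n cv)
    {ℓ : ℕ} [Fact ℓ.Prime] (hℓn : ¬ ℓ ∣ n) (hℓw : ¬ ℓ ∣ L.w) (hA : A.LiesOverPrime ℓ)
    (hG : GaussInputs L.F₀ A)
    (hKrat : ∃ K₀ : IntermediateField ℚ Qbar, FiniteDimensional ℚ K₀ ∧
      ∀ K : IntermediateField ℚ Qbar, FiniteDimensional ℚ K → K₀ ≤ K →
        ∀ (γ : SL(2, ℤ)) (g : L.gensQ) (m : ℤ), (Tc C γ (genc L Qbar g)).coeff m ∈ K)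
    (hInt : ∀ (γ : SL(2, ℤ)) (g : L.gensQ) (m : ℤ), (Tc C γ (genc L Qbar g)).coeff m ∈ A) :
    OffTarget L.F₀ n e A cv ∧ OverTarget L.F₀ n e A cv ∧ InfTarget L.F₀ n e A := by
  have hfamS := Hfam29.hfamS hb L D C hC hle cv hcv hA hℓw hℓn hKrat hInt
  have hfamN := Hfam29.hfamN hb L D C hC hle cv hcv hA hℓw hℓn hKrat hInt
  have hB := Fermat.Agent.DS.G.RED.BASE.Main12.baseExports hb L D C hC hle
  have hI := Fermat.Agent.DS.G.PUR.PlaceInputsOf.placeInputs C hC
  have hT : TTarget L.F₀ n e := tTarget hB.mem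
  have hJ : JTarget n e := Fermat.Agent.RED.ModelFinal4.jTarget hB.genBase
  refine ⟨?_, ?_, ?_⟩
  · exact Fermat.Agent.DS.G.PUR.OffTarget.offTarget_of_gaussInputs hI cv hB.isGen hB.unbranched
      hcv.1 hℓn hA hG hT hJ
  · exact Fermat.Agent.DS.G.RED.CUSP.CuspMain77.overTarget_of_hunr hA hG hT hJ cv hfamS
      (Fermat.Agent.DS.G.RED.CUSP.CuspHoriz4.hH_over hI cv hB.isGen hB.unbranched hcv.1 hcv.2
        hℓn hA)
  · exact Fermat.Agent.DS.G.RED.CUSP.CuspMain77.infTarget_of_hunr hA hG hT hJ hfamN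
      (Fermat.Agent.DS.G.RED.CUSP.CuspHoriz4.hH_inf hI cv hB.isGen hB.unbranched hcv.1 hℓn hA)

variable (M : ℕ) [NeZero M] {p : ℕ} [Fact p.Prime] (A)

/-- **The three targets at `L1 M`** for a base `(n, e)`, `n ∣ M`, given the cusp exports. -/
theorem targets_L1_of_base (hb : BaseHyp n e) (hnM : n ∣ M)
    (hcv : CuspExp n e (L1 M) (C1 M) (cvT n e M) ∧ CuspSeparated n (cvT n e M))
    (hpM : ¬ p ∣ M) (hA : A.LiesOverPrime p) :
    OffTarget (L1 M).F₀ n e A (cvT n e M) ∧ OverTarget (L1 M).F₀ n e A (cvT n e M) ∧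
      InfTarget (L1 M).F₀ n e A := by
  have hp : p.Prime := Fact.out
  have hw : ¬ p ∣ (L1 M).w := by
    rw [L1_w_eq M, mul_one]
    exact hpM
  have hMA : ((M : Qbar))⁻¹ ∈ A := Fermat.Agent.RED.NumInst4.inv_natCast_mem hp hA M hpM
  exact targets_of_level' hb (L1 M) (D1 M) (C1 M) (distinct1 M) (full_le_L1_of_dvd M hnM)
    (cvT n e M) hcv (fun h => hpM (dvd_trans h hnM)) hw hA
    (Fermat.Agent.DS.G.ES.RED.GaussInputsX1.gaussInputs_X1gens M p hpM A hA)
    (hKrat_L1 M) (hInt_L1 M A hMA)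

/-- **The three targets at `L1 M`, base `(4, 8)`**: `4 ∣ M`, `p ∤ M`, `A` over `p`. -/
theorem targets_L1_four (hM : 4 ∣ M) (hpM : ¬ p ∣ M) (hA : A.LiesOverPrime p) :
    OffTarget (L1 M).F₀ 4 8 A (cvT 4 8 M) ∧ OverTarget (L1 M).F₀ 4 8 A (cvT 4 8 M) ∧
      InfTarget (L1 M).F₀ 4 8 A :=
  targets_L1_of_base A M baseHyp_four hM (cuspExp_four1 M hM) hpM hA

/-- **The three targets at `L1 M`, base `(9, 3)`**: `9 ∣ M`, `p ∤ M`, `A` over `p`. -/
theorem targets_L1_nine (hM : 9 ∣ M) (hpM : ¬ p ∣ M) (hA : A.LiesOverPrime p) :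
    OffTarget (L1 M).F₀ 9 3 A (cvT 9 3 M) ∧ OverTarget (L1 M).F₀ 9 3 A (cvT 9 3 M) ∧
      InfTarget (L1 M).F₀ 9 3 A :=
  targets_L1_of_base A M baseHyp_nine hM (cuspExp_nine1 M hM) hpM hA

end Fermat.Agent.DS.X1.Targets29
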