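/-
Programme DS (S48), chapter X1 / G-RED-C (helper29): **the instance `CuspEmbK16.CuspExpK (L1 M) K`**
of helper28's abstract compressed cusp expansion, at EVERY cusp `γ`, for every `K ∋ ζ_M`, together
with its integrality input `hA` for every valuation subring `A` of `ℚbar` with `1/M ∈ A`
(e.g. `A` over a prime `ℓ ∤ M`).

* `Tc_genc_coeff_mem`   : coefficients of `CuspExact16.Tc (cuspDataK1 M) γ (genc g)` lie in
  `ℤ[ζ_M, 1/M]` (`CuspInt29.S1 M`);
* `cuspExpK1 M K hζ γ`  : `CuspExpK (L1 M) K`  (`Tc`, `placeOf`, `Tc_const`, `order_Tc` of the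
  `CuspExact16` twin; `gen_coeff_mem` from `S1_le_of_mem`);
* `cuspExpK1_hA`        : `∀ g n, ((cuspExpK1 ..).Tc (genc g)).coeff n ∈ A`  when `1/M ∈ A`;
* `cuspExpK1_hA_of_liesOver` : the same from `A.LiesOverPrime ℓ`, `¬ ℓ ∣ M`.
-/
import Mathlib
import Fermat.Agent.DS.X1.CuspInt29
import Fermat.Agent.DS.G.RED.CUSP.CuspExact16
import Fermat.Agent.DS.G.RED.CUSP.CuspEmbK16
import Fermat.Agent.RED.NumInst4

set_option autoImplicit false
set_option linter.unusedSectionVars false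

noncomputable section

namespace Fermat.Agent.DS.X1.CuspExpKInst29

open Fermat.Agent.X0 (Kbar iotaK iotaK_injective)
open scoped MatrixGroups
open Fermat.Agent.RED.Interface4 (Qbar)
open Fermat.Agent.DS.G.Level Fermat.Agent.DS.X1.Level1 Fermat.Agent.DS.X1.Inst13
open Fermat.Agent.DS.X1.CuspInt29
open Fermat.Agent.DS.G.RED.CUSP

variable (M : ℕ) [NeZero M]

/-- The coefficients of the COMPRESSED cusp expansions of the generators lie in `ℤ[ζ_M, 1/M]`. -/
theorem Tc_genc_coeff_mem (γ : SL(2, ℤ)) (g : (L1 M).gensQ) (n : ℤ) :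
    (CuspExact16.Tc (cuspDataK1 M) γ (genc (L1 M) Kbar g)).coeff n ∈ S1 M := by
  rw [CuspExact16.Tc_coeff]
  exact cuspDataK1_T_genc_coeff_mem M γ g _

/-- **The compressed cusp expansion at the cusp `γ∞` of `X₁(M)/±`, rational over `K ∋ ζ_M`.** -/
def cuspExpK1 (K : IntermediateField ℚ Qbar) (hζ : zetaK1 M ∈ K) (γ : SL(2, ℤ)) :
    CuspEmbK16.CuspExpK (L1 M) K where
  Tc := CuspExact16.Tc (cuspDataK1 M) γ
  v := CuspExact16.placeOf (cuspDataK1 M) γ
  Tc_const := CuspExact16.Tc_const (cuspDataK1 M) γ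
  order_Tc := CuspExact16.order_Tc (cuspDataK1 M) (cuspDataK1_distinct M) γ
  gen_coeff_mem := fun g n =>
    S1_le_of_mem M K.toSubfield hζ (Tc_genc_coeff_mem M γ g n)

@[simp] theorem cuspExpK1_Tc (K : IntermediateField ℚ Qbar) (hζ : zetaK1 M ∈ K) (γ : SL(2, ℤ)) :
    (cuspExpK1 M K hζ γ).Tc = CuspExact16.Tc (cuspDataK1 M) γ := rfl

@[simp] theorem cuspExpK1_v (K : IntermediateField ℚ Qbar) (hζ : zetaK1 M ∈ K) (γ : SL(2, ℤ)) :
    (cuspExpK1 M K hζ γ).v = CuspExact16.placeOf (cuspDataK1 M) γ := rfl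

/-- **Integrality input `hA` of `CuspEmbK16.TK_mem_psFrac` etc.** -/
theorem cuspExpK1_hA (A : ValuationSubring Qbar) (hM : ((M : Qbar))⁻¹ ∈ A)
    (K : IntermediateField ℚ Qbar) (hζ : zetaK1 M ∈ K) (γ : SL(2, ℤ))
    (g : (L1 M).gensQ) (n : ℤ) :
    ((cuspExpK1 M K hζ γ).Tc (genc (L1 M) Qbar g)).coeff n ∈ A :=
  S1_le_valuationSubring M A hM (Tc_genc_coeff_mem M γ g n)

/-- The same for `A` over a prime `ℓ ∤ M`. -/
theorem cuspExpK1_hA_of_liesOver {ℓ : ℕ} (hℓ : ℓ.Prime) {A : ValuationSubring Qbar}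
    (hA : A.LiesOverPrime ℓ) (hℓM : ¬ ℓ ∣ M)
    (K : IntermediateField ℚ Qbar) (hζ : zetaK1 M ∈ K) (γ : SL(2, ℤ))
    (g : (L1 M).gensQ) (n : ℤ) :
    ((cuspExpK1 M K hζ γ).Tc (genc (L1 M) Qbar g)).coeff n ∈ A :=
  cuspExpK1_hA M A (Fermat.Agent.RED.NumInst4.inv_natCast_mem hℓ hA M hℓM) K hζ γ g n

/-- There is a number field containing `ζ_M` (for the `EventuallyT`-style statements). -/
theorem exists_numberField_zeta :
    ∃ K₀ : IntermediateField ℚ Qbar, FiniteDimensional ℚ K₀ ∧ zetaK1 M ∈ K₀ := by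
  have : Algebra.IsAlgebraic ℚ Qbar := AlgebraicClosure.isAlgebraic ℚ
  have hint : IsIntegral ℚ (zetaK1 M) :=
    (Algebra.IsAlgebraic.isAlgebraic (R := ℚ) (zetaK1 M)).isIntegral
  exact ⟨IntermediateField.adjoin ℚ {zetaK1 M},
    IntermediateField.adjoin.finiteDimensional hint,
    IntermediateField.mem_adjoin_simple_self ℚ _⟩

end Fermat.Agent.DS.X1.CuspExpKInst29
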