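/-
Programme DS (S48), chapter X1 (helper89): the BASE chapter of G-RED at the level `L1 M = ±Γ₁(M)`,
UNCONDITIONALLY, for the model `(D1 M, C1 M)` of `DS/X1/Model1.lean`:
`BaseExports n e (L1 M) (D1 M) ∧ CuspExports n e (L1 M) (D1 M) (C1 M) (cvT n e M)` for
`(n, e) = (4, 8)` if `4 ∣ M`, `(9, 3)` if `9 ∣ M`; in particular `TIsGen`, `Unbranched`, `CuspExp`,
`CuspSeparated`, FiniteAvoidsCusps, and the finiteness of the set of cusp values.
-/
import Mathlib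
import Fermat.Agent.DS.X1.CuspExp1
import Fermat.Agent.DS.G.RED.BASE.BaseLevel12

set_option autoImplicit false
set_option linter.unusedSectionVars false

open ModularCurve AlgebraicCurve
open scoped MatrixGroups

namespace Fermat.Agent.DS.X1.Base1

open Fermat.Agent.X0 Fermat.Agent.DS.G.Level Fermat.Agent.DS.X1.Level1 Fermat.Agent.DS.X1.Model1
open Fermat.Agent.DS.G.RED.BASE.Interface12
open Fermat.Agent.RED.BASE.CuspExpMain11 (cvT)
open Fermat.Agent.DS.G.RED.BASE.Main12 Fermat.Agent.DS.G.RED.BASE.MainCusp12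
open Fermat.Agent.DS.X1.CuspExp1

variable (M : ℕ) [NeZero M]

theorem full_le_L1_of_dvd {n : ℕ} (h : n ∣ M) : modularFunctionFieldFull n ≤ (L1 M).F₀ :=
  Fermat.Agent.DS.G.RED.BASE.BaseLevel12.full_le_of_dvd h (full_le_L1 M)

/-- **BASE chapter at `±Γ₁(M)`, `4 ∣ M`.** -/
theorem base_four1 (hM : 4 ∣ M) :
    BaseExports 4 8 (L1 M) (D1 M) ∧ CuspExports 4 8 (L1 M) (D1 M) (C1 M) (cvT 4 8 M) :=
  Fermat.Agent.DS.G.RED.BASE.BaseLevel12.base_four (L1 M) (D1 M) (C1 M) (distinct1 M) M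
    (full_le_L1 M) 1 (L1_w_eq M) hM

/-- **BASE chapter at `±Γ₁(M)`, `9 ∣ M`.** -/
theorem base_nine1 (hM : 9 ∣ M) :
    BaseExports 9 3 (L1 M) (D1 M) ∧ CuspExports 9 3 (L1 M) (D1 M) (C1 M) (cvT 9 3 M) :=
  Fermat.Agent.DS.G.RED.BASE.BaseLevel12.base_nine (L1 M) (D1 M) (C1 M) (distinct1 M) M
    (full_le_L1 M) 1 (L1_w_eq M) hM

theorem tIsGen_four1 (hM : 4 ∣ M) : TIsGen 4 8 (L1 M) := (base_four1 M hM).1.isGen

theorem tIsGen_nine1 (hM : 9 ∣ M) : TIsGen 9 3 (L1 M) := (base_nine1 M hM).1.isGen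

theorem unbranched_four1 (hM : 4 ∣ M) : Unbranched 4 8 (L1 M) := (base_four1 M hM).1.unbranched

theorem unbranched_nine1 (hM : 9 ∣ M) : Unbranched 9 3 (L1 M) := (base_nine1 M hM).1.unbranched

theorem tMem_four1 (hM : 4 ∣ M) : TMem 4 8 (L1 M) := (base_four1 M hM).1.mem

theorem tMem_nine1 (hM : 9 ∣ M) : TMem 9 3 (L1 M) := (base_nine1 M hM).1.mem

/-- (FIN) at `±Γ₁(M)`, `4 ∣ M`. -/
theorem exists_finset_cuspValues_four1 (hM : 4 ∣ M) :
    ∃ S : Finset Kbar, ∀ (γ : SL(2, ℤ)) (c : Kbar), cvT 4 8 M γ = some c → c ∈ S :=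
  exists_finset_cuspValues (C1 M) (distinct1 M) _ (cuspExp_four1 M hM).1

/-- (FIN) at `±Γ₁(M)`, `9 ∣ M`. -/
theorem exists_finset_cuspValues_nine1 (hM : 9 ∣ M) :
    ∃ S : Finset Kbar, ∀ (γ : SL(2, ℤ)) (c : Kbar), cvT 9 3 M γ = some c → c ∈ S :=
  exists_finset_cuspValues (C1 M) (distinct1 M) _ (cuspExp_nine1 M hM).1

end Fermat.Agent.DS.X1.Base1
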