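/-
Programme DS (S48), chapter X1 / IGUSA (helper27): **DistinctMod, part A — the `Γ₀(M)`-cosets are
separated modulo `π` by the cusp expansions of `j(M·)`.**

`K` a field with `ι : K →+* ℂ`, `ζ ∈ K`, `ι ζ = e^{2πi/M}`; `O ≤ K` a valuation subring in which `M`
is invertible (residue characteristic prime to `M`).  For `γ ∈ SL(2,ℤ)` the `q_M`-expansion of
`j(M·γτ)` is `ζ_e^{-b} Q^{-a²} + …` (Hermite data `a e = M`, `b mod e`), with coefficients in
`ℤ[ζ] ⊆ O`.  Its reduction modulo the maximal ideal of `O` still determines `a` (pole order) and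
`b mod e` (leading coefficient: `ζ_e` stays a primitive `e`-th root of unity in the residue field),
hence the coset `Γ₀(M) γ`.

* `gaussRed_laurentOf_coeff` : coefficients of the reduction of an `O`-integral series;
* `dvd_of_res_zpow_eq_one`   : `ζ_e^k ≡ 1` modulo `𝔪_O` forces `e ∣ k` (`e` invertible in `O`);
* `jd_expansion_mem_gaussRing`: EVERY `q_M`-expansion datum over `K` of `j(d·γτ)` is Gauss-integral;
* `mem_Gamma0_of_gaussRed_eq` : **the separation statement.**
-/
import Mathlib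
import Fermat.Agent.DS.X1.GabCuspFrac27
import Fermat.Agent.X0.CuspDistinct
import Fermat.Agent.X0.HermiteFull
import Fermat.Agent.X0.HermiteCoset

set_option autoImplicit false
set_option linter.unusedSectionVars false

noncomputable section

namespace Fermat.Agent.DS.X1.DistMod27A

open Fermat.Agent.X0 Fermat.Agent.X0.Hermite Fermat.Agent.X0.QExpAffine
open Fermat.Agent.X0.CuspDistinct
open UpperHalfPlane hiding I
open Complex Filter Topology MatrixGroups Matrix CongruenceSubgroup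
open Fermat.Agent.DS.X1.GabCusp Fermat.Agent.DS.X1.GabCuspFrac27
open Fermat.Agent.RED.PUR.GaussGen8

/-! ### Reduction of `O`-integral series -/

section Integral

variable {K : Type} [Field K] (O : ValuationSubring K)

/-- The `O`-model of a power series with coefficients in `O`. -/
def psO (P : PowerSeries K) (h : ∀ n, PowerSeries.coeff n P ∈ O) : PowerSeries ↥O :=
  PowerSeries.mk fun n => ⟨PowerSeries.coeff n P, h n⟩

theorem coeff_psO (P : PowerSeries K) (h : ∀ n, PowerSeries.coeff n P ∈ O) (n : ℕ) :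
    PowerSeries.coeff n (psO O P h) = ⟨PowerSeries.coeff n P, h n⟩ := by
  rw [psO, PowerSeries.coeff_mk]

theorem embK_laurentOf_psO (m : ℕ) (P : PowerSeries K) (h : ∀ n, PowerSeries.coeff n P ∈ O) :
    embK O (laurentOf m (psO O P h)) = laurentOf m P := by
  have e : (psO O P h).map O.subtype = P := by
    ext n
    rw [PowerSeries.coeff_map, coeff_psO]
    rfl
  rw [embK, coeffMap_laurentOf, e]

theorem laurentOf_mem_gaussRing (m : ℕ) (P : PowerSeries K)
    (h : ∀ n, PowerSeries.coeff n P ∈ O) : laurentOf m P ∈ gaussRing O := by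
  rw [← embK_laurentOf_psO O m P h]
  exact embK_mem O _

/-- proof-irrelevance for `gaussRed`. -/
theorem gaussRed_congr {u v : LaurentSeries K} (hu : u ∈ gaussRing O) (hv : v ∈ gaussRing O)
    (e : u = v) : gaussRed O ⟨u, hu⟩ = gaussRed O ⟨v, hv⟩ := by
  subst e
  rfl

/-- **Coefficients of the reduction of an `O`-integral series.** -/
theorem gaussRed_laurentOf_coeff (m : ℕ) (P : PowerSeries K)
    (h : ∀ n, PowerSeries.coeff n P ∈ O) (hm : laurentOf m P ∈ gaussRing O) (k : ℤ) :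
    (gaussRed O ⟨laurentOf m P, hm⟩).coeff k =
      if 0 ≤ k + m then res0 O ⟨PowerSeries.coeff (k + m).toNat P, h _⟩ else 0 := by
  rw [gaussRed_congr O hm (embK_mem O _) (embK_laurentOf_psO O m P h).symm, gaussRed_embK,
    redL_coeff, Fermat.Agent.X0.laurentOf_coeff]
  split_ifs with hk
  · rw [coeff_psO]
  · rw [map_zero]

end Integral

/-! ### Roots of unity modulo the maximal ideal -/

section Roots

variable {K : Type} [Field K] (O : ValuationSubring K)

/-- If `e` is invertible in `O` and `ζ_e` is a primitive `e`-th root of unity, then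
`ζ_e^k ≡ 1` modulo the maximal ideal of `O` only for `e ∣ k`. -/
theorem dvd_of_res_zpow_eq_one {e : ℕ} (he : 0 < e) {ζe : K} (hprim : IsPrimitiveRoot ζe e)
    (hinv : ((e : K))⁻¹ ∈ O) (k : ℤ) (hk : ζe ^ k ∈ O)
    (h1 : res0 O ⟨ζe ^ k, hk⟩ = 1) : (e : ℤ) ∣ k := by
  have hpow : ζe ^ e = 1 := hprim.pow_eq_one
  have hz : ∀ j : ℤ, ζe ^ j ∈ O := zpow_mem_of_pow_eq_one O he hpow
  -- reduce the exponent modulo `e`
  have heZ : (e : ℤ) ≠ 0 := by exact_mod_cast he.ne'
  set r : ℤ := k % e with hr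
  have hr0 : 0 ≤ r := Int.emod_nonneg k heZ
  have hrlt : r < e := Int.emod_lt_of_pos k (by exact_mod_cast he)
  have hkr : ζe ^ k = ζe ^ r := by
    have h2 : k = r + e * (k / e) := by
      rw [hr]
      exact (Int.emod_add_mul_ediv k e).symm
    have hζ0 : ζe ≠ 0 := hprim.ne_zero he.ne'
    conv_lhs => rw [h2]
    rw [zpow_add₀ hζ0, _root_.zpow_mul, zpow_natCast, hpow, _root_.one_zpow, mul_one]
  by_cases hr1 : r = 0
  · exact Int.dvd_of_emod_eq_zero (hr ▸ hr1)
  exfalso
  -- `r = j + 1` with `j < e - 1`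
  obtain ⟨n, rfl⟩ : ∃ n, e = n + 1 := ⟨e - 1, by omega⟩
  obtain ⟨j, hj⟩ : ∃ j : ℕ, r = (j : ℤ) + 1 := ⟨(r - 1).toNat, by omega⟩
  have hjn : j < n := by
    have : (j : ℤ) + 1 < (n : ℤ) + 1 := by
      rw [← hj]
      exact_mod_cast hrlt
    omega
  have hprod := IsPrimitiveRoot.prod_one_sub_pow_eq_order (R := K) hprim
  -- the same product in `O`
  have hζO : ζe ∈ O := by simpa using hz 1
  let f : ℕ → ↥O := fun i => ⟨1 - ζe ^ (i + 1), sub_mem (one_mem O) (pow_mem hζO _)⟩
  have hprodO : (∏ i ∈ Finset.range n, f i) = ((n + 1 : ℕ) : ↥O) := by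
    apply Subtype.ext
    rw [← O.subtype_apply, map_prod]
    simp only [f, ValuationSubring.subtype_apply]
    rw [hprod]
    push_cast
    rfl
  -- one factor reduces to zero
  have hfj : res0 O (f j) = 0 := by
    have e1 : f j = 1 - ⟨ζe ^ k, hk⟩ := by
      apply Subtype.ext
      show 1 - ζe ^ (j + 1) = 1 - ζe ^ k
      rw [hkr, hj]
      norm_cast
    rw [e1, map_sub, map_one, h1, sub_self]
  have hres : res0 O ((n + 1 : ℕ) : ↥O) = 0 := by
    rw [← hprodO, map_prod]
    exact Finset.prod_eq_zero (Finset.mem_range.mpr hjn) hfj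
  -- but `e` is a unit of `O`
  have hunit : IsUnit ((n + 1 : ℕ) : ↥O) := by
    refine IsUnit.of_mul_eq_one ⟨((n + 1 : ℕ) : K)⁻¹, hinv⟩ ?_
    apply Subtype.ext
    show ((n + 1 : ℕ) : K) * ((n + 1 : ℕ) : K)⁻¹ = 1
    have : ((n + 1 : ℕ) : K) ≠ 0 := by
      intro h0
      have h3 : ζe ^ (n + 1) = 1 := hpow
      have := hprim.ne_zero (Nat.succ_ne_zero n)
      -- `char K ∤ e`: otherwise `(e : K)⁻¹ = 0`, fine, but then `X^e - 1` is inseparable
      have hc := hprod
      rw [show ((n : K) + 1) = ((n + 1 : ℕ) : K) by push_cast; rfl, h0] at hc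
      obtain ⟨i, hi, hi0⟩ := Finset.prod_eq_zero_iff.mp hc
      have hi1 : ζe ^ (i + 1) = 1 := (sub_eq_zero.mp hi0).symm
      have hdvd := (hprim.pow_eq_one_iff_dvd (i + 1)).mp hi1
      have hlt : i + 1 < n + 1 := by
        have := Finset.mem_range.mp hi
        omega
      exact absurd (Nat.le_of_dvd (Nat.succ_pos i) hdvd) (by omega)
    exact mul_inv_cancel₀ this
  have := (IsLocalRing.residue_ne_zero_iff_isUnit _).mpr hunit
  exact this hres

end Roots

/-! ### The expansions of `j(M·γτ)` over `K` -/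

section Main

variable {K : Type} [Field K] (O : ValuationSubring K) (ι : K →+* ℂ)

/-- `q·j` over `K`. -/
def jNumK (K : Type) [Field K] : PowerSeries K := ModularCurve.jNum.map (Int.castRingHom K)

theorem map_jNumK : (jNumK K).map ι = jNumC := by
  ext n
  simp [jNumK, coeff_jNumC, PowerSeries.coeff_map]

theorem coeff_zero_jNumK : PowerSeries.coeff 0 (jNumK K) = 1 := by
  rw [jNumK, PowerSeries.coeff_map, PowerSeries.coeff_zero_eq_constantCoeff_apply,
    ModularCurve.constantCoeff_jNum]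
  simp

/-- The expansion datum of `z ↦ j((a z + b)/e)` over `K`, for `z = ζ_e^b`. -/
def cdQK (a : ℕ) (ha : 0 < a) (z : K) : PowerSeries K :=
  PowerSeries.C z⁻¹ *
    PowerSeries.expand (a * a) (Nat.mul_ne_zero ha.ne' ha.ne') (PowerSeries.rescale z (jNumK K))

theorem map_cdQK (a e : ℕ) (b : ℤ) (ha : 0 < a) (z : K) (hz : ι z = cd_zeta e b) :
    (cdQK a ha z).map ι = cd_Q a e b ha := by
  unfold cdQK cd_Q
  rw [map_mul, PowerSeries.map_C, map_inv₀, hz, PowerSeries.map_expand, ← PowerSeries.rescale_map,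
    hz, map_jNumK]

theorem coeff_cdQK (a : ℕ) (ha : 0 < a) (z : K) (k : ℕ) :
    PowerSeries.coeff k (cdQK a ha z) =
      z⁻¹ * (if a * a ∣ k then z ^ (k / (a * a)) *
        ((PowerSeries.coeff (k / (a * a)) ModularCurve.jNum : ℤ) : K) else 0) := by
  unfold cdQK
  rw [PowerSeries.coeff_C_mul, PowerSeries.coeff_expand]
  split_ifs with h
  · rw [PowerSeries.coeff_rescale, jNumK, PowerSeries.coeff_map]
    rfl
  · rfl

theorem coeff_zero_cdQK (a : ℕ) (ha : 0 < a) (z : K) :
    PowerSeries.coeff 0 (cdQK a ha z) = z⁻¹ := by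
  rw [coeff_cdQK, if_pos (dvd_zero _), Nat.zero_div, pow_zero, one_mul,
    PowerSeries.coeff_zero_eq_constantCoeff_apply, ModularCurve.constantCoeff_jNum]
  simp

theorem coeff_cdQK_mem (a : ℕ) (ha : 0 < a) {z : K} {n : ℕ} (hn : 0 < n) (hz : z ^ n = 1)
    (k : ℕ) : PowerSeries.coeff k (cdQK a ha z) ∈ O := by
  rw [coeff_cdQK]
  have hz1 : ∀ j : ℤ, z ^ j ∈ O := zpow_mem_of_pow_eq_one O hn hz
  have hzinv : z⁻¹ ∈ O := by simpa using hz1 (-1)
  refine mul_mem hzinv ?_
  split_ifs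
  · refine mul_mem ?_ (intCast_mem O _)
    have := hz1 ((k / (a * a) : ℕ) : ℤ)
    rwa [zpow_natCast] at this
  · exact zero_mem O

variable (M : ℕ) [NeZero M]

theorem isPrimitiveRoot_zeta {ζ : K} (hζ : ι ζ = zetaC M) : IsPrimitiveRoot ζ M := by
  refine IsPrimitiveRoot.of_map_of_injective (f := ι) ?_ ι.injective
  rw [hζ, zetaC]
  exact Complex.isPrimitiveRoot_exp M (NeZero.ne M)

/-- `ι ((ζ^a)^b) = e^{2πi b/e}` for `a e = M`. -/
theorem map_zroot {ζ : K} (hζ : ι ζ = zetaC M) {a e : ℕ} (he : 0 < e) (hae : a * e = M) (b : ℤ) :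
    ι ((ζ ^ a) ^ b) = cd_zeta e b := by
  rw [map_zpow₀, map_pow, hζ, zetaC, cd_zeta, ← Complex.exp_nat_mul, ← Complex.exp_int_mul]
  congr 1
  have heC : (e : ℂ) ≠ 0 := by exact_mod_cast he.ne'
  have haC : (a : ℂ) ≠ 0 := by
    have : a ≠ 0 := by
      rintro rfl
      rw [zero_mul] at hae
      exact (NeZero.ne M) hae.symm
    exact_mod_cast this
  have hM : ((M : ℕ) : ℂ) = (a : ℂ) * (e : ℂ) := by
    rw [← hae]
    push_cast
    ring
  rw [hM]
  field_simp

/-- **Every `q_M`-expansion datum over `K` of `j(M·γτ)` is Gauss-integral.** -/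
theorem jd_expansion_mem_gaussRing {ζ : K} (hζ : ι ζ = zetaC M) (γ : SL(2, ℤ)) {m : ℕ}
    {P : PowerSeries K} (hP : IsQExp M (compSL (jdFun M) γ) m (P.map ι)) :
    laurentOf m P ∈ gaussRing O := by
  have hMpos : 0 < M := Nat.pos_of_ne_zero (NeZero.ne M)
  obtain ⟨δ, a, e, b, ha, he, hae, -, -, -, -, -, -, hj⟩ := HermiteFull.exists_hermite_full γ M
  have hfun : compSL (jdFun M) γ = fun z => jFun (Hermite.affH a e b ha he z) :=
    funext fun z => hj z
  have q1 : IsQExp M (compSL (jdFun M) γ) (a * a) ((cdQK a ha ((ζ ^ a) ^ b)).map ι) := by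
    rw [map_cdQK ι a e b ha _ (map_zroot ι M hζ he hae b), hfun]
    exact cd_isQExp_jFun_affH b ha he hae
  have e1 : laurentOf m P = laurentOf (a * a) (cdQK a ha ((ζ ^ a) ^ b)) :=
    CuspEquiv.laurentOf_inj_of_map ι ι.injective (CuspEquiv.laurentOf_eq_of_isQExp hP q1)
  rw [e1]
  refine laurentOf_mem_gaussRing O _ _ (coeff_cdQK_mem O a ha hMpos ?_)
  rw [← zpow_natCast, ← _root_.zpow_mul, mul_comm, _root_.zpow_mul, zpow_natCast, ← pow_mul,
    mul_comm, pow_mul, (isPrimitiveRoot_zeta ι M hζ).pow_eq_one, one_pow, _root_.one_zpow]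

/-- **`Γ₀(M)`-separation modulo the maximal ideal**: if `M` is invertible in `O` and the
reductions of the `q_M`-expansions of `j(M·γτ)` and `j(M·γ'τ)` agree, then `γ' γ⁻¹ ∈ Γ₀(M)`. -/
theorem mem_Gamma0_of_gaussRed_eq {ζ : K} (hζ : ι ζ = zetaC M) (hinv : ((M : K))⁻¹ ∈ O)
    {γ γ' : SL(2, ℤ)} {m m' : ℕ} {P P' : PowerSeries K}
    (hP : IsQExp M (compSL (jdFun M) γ) m (P.map ι))
    (hP' : IsQExp M (compSL (jdFun M) γ') m' (P'.map ι))
    (h1 : laurentOf m P ∈ gaussRing O) (h2 : laurentOf m' P' ∈ gaussRing O)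
    (hred : gaussRed O ⟨laurentOf m P, h1⟩ = gaussRed O ⟨laurentOf m' P', h2⟩) :
    γ' * γ⁻¹ ∈ Gamma0 M := by
  have hMpos : 0 < M := Nat.pos_of_ne_zero (NeZero.ne M)
  have hprimM := isPrimitiveRoot_zeta ι M hζ
  obtain ⟨δ, a, e, b, ha, he, hae, -, -, -, h3, h4, -, hj⟩ := HermiteFull.exists_hermite_full γ M
  obtain ⟨δ', a', e', b', ha', he', hae', -, -, -, h3', h4', -, hj'⟩ :=
    HermiteFull.exists_hermite_full γ' M
  -- the explicit expansions
  set z : K := (ζ ^ a) ^ b with hz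
  set z' : K := (ζ ^ a') ^ b' with hz'
  have hzpow : ∀ (a : ℕ) (b : ℤ), ((ζ ^ a) ^ b) ^ M = 1 := by
    intro a b
    rw [← zpow_natCast, ← _root_.zpow_mul, mul_comm, _root_.zpow_mul, zpow_natCast, ← pow_mul,
      mul_comm, pow_mul, hprimM.pow_eq_one, one_pow, _root_.one_zpow]
  have hfun : compSL (jdFun M) γ = fun z => jFun (Hermite.affH a e b ha he z) :=
    funext fun z => hj z
  have hfun' : compSL (jdFun M) γ' = fun z => jFun (Hermite.affH a' e' b' ha' he' z) :=
    funext fun z => hj' z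
  have q1 : IsQExp M (compSL (jdFun M) γ) (a * a) ((cdQK a ha z).map ι) := by
    rw [map_cdQK ι a e b ha _ (map_zroot ι M hζ he hae b), hfun]
    exact cd_isQExp_jFun_affH b ha he hae
  have q2 : IsQExp M (compSL (jdFun M) γ') (a' * a') ((cdQK a' ha' z').map ι) := by
    rw [map_cdQK ι a' e' b' ha' _ (map_zroot ι M hζ he' hae' b'), hfun']
    exact cd_isQExp_jFun_affH b' ha' he' hae'
  have e1 : laurentOf m P = laurentOf (a * a) (cdQK a ha z) :=
    CuspEquiv.laurentOf_inj_of_map ι ι.injective (CuspEquiv.laurentOf_eq_of_isQExp hP q1)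
  have e2 : laurentOf m' P' = laurentOf (a' * a') (cdQK a' ha' z') :=
    CuspEquiv.laurentOf_inj_of_map ι ι.injective (CuspEquiv.laurentOf_eq_of_isQExp hP' q2)
  have hc1 : ∀ n, PowerSeries.coeff n (cdQK a ha z) ∈ O :=
    coeff_cdQK_mem O a ha hMpos (hzpow a b)
  have hc2 : ∀ n, PowerSeries.coeff n (cdQK a' ha' z') ∈ O :=
    coeff_cdQK_mem O a' ha' hMpos (hzpow a' b')
  have g1 := laurentOf_mem_gaussRing O (a * a) _ hc1
  have g2 := laurentOf_mem_gaussRing O (a' * a') _ hc2
  rw [gaussRed_congr O h1 g1 e1, gaussRed_congr O h2 g2 e2] at hred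
  -- coefficientwise
  have hco : ∀ k : ℤ,
      (if 0 ≤ k + ((a * a : ℕ) : ℤ) then
        res0 O ⟨PowerSeries.coeff (k + ((a * a : ℕ) : ℤ)).toNat (cdQK a ha z), hc1 _⟩ else 0) =
      (if 0 ≤ k + ((a' * a' : ℕ) : ℤ) then
        res0 O ⟨PowerSeries.coeff (k + ((a' * a' : ℕ) : ℤ)).toNat (cdQK a' ha' z'), hc2 _⟩
        else 0) := by
    intro k
    rw [← gaussRed_laurentOf_coeff O (a * a) _ hc1 g1 k,
      ← gaussRed_laurentOf_coeff O (a' * a') _ hc2 g2 k, hred]
  -- the leading coefficients are units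
  have hzO : ∀ (a : ℕ) (b : ℤ), ((ζ ^ a) ^ b)⁻¹ ∈ O := by
    intro a b
    have := zpow_mem_of_pow_eq_one O hMpos (hzpow a b) (-1)
    simpa using this
  have hlead : ∀ (a : ℕ) (ha : 0 < a) (b : ℤ)
      (hc : ∀ n, PowerSeries.coeff n (cdQK a ha ((ζ ^ a) ^ b)) ∈ O),
      res0 O ⟨PowerSeries.coeff 0 (cdQK a ha ((ζ ^ a) ^ b)), hc 0⟩ ≠ 0 := by
    intro a ha b hc
    rw [IsLocalRing.residue_ne_zero_iff_isUnit]
    have hzz : (ζ ^ a) ^ b ∈ O := by
      have := zpow_mem_of_pow_eq_one O hMpos (hzpow a b) 1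
      simpa using this
    refine IsUnit.of_mul_eq_one ⟨(ζ ^ a) ^ b, hzz⟩ ?_
    apply Subtype.ext
    show PowerSeries.coeff 0 (cdQK a ha ((ζ ^ a) ^ b)) * (ζ ^ a) ^ b = 1
    rw [coeff_zero_cdQK]
    have hne : (ζ ^ a) ^ b ≠ 0 := by
      intro h0
      have := hzpow a b
      rw [h0, zero_pow (NeZero.ne M)] at this
      exact zero_ne_one this
    exact inv_mul_cancel₀ hne
  -- `a = a'`
  have hle : a' * a' ≤ a * a := by
    by_contra hlt
    have := hco (-((a' * a' : ℕ) : ℤ))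
    rw [if_neg (by push_cast; omega), if_pos (by simp)] at this
    have e0 : (-((a' * a' : ℕ) : ℤ) + ((a' * a' : ℕ) : ℤ)).toNat = 0 := by simp
    simp only [e0] at this
    exact hlead a' ha' b' hc2 this.symm
  have hle' : a * a ≤ a' * a' := by
    by_contra hlt
    have := hco (-((a * a : ℕ) : ℤ))
    rw [if_pos (by simp), if_neg (by push_cast; omega)] at this
    have e0 : (-((a * a : ℕ) : ℤ) + ((a * a : ℕ) : ℤ)).toNat = 0 := by simp
    simp only [e0] at this
    exact hlead a ha b hc1 this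
  have haa : a = a' := Nat.mul_self_inj.mp (le_antisymm hle' hle)
  subst haa
  have hee : e = e' := by
    have : a * e = a * e' := by rw [hae, hae']
    exact Nat.eq_of_mul_eq_mul_left ha this
  subst hee
  -- the leading coefficients
  have hk := hco (-((a * a : ℕ) : ℤ))
  rw [if_pos (by simp), if_pos (by simp)] at hk
  have e0 : (-((a * a : ℕ) : ℤ) + ((a * a : ℕ) : ℤ)).toNat = 0 := by simp
  simp only [e0] at hk
  -- `ζ_e^{b - b'} ≡ 1`
  have hprime : IsPrimitiveRoot (ζ ^ a) e := hprimM.pow hMpos hae.symm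
  have hζa0 : ζ ^ a ≠ 0 := hprime.ne_zero he.ne'
  have hmemk : (ζ ^ a) ^ (b - b') ∈ O :=
    zpow_mem_of_pow_eq_one O he hprime.pow_eq_one _
  have hone : res0 O ⟨(ζ ^ a) ^ (b - b'), hmemk⟩ = 1 := by
    have hzz : (ζ ^ a) ^ b ∈ O := zpow_mem_of_pow_eq_one O he hprime.pow_eq_one _
    have hsplit : (⟨(ζ ^ a) ^ (b - b'), hmemk⟩ : ↥O) =
        ⟨(ζ ^ a) ^ b, hzz⟩ * ⟨PowerSeries.coeff 0 (cdQK a ha' z'), hc2 0⟩ := by
      apply Subtype.ext
      show (ζ ^ a) ^ (b - b') = (ζ ^ a) ^ b * PowerSeries.coeff 0 (cdQK a ha' z')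
      rw [coeff_zero_cdQK, hz', zpow_sub₀ hζa0, div_eq_mul_inv]
    rw [hsplit, map_mul, ← hk, ← map_mul]
    have : (⟨(ζ ^ a) ^ b, hzz⟩ : ↥O) * ⟨PowerSeries.coeff 0 (cdQK a ha z), hc1 0⟩ = 1 := by
      apply Subtype.ext
      show (ζ ^ a) ^ b * PowerSeries.coeff 0 (cdQK a ha z) = 1
      rw [coeff_zero_cdQK, hz]
      exact mul_inv_cancel₀ (zpow_ne_zero _ hζa0)
    rw [this, map_one]
  have hinve : ((e : K))⁻¹ ∈ O := by
    have h5 : ((e : K))⁻¹ = (a : K) * ((M : K))⁻¹ := by
      have heK : (e : K) ≠ 0 := by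
        intro h0
        have h6 : (M : K) = 0 := by
          rw [← hae]
          push_cast
          rw [h0, mul_zero]
        have h7 : ζ ^ M = 1 := hprimM.pow_eq_one
        -- `(M : K)⁻¹ ∈ O` gives no contradiction by itself; use the primitive root
        have hprod := IsPrimitiveRoot.prod_one_sub_pow_eq_order (R := K) (n := M - 1)
          (μ := ζ) (by rwa [Nat.sub_add_cancel hMpos])
        have h8 : ((M - 1 : ℕ) : K) + 1 = (M : K) := by
          rw [← Nat.cast_succ, Nat.succ_eq_add_one, Nat.sub_add_cancel hMpos]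
        rw [h8, h6] at hprod
        obtain ⟨i, hi, hi0⟩ := Finset.prod_eq_zero_iff.mp hprod
        have hi1 : ζ ^ (i + 1) = 1 := (sub_eq_zero.mp hi0).symm
        have hdvd := (hprimM.pow_eq_one_iff_dvd (i + 1)).mp hi1
        have hlt : i + 1 < M := by
          have := Finset.mem_range.mp hi
          omega
        exact absurd (Nat.le_of_dvd (Nat.succ_pos i) hdvd) (by omega)
      have haK : (a : K) ≠ 0 := by
        intro h0
        apply heK
        -- symmetric argument is not needed: `a e = M` and `M ≠ 0` in `K`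
        exfalso
        have h6 : (M : K) = 0 := by
          rw [← hae]
          push_cast
          rw [h0, zero_mul]
        have hprod := IsPrimitiveRoot.prod_one_sub_pow_eq_order (R := K) (n := M - 1)
          (μ := ζ) (by rwa [Nat.sub_add_cancel hMpos])
        have h8 : ((M - 1 : ℕ) : K) + 1 = (M : K) := by
          rw [← Nat.cast_succ, Nat.succ_eq_add_one, Nat.sub_add_cancel hMpos]
        rw [h8, h6] at hprod
        obtain ⟨i, hi, hi0⟩ := Finset.prod_eq_zero_iff.mp hprod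
        have hi1 : ζ ^ (i + 1) = 1 := (sub_eq_zero.mp hi0).symm
        have hdvd := (hprimM.pow_eq_one_iff_dvd (i + 1)).mp hi1
        have hlt : i + 1 < M := by
          have := Finset.mem_range.mp hi
          omega
        exact absurd (Nat.le_of_dvd (Nat.succ_pos i) hdvd) (by omega)
      have hMK : (M : K) = (a : K) * (e : K) := by
        rw [← hae]
        push_cast
        ring
      rw [hMK]
      field_simp
    rw [h5]
    exact mul_mem (natCast_mem O a) hinv
  have hbb : (e : ℤ) ∣ b - b' :=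
    dvd_of_res_zpow_eq_one O he hprime hinve (b - b') hmemk hone
  exact Hermite.mem_Gamma0_of_hermite γ γ' hae hbb h3 h4 h3' h4'

end Main

end Fermat.Agent.DS.X1.DistMod27A
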