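/-
Programme DS (S48), chapter X1 / IGUSA (helper27): **DistinctMod, part B — separation at `∞` in every
characteristic.**

For a unit `d ≠ ±1` of `ZMod M`, `6 ≤ M`, and ANY field `κ` there is `b ≠ 0` with
`G_{d, bd} ≠ G_{1, b}` in `κ((q))`: the diamond operator `⟨d⟩` moves a formal generator of
`X₁(M)/±` modulo every prime.  (The `q¹`-coefficient of `X_a` is `[a = ±1]`; choose
`b ∉ {0, ±1, ±d⁻¹}`.)  For `M = 5`, `char κ = 2` the statement is false
(`G_{2a,2b} = -G_{a,b}`), whence the hypothesis `6 ≤ M` (for `M ≤ 4` and `M = 6` the only units are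
`±1`).
-/
import Mathlib
import Fermat.Agent.DS.X1.Level1

set_option autoImplicit false
set_option linter.unusedSectionVars false

noncomputable section

namespace Fermat.Agent.DS.X1.DistMod27B

open HahnSeries ModularCurve
open Fermat.Agent.DS.X1.Level1

variable (M : ℕ) [NeZero M]

/-- The `q¹`-coefficient of `X_a` over `R`. -/
theorem coeff_one_xAC (R : Type*) [CommRing R] (a : ZMod M) :
    PowerSeries.coeff 1 (xAC M R a) = ((cA M a 1 : ℤ) : R) := by
  rw [coeff_xAC, Nat.divisors_one, Finset.sum_singleton, Nat.div_one, Nat.cast_one, one_mul]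

theorem cA_one_of_ne {a : ZMod M} (hM : 2 ≤ M) (h1 : a ≠ 1) (h2 : a ≠ -1) : cA M a 1 = 0 := by
  haveI : Fact (1 < M) := ⟨hM⟩
  unfold cA
  rw [Nat.cast_one, if_neg (fun h => h1 h.symm), if_neg (fun h => h2 (by rw [h, neg_neg])),
    if_neg one_ne_zero]
  ring

theorem cA_one_one (hM : 3 ≤ M) : cA M 1 1 = 1 := by
  haveI : Fact (1 < M) := ⟨by omega⟩
  haveI : Fact (2 < M) := ⟨by omega⟩
  unfold cA
  rw [Nat.cast_one, if_pos rfl, if_neg (ZMod.neg_one_ne_one).symm, if_neg one_ne_zero]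
  ring

/-- `G_{a,b} = G_{a',b'}` over a field forces `X_a - X_b = X_{a'} - X_{b'}`. -/
theorem xAC_sub_eq_of_gABC_eq (κ : Type*) [Field κ] {a b a' b' : ZMod M}
    (h : gABC M κ a b = gABC M κ a' b') :
    xAC M κ a - xAC M κ b = xAC M κ a' - xAC M κ b' := by
  unfold gABC at h
  have h1 := mul_left_cancel₀ (wMC_ne_zero κ M) h
  exact HahnSeries.ofPowerSeries_injective h1

/-- **Separation at `∞`**: a unit `d ≠ ±1` of `ZMod M`, `6 ≤ M`, moves some formal generator
`G_{1,b}` over every field. -/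
theorem exists_gABC_ne (κ : Type*) [Field κ] (hM : 6 ≤ M) {d s : ZMod M} (hds : d * s = 1)
    (h1 : d ≠ 1) (h2 : d ≠ -1) :
    ∃ b : ZMod M, b ≠ 0 ∧ b * d ≠ 0 ∧ gABC M κ d (b * d) ≠ gABC M κ 1 b := by
  classical
  -- choose `b` outside `{0, 1, -1, s, -s}`
  let S : Finset (ZMod M) := {0, 1, -1, s, -s}
  have hcard : S.card < (Finset.univ : Finset (ZMod M)).card := by
    rw [Finset.card_univ, ZMod.card]
    calc S.card ≤ 5 := Finset.card_le_five
      _ < M := by omega
  obtain ⟨b, -, hb⟩ := Finset.exists_mem_notMem_of_card_lt_card hcard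
  simp only [S, Finset.mem_insert, Finset.mem_singleton, not_or] at hb
  obtain ⟨hb0, hb1, hb2, hb3, hb4⟩ := hb
  have hbd1 : b * d ≠ 1 := by
    intro h
    apply hb3
    calc b = b * (d * s) := by rw [hds, mul_one]
      _ = (b * d) * s := by ring
      _ = s := by rw [h, one_mul]
  have hbd2 : b * d ≠ -1 := by
    intro h
    apply hb4
    calc b = b * (d * s) := by rw [hds, mul_one]
      _ = (b * d) * s := by ring
      _ = -s := by rw [h, neg_one_mul]
  have hbd0 : b * d ≠ 0 := by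
    intro h
    apply hb0
    calc b = b * (d * s) := by rw [hds, mul_one]
      _ = (b * d) * s := by ring
      _ = 0 := by rw [h, zero_mul]
  refine ⟨b, hb0, hbd0, fun h => ?_⟩
  have h3 := xAC_sub_eq_of_gABC_eq M κ h
  have h4 := congrArg (PowerSeries.coeff 1) h3
  rw [map_sub, map_sub, coeff_one_xAC, coeff_one_xAC, coeff_one_xAC, coeff_one_xAC,
    cA_one_of_ne M (by omega) h1 h2, cA_one_of_ne M (by omega) hbd1 hbd2,
    cA_one_of_ne M (by omega) hb1 hb2, cA_one_one M (by omega)] at h4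
  simp at h4

/-- **Separation at `∞`, two-unit form**: units `d ≠ ±d'` of `ZMod M`, `6 ≤ M`, are distinguished
by some formal generator over every field: `G_{da, db} ≠ G_{d'a, d'b}`. -/
theorem exists_gABC_ne_pair (κ : Type*) [Field κ] (hM : 6 ≤ M) {d s d' s' : ZMod M}
    (hds : d * s = 1) (hds' : d' * s' = 1) (h1 : d ≠ d') (h2 : d ≠ -d') :
    ∃ a b : ZMod M, a ≠ 0 ∧ b ≠ 0 ∧ d * a ≠ 0 ∧ d * b ≠ 0 ∧ d' * a ≠ 0 ∧ d' * b ≠ 0 ∧
      gABC M κ (d * a) (d * b) ≠ gABC M κ (d' * a) (d' * b) := by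
  haveI : Fact (1 < M) := ⟨by omega⟩
  set u : ZMod M := d * s' with hu
  have hus : u * (d' * s) = 1 := by
    calc u * (d' * s) = (d * s) * (d' * s') := by rw [hu]; ring
      _ = 1 := by rw [hds, hds', one_mul]
  have hu1 : u ≠ 1 := by
    intro h
    apply h1
    calc d = d * (d' * s') := by rw [hds', mul_one]
      _ = (d * s') * d' := by ring
      _ = d' := by rw [← hu, h, one_mul]
  have hu2 : u ≠ -1 := by
    intro h
    apply h2
    calc d = d * (d' * s') := by rw [hds', mul_one]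
      _ = (d * s') * d' := by ring
      _ = -d' := by rw [← hu, h, neg_one_mul]
  obtain ⟨b₀, hb0, hbu0, hne⟩ := exists_gABC_ne M κ hM hus hu1 hu2
  have hs'0 : s' ≠ 0 := by
    intro h
    rw [h, mul_zero] at hds'
    exact zero_ne_one hds'
  have e1 : d * s' = u := rfl
  have e2 : d * (s' * b₀) = b₀ * u := by rw [hu]; ring
  have e3 : d' * s' = 1 := hds'
  have e4 : d' * (s' * b₀) = b₀ := by rw [← mul_assoc, hds', one_mul]
  have hu0 : u ≠ 0 := by
    intro h
    rw [h, zero_mul] at hus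
    exact zero_ne_one hus
  refine ⟨s', s' * b₀, hs'0, ?_, ?_, ?_, ?_, ?_, ?_⟩
  · intro h
    apply hb0
    calc b₀ = (d' * s') * b₀ := by rw [hds', one_mul]
      _ = d' * (s' * b₀) := by ring
      _ = 0 := by rw [h, mul_zero]
  · rw [e1]; exact hu0
  · rw [e2]; exact hbu0
  · rw [e3]; exact one_ne_zero
  · rw [e4]; exact hb0
  · rw [e1, e2, e3, e4]; exact hne

end Fermat.Agent.DS.X1.DistMod27B
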