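/-
Programme DS (S48), chapter X1 / IGUSA (helper27): **DistinctMod, part C — distinct reductions
propagate along the Galois group.**

Abstract in `I : Igu77.Input.IgusaInput K O M`: every `g ∈ Gal(L/k)` preserves the Gauss valuation
ring (`IgusaInput.conj_mem_iff`, the Igusa theorem) and fixes the uniformiser `π ∈ K ⊆ k`; hence it
preserves the maximal ideal `π·(Gauss ring)`, and two Gauss-integral elements with distinct
reductions keep distinct reductions after applying `g`.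
-/
import Mathlib
import Fermat.Agent.DS.Igu77.Input

set_option autoImplicit false
set_option linter.unusedSectionVars false

noncomputable section

namespace Fermat.Agent.DS.X1.DistMod27C

open HahnSeries ModularCurve IntermediateField
open Fermat.Agent.RED.PUR.GaussGen8 Fermat.Agent.DS.Igu77.Input

variable {K : Type} [Field K] {O : ValuationSubring K} {M : ℕ} [NeZero M]
  (I : IgusaInput K O M) {π : ↥O} (hπ : IsUnif O π)
  (hE0 : modularFunctionFieldFullC K M ≤ fracField O) (hX0 : X0Uniq K O M)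

/-- proof-irrelevance for `gaussRed`. -/
theorem gaussRed_congr' {u v : LaurentSeries K} (hu : u ∈ gaussRing O) (hv : v ∈ gaussRing O)
    (e : u = v) : gaussRed O ⟨u, hu⟩ = gaussRed O ⟨v, hv⟩ := by
  subst e
  rfl

/-- Constants of `K` lie in the base field `k`. -/
theorem exists_const (c : K) :
    ∃ c₀ : I.k, I.ι (algebraMap I.k I.L c₀) = HahnSeries.C c := by
  refine I.base_surj _ ?_
  rw [← algebraMap_eq_C]
  exact IntermediateField.algebraMap_mem _ c

include hπ hE0 hX0 in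
/-- `g ∈ Gal(L/k)` preserves the kernel of the reduction map. -/
theorem gaussRed_conj_eq_zero (g : I.L ≃ₐ[I.k] I.L) (x : I.L) (hx : I.ι x ∈ gaussRing O)
    (hgx : I.ι (g x) ∈ gaussRing O) (h0 : gaussRed O ⟨I.ι x, hx⟩ = 0) :
    gaussRed O ⟨I.ι (g x), hgx⟩ = 0 := by
  obtain ⟨y, hy⟩ := (gaussRed_eq_zero_iff hπ ⟨I.ι x, hx⟩).mp h0
  have hy' : I.ι x = HahnSeries.C ((π : ↥O) : K) * (y : LaurentSeries K) :=
    congrArg Subtype.val hy
  obtain ⟨c₀, hc₀⟩ := exists_const I ((π : ↥O) : K)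
  set c : I.L := algebraMap I.k I.L c₀ with hc
  have hπK : ((π : ↥O) : K) ≠ 0 := by
    intro h
    exact hπ.ne_zero (Subtype.ext h)
  have hcne : c ≠ 0 := by
    intro h
    rw [h, map_zero] at hc₀
    have h2 : (HahnSeries.C ((π : ↥O) : K) : LaurentSeries K) = 0 := hc₀.symm
    rw [map_eq_zero] at h2
    exact hπK h2
  -- `x = c * x'` with `ι x' = y`
  set x' : I.L := x * c⁻¹ with hx'
  have hxc : x = c * x' := by
    rw [hx', mul_comm x, ← mul_assoc, mul_inv_cancel₀ hcne, one_mul]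
  have hιx' : I.ι x' = (y : LaurentSeries K) := by
    have h1 : I.ι c * I.ι x' = I.ι c * (y : LaurentSeries K) := by
      rw [← map_mul, ← hxc, hc₀, hy']
    have hιc : I.ι c ≠ 0 := (map_ne_zero I.ι).mpr hcne
    exact mul_left_cancel₀ hιc h1
  have hx'mem : I.ι x' ∈ gaussRing O := by
    rw [hιx']
    exact y.2
  have hgx' : I.ι (g x') ∈ gaussRing O := (I.conj_mem_iff hπ hE0 hX0 g x').mpr hx'mem
  have hgc : g c = c := g.commutes c₀
  have e1 : I.ι (g x) = HahnSeries.C ((π : ↥O) : K) * I.ι (g x') := by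
    rw [hxc, map_mul, hgc, map_mul, hc₀]
  rw [gaussRed_eq_zero_iff hπ]
  exact ⟨⟨I.ι (g x'), hgx'⟩, Subtype.ext e1⟩

include hπ hE0 hX0 in
/-- **Distinct reductions propagate along `Gal(L/k)`.** -/
theorem gaussRed_conj_ne (g : I.L ≃ₐ[I.k] I.L) (b₁ b₂ : I.L)
    (h1 : I.ι b₁ ∈ gaussRing O) (h2 : I.ι b₂ ∈ gaussRing O)
    (hne : gaussRed O ⟨I.ι b₁, h1⟩ ≠ gaussRed O ⟨I.ι b₂, h2⟩)
    (h1' : I.ι (g b₁) ∈ gaussRing O) (h2' : I.ι (g b₂) ∈ gaussRing O) :
    gaussRed O ⟨I.ι (g b₁), h1'⟩ ≠ gaussRed O ⟨I.ι (g b₂), h2'⟩ := by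
  intro heq
  apply hne
  -- the difference
  set x : I.L := g (b₁ - b₂) with hx
  have hxmem : I.ι x ∈ gaussRing O := by
    rw [hx, map_sub, map_sub]
    exact sub_mem h1' h2'
  have hx0 : gaussRed O ⟨I.ι x, hxmem⟩ = 0 := by
    have e : (⟨I.ι x, hxmem⟩ : gaussRing O) = ⟨I.ι (g b₁), h1'⟩ - ⟨I.ι (g b₂), h2'⟩ := by
      apply Subtype.ext
      show I.ι x = I.ι (g b₁) - I.ι (g b₂)
      rw [hx, map_sub, map_sub]
    rw [e, map_sub, heq, sub_self]
  have hback : g.symm x = b₁ - b₂ := by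
    rw [hx, AlgEquiv.symm_apply_apply]
  have hdmem : I.ι (g.symm x) ∈ gaussRing O := by
    rw [hback, map_sub]
    exact sub_mem h1 h2
  have h3 := gaussRed_conj_eq_zero I hπ hE0 hX0 g.symm x hxmem hdmem hx0
  have e2 : (⟨I.ι (g.symm x), hdmem⟩ : gaussRing O) = ⟨I.ι b₁, h1⟩ - ⟨I.ι b₂, h2⟩ := by
    apply Subtype.ext
    show I.ι (g.symm x) = I.ι b₁ - I.ι b₂
    rw [hback, map_sub]
  rw [e2, map_sub] at h3
  exact sub_eq_zero.mp h3

end Fermat.Agent.DS.X1.DistMod27C
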