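/-
Programme DS (S48), chapter X1 / IGUSA (helper27), brick X1-DISTMOD, part (F):
**`GB2Step (X1gens M) A`, UNCONDITIONAL** (route I): for every prime `ℓ ∤ M` (including `ℓ = 2`),
every valuation subring `A` of `ℚ̄` over `ℓ`, and `6 ≤ M` or `M` with `(ℤ/M)ˣ = {±1}`
(e.g. `M = 4`).

`GB2Inst27.gb2Step_X1gens_of_card` (the Igusa input `ModRing11.igusaInputOfZeta` + the diamond law on
cusp expansions + DistinctMod) with the index count `DegX1_31.relfinrank_full_le` (helper31).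

* `gb2Step_X1gens` : the general statement;
* `gb2Step_X1gens_of_dvd` : the form used by the final assembly, `4 ∣ M ∨ 9 ∣ M`.
-/
import Mathlib
import Fermat.Agent.DS.X1.GB2Inst27
import Fermat.Agent.DS.X1.DegX1_31
import Fermat.Agent.DS.G.ES.RED.GB2X1Canon

set_option autoImplicit false
set_option linter.unusedSectionVars false
set_option linter.style.haveILetI false

noncomputable section

open HahnSeries ModularCurve IntermediateField

namespace Fermat.Agent.DS.X1.GB2Final27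

open Fermat.Agent.X0 Fermat.Agent.DS.X1.Level1
open Fermat.Agent.RED.Interface4
open Fermat.Agent.DS.G.ES.RED.GaussUnit25 Fermat.Agent.DS.G.ES.RED.GB2X1Canon

/-- **`GB2Step (X1gens M) A`**, unconditional: `A` over a prime `ℓ ∤ M`; `6 ≤ M` or all units of
`ZMod M` are `±1`. -/
theorem gb2Step_X1gens (M : ℕ) [NeZero M] (ℓ : ℕ) [Fact ℓ.Prime]
    (hM : 6 ≤ M ∨ ∀ u u' : (ZMod M)ˣ, u = u' ∨ u = -u') (hℓM : ¬ ℓ ∣ M)
    (A : ValuationSubring Qbar) (hA : A.LiesOverPrime ℓ) : GB2Step (X1gens M) A := by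
  classical
  haveI : Fintype (UnitsModSign M) := Fintype.ofFinite _
  refine Fermat.Agent.DS.X1.GB2Inst27.gb2Step_X1gens_of_card M ℓ hM hℓM A hA (repU M)
    (repU_ne M) ⟨⊥, inferInstance, fun K _ _ => ?_⟩
  rw [← Nat.card_eq_fintype_card]
  exact Fermat.Agent.DS.X1.DegX1_31.relfinrank_full_le M (algebraMap ↥K Kbar)

/-- All units of `ZMod 4` are `±1`. -/
theorem units_four (u u' : (ZMod 4)ˣ) : u = u' ∨ u = -u' := by
  revert u u'
  decide

/-- **`GB2Step (X1gens M) A`** for `4 ∣ M` or `9 ∣ M`, `A` over a prime `ℓ ∤ M`. -/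
theorem gb2Step_X1gens_of_dvd (M : ℕ) [NeZero M] (hM : 4 ∣ M ∨ 9 ∣ M) (ℓ : ℕ) [Fact ℓ.Prime]
    (hℓM : ¬ ℓ ∣ M) (A : ValuationSubring Qbar) (hA : A.LiesOverPrime ℓ) :
    GB2Step (X1gens M) A := by
  have hM0 : 0 < M := Nat.pos_of_ne_zero (NeZero.ne M)
  by_cases h6 : 6 ≤ M
  · exact gb2Step_X1gens M ℓ (Or.inl h6) hℓM A hA
  · have h4 : M = 4 := by
      rcases hM with h | h
      · have := Nat.le_of_dvd hM0 h
        omega
      · have := Nat.le_of_dvd hM0 h
        omega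
    subst h4
    exact gb2Step_X1gens 4 ℓ (Or.inr units_four) hℓM A hA

end Fermat.Agent.DS.X1.GB2Final27
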