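/-
Programme DS (S48), chapter X1 (concrete level `Γ₁(M)`), analytic generators (helper27).
DISTINCT for the generators of `L1 M`: if `j(M·)` and all `g_{a,b}` take the same values along
`γ` and `γ'`, then `γ' γ⁻¹ ∈ ±Γ₁(M)` (entrywise form).
* `mem_Gamma0_of_compSL_jdFun_eq` : function level form of the `Γ₀(N)`-DISTINCT of `X0/CuspDistinct`;
* `pm_one_of_gABfun_invariant` : `δ ∈ Γ₀(M)` fixing all `g_{a,b}` has `δ₀₀ ≡ ± 1 mod M`
  (diamond law + the coefficient of `q` in the rational `q`-expansions);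
* `gab_distinct` : the assembly.
-/
import Fermat.Agent.DS.X1.GabFun
import Fermat.Agent.X0.CuspDistinct
import Fermat.Agent.X0.HermiteCoset
import Fermat.Agent.X0.HermiteFull
import Fermat.Agent.X0.JdExp

set_option autoImplicit false
set_option linter.unusedSectionVars false

noncomputable section

namespace Fermat.Agent.DS.X1.GabDist

open Fermat.Agent.X0
open UpperHalfPlane hiding I
open Complex Filter Topology MatrixGroups Matrix CongruenceSubgroup
open Fermat.Agent.DS.Eis1.WPExp Fermat.Agent.DS.Eis1.WPE6 Fermat.Agent.DS.Eis1.WPFricke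
  Fermat.Agent.DS.X1.GabFun

/-! ### `Γ₀(N)`-DISTINCT at the level of functions -/

/-- If `j(N γ z) = j(N γ' z)` for all `z` then `γ' γ⁻¹ ∈ Γ₀(N)`. -/
theorem mem_Gamma0_of_compSL_jdFun_eq (N : ℕ) [NeZero N] (γ γ' : SL(2, ℤ))
    (h : compSL (jdFun N) γ = compSL (jdFun N) γ') : γ' * γ⁻¹ ∈ Gamma0 N := by
  obtain ⟨δ, a, e, b, ha, he, hae, _, _, _, h3, h4, _, hj⟩ := HermiteFull.exists_hermite_full γ N
  obtain ⟨δ', a', e', b', ha', he', hae', _, _, _, h3', h4', _, hj'⟩ :=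
    HermiteFull.exists_hermite_full γ' N
  have hfun : (fun z => jFun (Hermite.affH a e b ha he z)) =
      fun z => jFun (Hermite.affH a' e' b' ha' he' z) := by
    funext z
    rw [← hj z, ← hj' z]
    exact congrFun h z
  have q1 := CuspDistinct.cd_isQExp_jFun_affH (N := N) b ha he hae
  have q2 := CuspDistinct.cd_isQExp_jFun_affH (N := N) b' ha' he' hae'
  rw [hfun] at q1
  have e1 := CuspDistinct.cd_isQExp_unique q2 q1
  obtain ⟨haa, hz⟩ := CuspDistinct.cd_eq_of_laurentOf_eq ha' ha e1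
  subst haa
  have hee : e' = e := by
    have : a' * e' = a' * e := by rw [hae', hae]
    exact Nat.eq_of_mul_eq_mul_left ha' this
  subst hee
  have hbb : (e' : ℤ) ∣ b - b' := CuspDistinct.cd_dvd_of_zeta_eq he' hz.symm
  exact Hermite.mem_Gamma0_of_hermite γ γ' hae hbb h3 h4 h3' h4'

/-! ### the `q`-expansion of `g_{a,b}` at `∞` -/

section QExp

variable (M : ℕ) [NeZero M]

/-- The series of `(E₄E₆/Δ)(q^M) · q^M`. -/
def wMSeries : PowerSeries ℂ := (wm2Z.map (Int.castRingHom ℂ)).expand M (NeZero.ne M)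

theorem isQExp_wMFun : IsQExp 1 (wMFun M) M (wMSeries M) := by
  have h := isQExp_wm2.comp_scaleH M
  rw [mul_one] at h
  exact h

theorem coeff_zero_wMSeries : PowerSeries.coeff 0 (wMSeries M) = 1 := by
  have h := PowerSeries.coeff_expand_mul M (NeZero.ne M) (wm2Z.map (Int.castRingHom ℂ)) 0
  rw [mul_zero] at h
  rw [wMSeries, h, PowerSeries.coeff_map, PowerSeries.coeff_zero_eq_constantCoeff_apply,
    constantCoeff_wm2Z]
  simp

theorem wMSeries_ne_zero : wMSeries M ≠ 0 := by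
  intro h
  have := coeff_zero_wMSeries M
  rw [h] at this
  simp at this

/-- The rational series of `x_a`. -/
def xSeries (a : ℤ) : PowerSeries ℂ := (PowerSeries.mk (wpRat M a)).map (algebraMap ℚ ℂ)

theorem coeff_xSeries (a : ℤ) (n : ℕ) :
    PowerSeries.coeff n (xSeries M a) = ((wpRat M a n : ℚ) : ℂ) := by
  rw [xSeries, PowerSeries.coeff_map, PowerSeries.coeff_mk]
  rfl

/-- `g_{a,b} = q^{-M} · wMSeries · (xSeries a - xSeries b)`. -/
theorem isQExp_gABfun {a b : ℤ} (ha : ¬ (M : ℤ) ∣ a) (hb : ¬ (M : ℤ) ∣ b) :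
    IsQExp 1 (gABfun M a b) M (wMSeries M * (xSeries M a - xSeries M b)) := by
  have h1 := (isQExp_xFun M ha).add (isQExp_xFun M hb).neg
  have h2 := (isQExp_wMFun M).mul h1
  have hfun : wMFun M * (xFun M a + -xFun M b) = gABfun M a b := by
    funext τ
    simp [gABfun, sub_eq_add_neg]
  rw [hfun] at h2
  simpa [xSeries, sub_eq_add_neg] using h2

end QExp

/-! ### `δ₀₀ ≡ ±1` -/

section PM

variable (M : ℕ) [NeZero M]

lemma wpRat_one {a : ℤ} (hM : 2 ≤ M) :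
    wpRat M a 1 = (if (M : ℤ) ∣ 1 - a then (1 : ℚ) else 0) + (if (M : ℤ) ∣ 1 + a then 1 else 0) := by
  have h1 : ¬ M ∣ 1 := by
    intro h
    have := Nat.le_of_dvd one_pos h
    omega
  unfold wpRat
  rw [if_neg one_ne_zero, if_neg h1, Nat.divisorsAntidiagonal_one, Finset.sum_singleton]
  simp

/-- **`δ ∈ Γ₀(M)` fixing all `g_{a,b}` has `δ₀₀ ≡ ±1 mod M`.** -/
theorem pm_one_of_gABfun_invariant {δ : SL(2, ℤ)} (hδ : δ ∈ Gamma0 M)
    (h : ∀ a b : ℤ, ¬ (M : ℤ) ∣ a → ¬ (M : ℤ) ∣ b → compSL (gABfun M a b) δ = gABfun M a b) :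
    (M : ℤ) ∣ δ 0 0 - 1 ∨ (M : ℤ) ∣ δ 0 0 + 1 := by
  by_cases hM1 : M = 1
  · left
    rw [hM1]
    simp
  have hM2 : 2 ≤ M := by
    have := NeZero.ne M
    omega
  have hd : (M : ℤ) ∣ δ 1 0 := by
    rw [Gamma0_mem] at hδ
    exact (ZMod.intCast_zmod_eq_zero_iff_dvd _ _).mp hδ
  set p : ℤ := δ 0 0 with hp
  set s : ℤ := δ 1 1 with hs
  have hdet : p * s - δ 0 1 * δ 1 0 = 1 := by
    have := Matrix.SpecialLinearGroup.det_coe δ
    rw [Matrix.det_fin_two] at this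
    exact this
  have hps : (M : ℤ) ∣ p * s - 1 := by
    have : p * s - 1 = δ 0 1 * δ 1 0 := by linear_combination hdet
    rw [this]
    exact Dvd.dvd.mul_left hd _
  have h1 : ¬ (M : ℤ) ∣ 1 := by
    intro h'
    have h2 : M ∣ 1 := by exact_mod_cast h'
    have := Nat.le_of_dvd one_pos h2
    omega
  have hp' : ¬ (M : ℤ) ∣ p := by
    intro h'
    apply h1
    have : (1 : ℤ) = p * s - (p * s - 1) := by ring
    rw [this]
    exact dvd_sub (Dvd.dvd.mul_right h' _) hps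
  have hs' : ¬ (M : ℤ) ∣ s := by
    intro h'
    apply h1
    have : (1 : ℤ) = p * s - (p * s - 1) := by ring
    rw [this]
    exact dvd_sub (Dvd.dvd.mul_left h' _) hps
  -- the diamond law at `(a, b) = (1, s)`
  have e1 := h 1 s h1 hs'
  rw [compSL_gABfun M hδ h1 hs'] at e1
  have e2 : gABfun M (1 * δ 0 0) (s * δ 0 0) = gABfun M p 1 := by
    refine gABfun_congr M hp' h1 ?_ ?_
    · rw [one_mul, sub_self]
      exact dvd_zero _
    · have : s * δ 0 0 - 1 = p * s - 1 := by rw [← hp]; ring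
      rw [this]
      exact hps
  rw [e2] at e1
  -- compare the expansions
  have q1 := isQExp_gABfun M hp' h1
  have q2 := isQExp_gABfun M h1 hs'
  rw [e1] at q1
  have e3 := q1.coeff_unique q2
  have e4 := mul_left_cancel₀ (wMSeries_ne_zero M) e3
  have e5 := congrArg (PowerSeries.coeff 1) e4
  simp only [map_sub, coeff_xSeries] at e5
  have e6 : wpRat M p 1 - wpRat M 1 1 = wpRat M 1 1 - wpRat M s 1 := by
    exact_mod_cast e5
  rw [wpRat_one M hM2, wpRat_one M hM2, wpRat_one M hM2] at e6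
  have h11 : (M : ℤ) ∣ 1 - 1 := by simp
  rw [if_pos h11] at e6
  by_contra hcon
  rw [not_or] at hcon
  obtain ⟨hc1, hc2⟩ := hcon
  have hc1' : ¬ (M : ℤ) ∣ 1 - p := fun h' => hc1 ((dvd_sub_comm).mp h')
  have hc2' : ¬ (M : ℤ) ∣ 1 + p := fun h' => hc2 (by rwa [add_comm] at h')
  rw [if_neg hc1', if_neg hc2'] at e6
  by_cases hs1 : (M : ℤ) ∣ 1 - s
  · -- then `M ∣ p - 1`
    apply hc1
    have : p - 1 = (p * s - 1) + p * (1 - s) := by ring
    rw [this]
    exact dvd_add hps (Dvd.dvd.mul_left hs1 _)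
  · rw [if_neg hs1] at e6
    split_ifs at e6 <;> norm_num at e6

end PM

/-! ### the assembly -/

section Assembly

variable (M : ℕ) [NeZero M]

lemma compSL_eq_of_compSL_eq {f : ℍ → ℂ} {γ γ' : SL(2, ℤ)} (h : compSL f γ = compSL f γ') :
    compSL f (γ' * γ⁻¹) = f := by
  funext τ
  have h1 := congrFun h (γ⁻¹ • τ)
  simp only [compSL] at h1 ⊢
  rw [mul_smul, ← h1, smul_inv_smul]

/-- **DISTINCT for `L1 M`** (entrywise form, matching `Level1.mem_Gamma1pm_iff`): if `j(M·)` and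
all `g_{a,b}` agree along `γ` and `γ'`, then `γ' γ⁻¹ ∈ ±Γ₁(M)`. -/
theorem gab_distinct (γ γ' : SL(2, ℤ))
    (hj : compSL (jdFun M) γ = compSL (jdFun M) γ')
    (hg : ∀ a b : ℤ, ¬ (M : ℤ) ∣ a → ¬ (M : ℤ) ∣ b →
      compSL (gABfun M a b) γ = compSL (gABfun M a b) γ') :
    ((((γ' * γ⁻¹ : SL(2, ℤ)) 1 0 : ℤ) : ZMod M) = 0) ∧
      (((((γ' * γ⁻¹ : SL(2, ℤ)) 0 0 : ℤ) : ZMod M) = 1 ∧
          (((γ' * γ⁻¹ : SL(2, ℤ)) 1 1 : ℤ) : ZMod M) = 1) ∨
        ((((γ' * γ⁻¹ : SL(2, ℤ)) 0 0 : ℤ) : ZMod M) = -1 ∧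
          (((γ' * γ⁻¹ : SL(2, ℤ)) 1 1 : ℤ) : ZMod M) = -1)) := by
  set δ : SL(2, ℤ) := γ' * γ⁻¹ with hδdef
  have hδ : δ ∈ Gamma0 M := mem_Gamma0_of_compSL_jdFun_eq M γ γ' hj
  have hinv : ∀ a b : ℤ, ¬ (M : ℤ) ∣ a → ¬ (M : ℤ) ∣ b →
      compSL (gABfun M a b) δ = gABfun M a b :=
    fun a b ha hb => compSL_eq_of_compSL_eq (hg a b ha hb)
  have hpm := pm_one_of_gABfun_invariant M hδ hinv
  have h10 : ((δ 1 0 : ℤ) : ZMod M) = 0 := by
    rw [Gamma0_mem] at hδ
    exact hδ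
  have hdet : (δ 0 0 : ℤ) * δ 1 1 - δ 0 1 * δ 1 0 = 1 := by
    have := Matrix.SpecialLinearGroup.det_coe δ
    rw [Matrix.det_fin_two] at this
    exact this
  have hps : ((δ 0 0 : ℤ) : ZMod M) * ((δ 1 1 : ℤ) : ZMod M) = 1 := by
    have := congrArg (Int.cast : ℤ → ZMod M) hdet
    push_cast at this
    rw [h10, mul_zero, sub_zero] at this
    exact this
  refine ⟨h10, ?_⟩
  rcases hpm with h | h
  · left
    have hp : ((δ 0 0 : ℤ) : ZMod M) = 1 := by
      have := (ZMod.intCast_zmod_eq_zero_iff_dvd _ _).mpr h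
      push_cast at this
      exact sub_eq_zero.mp this
    refine ⟨hp, ?_⟩
    rw [hp, one_mul] at hps
    exact hps
  · right
    have hp : ((δ 0 0 : ℤ) : ZMod M) = -1 := by
      have := (ZMod.intCast_zmod_eq_zero_iff_dvd _ _).mpr h
      push_cast at this
      exact eq_neg_of_add_eq_zero_left this
    refine ⟨hp, ?_⟩
    rw [hp, neg_mul, one_mul] at hps
    exact (neg_eq_iff_eq_neg.mp hps)

end Assembly

end Fermat.Agent.DS.X1.GabDist
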