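/-
Programme DS (S48), chapter X1 (helper16): `±Γ₁(M)` HAS NO ELLIPTIC ELEMENTS for `M ≥ 4`.

Every element of `±Γ₁(M)` has trace `≡ ±2 (mod M)`; the conjugates of `S` have trace `0` and those
of `S T`, `(S T)²` have trace `±1`.  Hence for `4 ≤ M` no conjugate of `S`, `S T` lies in `±Γ₁(M)`,
no coset of `SL(2,ℤ) ⧸ ±Γ₁(M)` is fixed by a conjugate of `S` or `S T`, and the fixed-point counts
vanish (the "no elliptic points" hypothesis of the generic `NoElliptic14` twin, for `L = L1 M`).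
-/
import Mathlib
import Fermat.Agent.DS.X1.Level1

set_option autoImplicit false
set_option linter.unusedSectionVars false

open scoped MatrixGroups
open ModularGroup MulAction

namespace Fermat.Agent.DS.X1.NoElliptic1

open Fermat.Agent.DS.G.Level Fermat.Agent.DS.X1.Level1

variable (M : ℕ) [NeZero M]

/-- the trace of an element of `±Γ₁(M)` is `±2` modulo `M`. -/
theorem trace_of_mem {γ : SL(2, ℤ)} (h : γ ∈ Gamma1pm M) :
    (((γ 0 0 + γ 1 1 : ℤ)) : ZMod M) = 2 ∨ (((γ 0 0 + γ 1 1 : ℤ)) : ZMod M) = -2 := by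
  rw [mem_Gamma1pm_iff] at h
  rcases h.2 with ⟨h0, h1⟩ | ⟨h0, h1⟩
  · left
    push_cast
    rw [h0, h1]
    norm_num
  · right
    push_cast
    rw [h0, h1]
    norm_num

/-- the trace is invariant under conjugation. -/
theorem trace_conj (δ σ : SL(2, ℤ)) :
    (δ * σ * δ⁻¹) 0 0 + (δ * σ * δ⁻¹) 1 1 = σ 0 0 + σ 1 1 := by
  have h1 : ((δ * σ * δ⁻¹ : SL(2, ℤ)) : Matrix (Fin 2) (Fin 2) ℤ)
      = (δ : Matrix (Fin 2) (Fin 2) ℤ) * (σ : Matrix (Fin 2) (Fin 2) ℤ)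
        * ((δ⁻¹ : SL(2, ℤ)) : Matrix (Fin 2) (Fin 2) ℤ) := by
    simp only [Matrix.SpecialLinearGroup.coe_mul]
  have h2 : ((δ⁻¹ : SL(2, ℤ)) : Matrix (Fin 2) (Fin 2) ℤ) * (δ : Matrix (Fin 2) (Fin 2) ℤ) = 1 := by
    rw [← Matrix.SpecialLinearGroup.coe_mul, inv_mul_cancel, Matrix.SpecialLinearGroup.coe_one]
  have h3 : Matrix.trace ((δ * σ * δ⁻¹ : SL(2, ℤ)) : Matrix (Fin 2) (Fin 2) ℤ)
      = Matrix.trace (σ : Matrix (Fin 2) (Fin 2) ℤ) := by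
    rw [h1, Matrix.trace_mul_cycle, h2, one_mul]
  rw [Matrix.trace_fin_two, Matrix.trace_fin_two] at h3
  exact h3

theorem trace_S : (S : SL(2, ℤ)) 0 0 + (S : SL(2, ℤ)) 1 1 = 0 := by
  simp [ModularGroup.S]

theorem trace_ST : (S * T : SL(2, ℤ)) 0 0 + (S * T : SL(2, ℤ)) 1 1 = 1 := by
  simp [Matrix.SpecialLinearGroup.coe_mul, ModularGroup.coe_S, ModularGroup.coe_T,
    Matrix.mul_apply, Fin.sum_univ_two]

/-- `(n : ZMod M) = 0` forces `M ∣ n`. -/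
theorem dvd_of_cast_eq_zero {n : ℤ} (h : ((n : ℤ) : ZMod M) = 0) : (M : ℤ) ∣ n :=
  (ZMod.intCast_zmod_eq_zero_iff_dvd n M).mp h

/-- **No conjugate of `S` lies in `±Γ₁(M)`, `M ≥ 3`.** -/
theorem conj_S_not_mem (hM : 3 ≤ M) (δ : SL(2, ℤ)) : δ * S * δ⁻¹ ∉ Gamma1pm M := by
  intro h
  have ht := trace_of_mem M h
  rw [trace_conj, trace_S] at ht
  have hM' : (3 : ℤ) ≤ M := by exact_mod_cast hM
  rcases ht with ht | ht
  · have h1 : (((-2 : ℤ)) : ZMod M) = 0 := by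
      push_cast at ht ⊢
      rw [← ht]
      norm_num
    have := Int.le_of_dvd (by norm_num) ((dvd_neg).mp (dvd_of_cast_eq_zero M h1))
    omega
  · have h1 : (((2 : ℤ)) : ZMod M) = 0 := by
      push_cast at ht ⊢
      have : (2 : ZMod M) = -(-2) := by ring
      rw [this, ← ht]
      norm_num
    have := Int.le_of_dvd (by norm_num) (dvd_of_cast_eq_zero M h1)
    omega

/-- **No conjugate of `S T` lies in `±Γ₁(M)`, `M ≥ 4`.** -/
theorem conj_ST_not_mem (hM : 4 ≤ M) (δ : SL(2, ℤ)) : δ * (S * T) * δ⁻¹ ∉ Gamma1pm M := by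
  intro h
  have ht := trace_of_mem M h
  rw [trace_conj, trace_ST] at ht
  have hM' : (4 : ℤ) ≤ M := by exact_mod_cast hM
  rcases ht with ht | ht
  · have h1 : (((-1 : ℤ)) : ZMod M) = 0 := by
      push_cast at ht ⊢
      have : (-1 : ZMod M) = 1 - 2 := by ring
      rw [this, ← ht]
      norm_num
    have := Int.le_of_dvd (by norm_num) ((dvd_neg).mp (dvd_of_cast_eq_zero M h1))
    omega
  · have h1 : (((3 : ℤ)) : ZMod M) = 0 := by
      push_cast at ht ⊢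
      have : (3 : ZMod M) = 1 - (-2) := by ring
      rw [this, ← ht]
      norm_num
    have := Int.le_of_dvd (by norm_num) (dvd_of_cast_eq_zero M h1)
    omega

/-- an element `σ` fixes the coset `g Γ` iff `g⁻¹ σ g ∈ Γ`. -/
theorem smul_mk_eq_iff' (Γ : Subgroup SL(2, ℤ)) (σ g : SL(2, ℤ)) :
    σ • (QuotientGroup.mk g : SL(2, ℤ) ⧸ Γ) = QuotientGroup.mk g ↔ g⁻¹ * σ * g ∈ Γ := by
  rw [MulAction.Quotient.smul_mk, eq_comm, QuotientGroup.eq, smul_eq_mul, mul_assoc]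

/-- **No coset of `±Γ₁(M)` is fixed by a conjugate of `S`** (`M ≥ 3`). -/
theorem conj_S_smul_ne (hM : 3 ≤ M) (δ : SL(2, ℤ)) (a : SL(2, ℤ) ⧸ Gamma1pm M) :
    (δ * S * δ⁻¹) • a ≠ a := by
  induction a using QuotientGroup.induction_on with
  | H g =>
    rw [Ne, smul_mk_eq_iff']
    have h := conj_S_not_mem M hM (g⁻¹ * δ)
    have e : g⁻¹ * (δ * S * δ⁻¹) * g = g⁻¹ * δ * S * (g⁻¹ * δ)⁻¹ := by
      rw [mul_inv_rev, inv_inv]
      group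
    rw [e]
    exact h

/-- **No coset of `±Γ₁(M)` is fixed by a conjugate of `S T`** (`M ≥ 4`). -/
theorem conj_ST_smul_ne (hM : 4 ≤ M) (δ : SL(2, ℤ)) (a : SL(2, ℤ) ⧸ Gamma1pm M) :
    (δ * (S * T) * δ⁻¹) • a ≠ a := by
  induction a using QuotientGroup.induction_on with
  | H g =>
    rw [Ne, smul_mk_eq_iff']
    have h := conj_ST_not_mem M hM (g⁻¹ * δ)
    have e : g⁻¹ * (δ * (S * T) * δ⁻¹) * g = g⁻¹ * δ * (S * T) * (g⁻¹ * δ)⁻¹ := by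
      rw [mul_inv_rev, inv_inv]
      group
    rw [e]
    exact h

/-- the fixed-point counts vanish. -/
theorem card_fixedBy_conj_S (hM : 3 ≤ M) (δ : SL(2, ℤ)) :
    Nat.card (fixedBy (SL(2, ℤ) ⧸ Gamma1pm M) (δ * S * δ⁻¹)) = 0 := by
  rw [Nat.card_eq_zero]
  left
  exact ⟨fun a => conj_S_smul_ne M hM δ a.1 a.2⟩

theorem card_fixedBy_conj_ST (hM : 4 ≤ M) (δ : SL(2, ℤ)) :
    Nat.card (fixedBy (SL(2, ℤ) ⧸ Gamma1pm M) (δ * (S * T) * δ⁻¹)) = 0 := by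
  rw [Nat.card_eq_zero]
  left
  exact ⟨fun a => conj_ST_smul_ne M hM δ a.1 a.2⟩

/-- the same for the level `L1 M` (`(L1 M).Gam = ±Γ₁(M)` by `rfl`). -/
theorem L1_conj_S_smul_ne (hM : 3 ≤ M) (δ : SL(2, ℤ)) (a : SL(2, ℤ) ⧸ (L1 M).Gam) :
    (δ * S * δ⁻¹) • a ≠ a := conj_S_smul_ne M hM δ a

theorem L1_conj_ST_smul_ne (hM : 4 ≤ M) (δ : SL(2, ℤ)) (a : SL(2, ℤ) ⧸ (L1 M).Gam) :
    (δ * (S * T) * δ⁻¹) • a ≠ a := conj_ST_smul_ne M hM δ a

theorem L1_card_fixedBy_conj_S (hM : 3 ≤ M) (δ : SL(2, ℤ)) :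
    Nat.card (fixedBy (SL(2, ℤ) ⧸ (L1 M).Gam) (δ * S * δ⁻¹)) = 0 :=
  card_fixedBy_conj_S M hM δ

theorem L1_card_fixedBy_conj_ST (hM : 4 ≤ M) (δ : SL(2, ℤ)) :
    Nat.card (fixedBy (SL(2, ℤ) ⧸ (L1 M).Gam) (δ * (S * T) * δ⁻¹)) = 0 :=
  card_fixedBy_conj_ST M hM δ

end Fermat.Agent.DS.X1.NoElliptic1
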